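/-
Item 82 (S35), piece P5 / DEGJ, generic part (helper23): PUSH-FORWARD on `Pic⁰`.

`φ : F →ₐ[K] F'` a finite embedding of function fields over `K` with the norm formula.
* `dgjDegZeroPush`, `dgjPic0Push φ hφ hfin hN : Pic0 K F' →+ Pic0 K F`, `dgjPic0Push_mk`;
* `dgjPic0Push_smul` : equivariance under semilinear automorphisms intertwined by `φ`;
* `dgjPic0Push_comp` : `(ψ ∘ φ)_* = φ_* ∘ ψ_*`;  `dgjPic0Push_congr`;
* `dgj_push_correspondence` (divisors), `dgjPic0Push_correspondence` (`Pic⁰`):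
  `δ_* ∘ (α₃_* β₃^*) = (α₁_* β₁^*) ∘ δ_*` for a base-change square `a ∘ β₁ = β₃ ∘ δ` with
  `a ∘ α₁ = α₃ ∘ δ`;
* `dgjPic0Push_mk_eq_zero_iff`, `dgj_norm_of_push_eq_zero` : if `m D = div f` and `φ_* [D] = 0`
  then `N_φ f = u · g ^ m` with `div u = 0`.
No sorry.
-/
import Mathlib
import Fermat.Agent.HeckeBar.Commute
import Fermat.Agent.HeckeBar.Galois

set_option autoImplicit false
set_option linter.style.haveILetI false
set_option linter.unusedSectionVars false

noncomputable section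

namespace Fermat.Agent.S35lib

open AlgebraicCurve Fermat.Agent.HeckeBar

section Push

variable {K F F' : Type*} [Field K] [Field F] [Field F'] [Algebra K F] [Algebra K F']
variable (φ : F →ₐ[K] F') (hφ : φ.toRingHom.IsIntegral)
variable (hfin : FiniteAlong K φ) (hN : NormFormulaAlong K φ hfin)

/-- push-forward on divisors of degree zero -/
def dgjDegZeroPush :
    Divisor.degZero (K := K) (F := F') →+ Divisor.degZero (K := K) (F := F) :=
  ((Divisor.pushforwardAlong φ hφ).domRestrict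
    (Divisor.degZero (K := K) (F := F'))).codRestrict _
    (fun D => Divisor.pushforwardAlong_mem_degZero φ hφ D.2)

@[simp]
theorem coe_dgjDegZeroPush (D : Divisor.degZero (K := K) (F := F')) :
    (dgjDegZeroPush φ hφ D : Divisor K F) = Divisor.pushforwardAlong φ hφ (D : Divisor K F') :=
  rfl

/-- **push-forward on `Pic⁰`** along a finite map with the norm formula -/
def dgjPic0Push : Pic0 K F' →+ Pic0 K F :=
  QuotientAddGroup.map _ _ (dgjDegZeroPush φ hφ) (by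
    rintro ⟨D, hD0⟩ hD
    simp only [AddSubgroup.mem_addSubgroupOf] at hD ⊢
    exact Divisor.isPrincipal_pushforwardAlong φ hφ hfin hN hD)

theorem dgjPic0Push_mk (D : Divisor.degZero (K := K) (F := F')) :
    dgjPic0Push φ hφ hfin hN (Pic0.mk D) = Pic0.mk (dgjDegZeroPush φ hφ D) :=
  rfl

/-- the class of a degree-zero divisor vanishes iff the divisor is principal -/
theorem dgj_mk_eq_zero_iff (D : Divisor.degZero (K := K) (F := F)) :
    Pic0.mk D = 0 ↔ (D : Divisor K F).IsPrincipal := by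
  unfold Pic0.mk
  rw [QuotientAddGroup.eq_zero_iff, AddSubgroup.mem_addSubgroupOf]
  rfl

theorem dgjPic0Push_mk_eq_zero_iff (D : Divisor.degZero (K := K) (F := F')) :
    dgjPic0Push φ hφ hfin hN (Pic0.mk D) = 0 ↔
      (Divisor.pushforwardAlong φ hφ (D : Divisor K F')).IsPrincipal := by
  rw [dgjPic0Push_mk, dgj_mk_eq_zero_iff, coe_dgjDegZeroPush]

/-- push-forward along equal maps -/
theorem dgjPic0Push_congr {φ φ' : F →ₐ[K] F'} (h : φ = φ')
    (hφ : φ.toRingHom.IsIntegral) (hfin : FiniteAlong K φ) (hN : NormFormulaAlong K φ hfin)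
    (hφ' : φ'.toRingHom.IsIntegral) (hfin' : FiniteAlong K φ')
    (hN' : NormFormulaAlong K φ' hfin') :
    dgjPic0Push φ hφ hfin hN = dgjPic0Push φ' hφ' hfin' hN' := by
  subst h
  rfl

/-- **equivariance** of the push-forward on `Pic⁰` -/
theorem dgjPic0Push_smul {g : SemilinearAut K F} {g' : SemilinearAut K F'}
    (h : SemilinearAut.IntertwinesAlong φ.toRingHom g g')
    (hdeg : ∀ w : Place K F', w.deg = 1) (x : Pic0 K F') :
    dgjPic0Push φ hφ hfin hN (g' • x) = g • dgjPic0Push φ hφ hfin hN x := by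
  obtain ⟨D, rfl⟩ := Pic0.mk_surjective x
  rw [SemilinearAut.pic0_smul_mk, dgjPic0Push_mk, dgjPic0Push_mk, SemilinearAut.pic0_smul_mk]
  refine congrArg Pic0.mk (Subtype.ext ?_)
  rw [coe_dgjDegZeroPush, SemilinearAut.coe_degZeroSMulHom, SemilinearAut.coe_degZeroSMulHom,
    coe_dgjDegZeroPush]
  exact gal_pushforwardAlong_smul φ hφ h hdeg _

end Push

section Comp

variable {K F F' F'' : Type*} [Field K] [Field F] [Field F'] [Field F''] [Algebra K F]
  [Algebra K F'] [Algebra K F'']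

/-- `(ψ ∘ φ)_* = φ_* ∘ ψ_*` on `Pic⁰` -/
theorem dgjPic0Push_comp (φ : F →ₐ[K] F') (ψ : F' →ₐ[K] F'')
    (hφ : φ.toRingHom.IsIntegral) (hfinφ : FiniteAlong K φ) (hNφ : NormFormulaAlong K φ hfinφ)
    (hψ : ψ.toRingHom.IsIntegral) (hfinψ : FiniteAlong K ψ) (hNψ : NormFormulaAlong K ψ hfinψ)
    (hψφ : (ψ.comp φ).toRingHom.IsIntegral) (hfinψφ : FiniteAlong K (ψ.comp φ))
    (hNψφ : NormFormulaAlong K (ψ.comp φ) hfinψφ)
    (hdeg' : ∀ w : Place K F', w.deg = 1) (hdeg'' : ∀ w : Place K F'', w.deg = 1)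
    (x : Pic0 K F'') :
    dgjPic0Push (ψ.comp φ) hψφ hfinψφ hNψφ x =
      dgjPic0Push φ hφ hfinφ hNφ (dgjPic0Push ψ hψ hfinψ hNψ x) := by
  obtain ⟨D, rfl⟩ := Pic0.mk_surjective x
  rw [dgjPic0Push_mk, dgjPic0Push_mk, dgjPic0Push_mk]
  refine congrArg Pic0.mk (Subtype.ext ?_)
  rw [coe_dgjDegZeroPush, coe_dgjDegZeroPush, coe_dgjDegZeroPush,
    pushforwardAlong_comp φ ψ hφ hψ hψφ hdeg' hdeg'']
  rfl

end Comp

section Correspondence

variable {K : Type*} [Field K]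
variable {F₀ F₁ F₂ F₃ : Type*} [Field F₀] [Field F₁] [Field F₂] [Field F₃]
  [Algebra K F₀] [Algebra K F₁] [Algebra K F₂] [Algebra K F₃]
  [HasPrincipalDivisors K F₁] [HasPrincipalDivisors K F₂] [HasPrincipalDivisors K F₃]

/-- **push-forward intertwines two correspondences** (divisor level):
`δ_* ∘ (α₃_* β₃^*) = (α₁_* β₁^*) ∘ δ_*`, given the base-change square `a ∘ β₁ = β₃ ∘ δ`
and `a ∘ α₁ = α₃ ∘ δ`. -/
theorem dgj_push_correspondence {α₁ β₁ : F₀ →ₐ[K] F₁} {α₃ β₃ : F₂ →ₐ[K] F₃}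
    {δ : F₀ →ₐ[K] F₂} {a : F₁ →ₐ[K] F₃} (S : SquareData β₁ δ a β₃)
    (hincl : a.comp α₁ = α₃.comp δ)
    (hα₁ : α₁.toRingHom.IsIntegral) (hα₃ : α₃.toRingHom.IsIntegral)
    (hdeg₁ : ∀ w : Place K F₁, w.deg = 1) (hdeg₂ : ∀ w : Place K F₂, w.deg = 1)
    (hdeg₃ : ∀ w : Place K F₃, w.deg = 1) :
    (Divisor.pushforwardAlong δ S.hα').comp (Divisor.correspondence β₃ α₃ S.hb hα₃) =
      (Divisor.correspondence β₁ α₁ S.hβ hα₁).comp (Divisor.pushforwardAlong δ S.hα') := by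
  have hbc := pullPush_eq_pushPull β₁ δ a β₃ S.hβ S.hα' S.ha S.hb S.hsq S.hfinα S.hNα S.hfina
    S.hNa S.hnc S.happ
  have h1 : (Divisor.pullbackAlong β₁ S.hβ).comp (Divisor.pushforwardAlong δ S.hα')
      = (Divisor.pushforwardAlong a S.ha).comp (Divisor.pullbackAlong β₃ S.hb) := hbc
  have h2 := pushforwardAlong_comp δ α₃ S.hα' hα₃ (isIntegral_comp_along δ α₃ S.hα' hα₃)
    hdeg₂ hdeg₃
  have h3 := pushforwardAlong_comp α₁ a hα₁ S.ha (isIntegral_comp_along α₁ a hα₁ S.ha)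
    hdeg₁ hdeg₃
  have h4 := pushforwardAlong_congr hincl (isIntegral_comp_along α₁ a hα₁ S.ha)
    (isIntegral_comp_along δ α₃ S.hα' hα₃)
  unfold Divisor.correspondence
  calc (Divisor.pushforwardAlong δ S.hα').comp
        ((Divisor.pushforwardAlong α₃ hα₃).comp (Divisor.pullbackAlong β₃ S.hb))
      = ((Divisor.pushforwardAlong δ S.hα').comp (Divisor.pushforwardAlong α₃ hα₃)).comp
          (Divisor.pullbackAlong β₃ S.hb) := by
        simp only [AddMonoidHom.comp_assoc]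
    _ = ((Divisor.pushforwardAlong α₁ hα₁).comp (Divisor.pushforwardAlong a S.ha)).comp
          (Divisor.pullbackAlong β₃ S.hb) := by rw [← h2, ← h3, h4]
    _ = (Divisor.pushforwardAlong α₁ hα₁).comp
          ((Divisor.pushforwardAlong a S.ha).comp (Divisor.pullbackAlong β₃ S.hb)) := by
        simp only [AddMonoidHom.comp_assoc]
    _ = (Divisor.pushforwardAlong α₁ hα₁).comp
          ((Divisor.pullbackAlong β₁ S.hβ).comp (Divisor.pushforwardAlong δ S.hα')) := by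
        rw [h1]
    _ = _ := by simp only [AddMonoidHom.comp_assoc]

/-- **push-forward intertwines two correspondences** on `Pic⁰`. -/
theorem dgjPic0Push_correspondence {α₁ β₁ : F₀ →ₐ[K] F₁} {α₃ β₃ : F₂ →ₐ[K] F₃}
    {δ : F₀ →ₐ[K] F₂} {a : F₁ →ₐ[K] F₃} (S : SquareData β₁ δ a β₃)
    (hincl : a.comp α₁ = α₃.comp δ)
    (hdeg₁ : ∀ w : Place K F₁, w.deg = 1) (hdeg₂ : ∀ w : Place K F₂, w.deg = 1)
    (hdeg₃ : ∀ w : Place K F₃, w.deg = 1)
    (hδ : δ.toRingHom.IsIntegral) (hfinδ : FiniteAlong K δ) (hNδ : NormFormulaAlong K δ hfinδ)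
    (hα₁ : α₁.toRingHom.IsIntegral) (hβ₁ : β₁.toRingHom.IsIntegral)
    (hFI₁ : FundamentalIdentityAlong K β₁ hβ₁) (hfin₁ : FiniteAlong K α₁)
    (hN₁ : NormFormulaAlong K α₁ hfin₁)
    (hα₃ : α₃.toRingHom.IsIntegral) (hβ₃ : β₃.toRingHom.IsIntegral)
    (hFI₃ : FundamentalIdentityAlong K β₃ hβ₃) (hfin₃ : FiniteAlong K α₃)
    (hN₃ : NormFormulaAlong K α₃ hfin₃) (x : Pic0 K F₂) :
    dgjPic0Push δ hδ hfinδ hNδ (Pic0.correspondence β₃ α₃ hβ₃ hα₃ hFI₃ hfin₃ hN₃ x) =
      Pic0.correspondence β₁ α₁ hβ₁ hα₁ hFI₁ hfin₁ hN₁ (dgjPic0Push δ hδ hfinδ hNδ x) := by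
  obtain ⟨D, rfl⟩ := Pic0.mk_surjective x
  rw [Pic0.correspondence_mk, dgjPic0Push_mk, dgjPic0Push_mk, Pic0.correspondence_mk]
  refine congrArg Pic0.mk (Subtype.ext ?_)
  rw [coe_dgjDegZeroPush, Pic0.coe_degZeroCorrespondence, Pic0.coe_degZeroCorrespondence,
    coe_dgjDegZeroPush]
  have h := congrArg (fun T : Divisor K F₂ →+ Divisor K F₀ => T (D : Divisor K F₂))
    (dgj_push_correspondence S hincl hα₁ hα₃ hdeg₁ hdeg₂ hdeg₃)
  simpa only [AddMonoidHom.comp_apply] using h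

end Correspondence

section Norm

variable {K F F' : Type*} [Field K] [Field F] [Field F'] [Algebra K F] [Algebra K F']
variable (φ : F →ₐ[K] F') (hφ : φ.toRingHom.IsIntegral)
variable (hfin : FiniteAlong K φ) (hN : NormFormulaAlong K φ hfin)

include hfin hN in
/-- the divisor of a norm is the push-forward of the divisor -/
theorem dgj_push_div {f : F'} (hf : f ≠ 0) {D : Divisor K F'} (hD : ∀ w, D w = w.ord f)
    (v : Place K F) : Divisor.pushforwardAlong φ hφ D v = v.ord (normAlong φ f) :=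
  pushforwardAlong_apply_eq_ord φ hφ hfin hN hf hD v

include hfin in
theorem dgj_normAlong_ne_zero {f : F'} (hf : f ≠ 0) : normAlong φ f ≠ 0 := by
  letI := algebraAlong φ
  haveI : Module.Finite F F' := hfin
  show Algebra.norm F f ≠ 0
  rw [Ne, Algebra.norm_eq_zero_iff]
  exact hf

/-- **Kummer functions of classes killed by the push-forward**: if `m • D = div f` and the class
of `D` is killed by `φ_*`, then `N_φ f = u · g ^ m` where `u` has no zero and no pole. -/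
theorem dgj_norm_of_push_eq_zero (D : Divisor.degZero (K := K) (F := F')) (m : ℕ) {f : F'}
    (hf : f ≠ 0) (hD : ∀ w : Place K F', (m • (D : Divisor K F')) w = w.ord f)
    (h0 : dgjPic0Push φ hφ hfin hN (Pic0.mk D) = 0) :
    ∃ g u : F, g ≠ 0 ∧ u ≠ 0 ∧ (∀ v : Place K F, v.ord u = 0) ∧
      (∀ v : Place K F, Divisor.pushforwardAlong φ hφ (D : Divisor K F') v = v.ord g) ∧
      normAlong φ f = u * g ^ m := by
  rw [dgjPic0Push_mk_eq_zero_iff] at h0
  obtain ⟨g, hg, hgD⟩ := h0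
  have hnf : normAlong φ f ≠ 0 := dgj_normAlong_ne_zero φ hfin hf
  refine ⟨g, normAlong φ f / g ^ m, hg, div_ne_zero hnf (pow_ne_zero m hg), fun v => ?_, hgD, ?_⟩
  · have h1 := dgj_push_div φ hφ hfin hN hf hD v
    rw [map_nsmul, Finsupp.smul_apply, hgD v] at h1
    have h2 : v.ord (g ^ m) = (m : ℤ) * v.ord g := by
      rw [← zpow_natCast, v.ord_zpow]
    rw [div_eq_mul_inv, v.ord_mul hnf (inv_ne_zero (pow_ne_zero m hg)), v.ord_inv, h2, ← h1]
    simp
  · rw [div_mul_cancel₀ _ (pow_ne_zero m hg)]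

end Norm

end Fermat.Agent.S35lib

end
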