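/-
Item 82 (S35), piece P5 / DEGJ (helper23): the DEGENERACY MAPS on `J₀`.

`degJAlpha N q, degJBeta N q : JZero (N * q) →+ JZero N`, the push-forwards of divisor classes
along the two degeneracy embeddings `α = heckeAlphaBar` (inclusion), `β = heckeBetaBar`
(`f(t) ↦ f(t^q)`) of function fields `F_N → F_{Nq}`.

* `degJAlpha_mk`, `degJBeta_mk` : on classes of divisors;
* `degJAlpha_smul`, `degJBeta_smul` : Galois-equivariance;
* `degJAlpha_heckeOperatorBar` : `α_* ∘ T_ℓ = T_ℓ ∘ α_*` for primes `ℓ ≠ q`;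
* `degJAlpha_norm`, `degJBeta_norm` : Kummer functions of classes killed by `α_*` / `β_*`:
  `N_α f = c · g ^ m` with `c ∈ ℚ̄ˣ`.
No sorry.
-/
import Mathlib
import Fermat.Prelude.Def_ModularCurve_HeckeModule
import Fermat.Agent.HeckeBar.Final
import Fermat.Agent.HeckeBar.GaloisHecke
import Fermat.Agent.S37lib.HeckeInputs
import Fermat.Agent.S24lib.FFPrincipal
import Fermat.Agent.S35lib.DegJGen

set_option autoImplicit false
set_option linter.style.haveILetI false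
set_option linter.unusedSectionVars false

noncomputable section

namespace Fermat.Agent.S35lib

open AlgebraicCurve ModularCurve
open Fermat.Agent.S24lib Fermat.Agent.HeckeBar Fermat.Agent.S37lib

section Defs

variable (N q : ℕ) [NeZero N] [NeZero q]

/-- **`α_*`** : the push-forward `J₀(Nq) → J₀(N)` along the inclusion `F_N ⊂ F_{Nq}`. -/
def degJAlpha : JZero (N * q) →+ JZero N :=
  dgjPic0Push (heckeAlphaBar Kbar N q) (hinp_isIntegral_alpha N q) (hinp_finiteAlong_alpha N q)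
    (hinp_normFormula_alpha N q)

/-- **`β_*`** : the push-forward `J₀(Nq) → J₀(N)` along `f(t) ↦ f(t^q) : F_N → F_{Nq}`. -/
def degJBeta : JZero (N * q) →+ JZero N :=
  dgjPic0Push (heckeBetaBar Kbar N q) (hinp_isIntegral_beta N q) (hinp_finiteAlong_beta N q)
    (hinp_normFormula_beta N q)

theorem degJAlpha_mk (D : Divisor.degZero (K := Kbar) (F := FF (N * q))) :
    degJAlpha N q (Pic0.mk D) =
      Pic0.mk (dgjDegZeroPush (heckeAlphaBar Kbar N q) (hinp_isIntegral_alpha N q) D) :=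
  rfl

theorem degJBeta_mk (D : Divisor.degZero (K := Kbar) (F := FF (N * q))) :
    degJBeta N q (Pic0.mk D) =
      Pic0.mk (dgjDegZeroPush (heckeBetaBar Kbar N q) (hinp_isIntegral_beta N q) D) :=
  rfl

/-- **`α_*` is Galois-equivariant** -/
theorem degJAlpha_smul (σ : Kbar ≃ₐ[ℚ] Kbar) (x : JZero (N * q)) :
    degJAlpha N q (σ • x) = σ • degJAlpha N q x := by
  haveI : NeZero (N * q) := ⟨Nat.mul_ne_zero (NeZero.ne N) (NeZero.ne q)⟩
  rw [galois_smul_pic0_def, galois_smul_pic0_def]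
  exact dgjPic0Push_smul _ _ _ _ (gal_intertwines_alpha N q σ) (wir_deg_eq_one (N * q)) x

/-- **`β_*` is Galois-equivariant** -/
theorem degJBeta_smul (σ : Kbar ≃ₐ[ℚ] Kbar) (x : JZero (N * q)) :
    degJBeta N q (σ • x) = σ • degJBeta N q x := by
  haveI : NeZero (N * q) := ⟨Nat.mul_ne_zero (NeZero.ne N) (NeZero.ne q)⟩
  rw [galois_smul_pic0_def, galois_smul_pic0_def]
  exact dgjPic0Push_smul _ _ _ _ (gal_intertwines_beta N q σ) (wir_deg_eq_one (N * q)) x

end Defs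

section Norm

variable (N q : ℕ) [NeZero N] [NeZero q]

/-- a function on `X₀(N)` without zeros and poles is a nonzero constant -/
theorem dgj_const_of_ord_eq_zero (u : FF N) (hu : u ≠ 0)
    (h : ∀ v : Place Kbar (FF N), v.ord u = 0) :
    ∃ c : Kbar, c ≠ 0 ∧ u = algebraMap Kbar (FF N) c := by
  haveI : FFData Kbar (jF N) := fin_ffData N
  obtain ⟨c, hc⟩ := ffConst_of_forall_ord_nonneg (x := jF N) u (fun v => (h v).ge)
  refine ⟨c, ?_, hc.symm⟩
  rintro rfl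
  rw [map_zero] at hc
  exact hu hc.symm

/-- **Kummer functions of classes killed by `α_*`**: if `m • D = div f` and `α_* [D] = 0`, then
`N_{F_{Nq}/F_N} f = c · g ^ m` with `c ∈ ℚ̄ˣ` and `div g = α_* D`. -/
theorem degJAlpha_norm (D : Divisor.degZero (K := Kbar) (F := FF (N * q))) (m : ℕ)
    {f : FF (N * q)} (hf : f ≠ 0)
    (hD : ∀ w : Place Kbar (FF (N * q)), (m • (D : Divisor Kbar (FF (N * q)))) w = w.ord f)
    (h0 : degJAlpha N q (Pic0.mk D) = 0) :
    ∃ (g : FF N) (c : Kbar), g ≠ 0 ∧ c ≠ 0 ∧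
      normAlong (heckeAlphaBar Kbar N q) f = algebraMap Kbar (FF N) c * g ^ m := by
  obtain ⟨g, u, hg, hu, hu0, -, hnorm⟩ :=
    dgj_norm_of_push_eq_zero _ _ (hinp_finiteAlong_alpha N q) (hinp_normFormula_alpha N q)
      D m hf hD h0
  obtain ⟨c, hc, rfl⟩ := dgj_const_of_ord_eq_zero N u hu hu0
  exact ⟨g, c, hg, hc, hnorm⟩

/-- **Kummer functions of classes killed by `β_*`**. -/
theorem degJBeta_norm (D : Divisor.degZero (K := Kbar) (F := FF (N * q))) (m : ℕ)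
    {f : FF (N * q)} (hf : f ≠ 0)
    (hD : ∀ w : Place Kbar (FF (N * q)), (m • (D : Divisor Kbar (FF (N * q)))) w = w.ord f)
    (h0 : degJBeta N q (Pic0.mk D) = 0) :
    ∃ (g : FF N) (c : Kbar), g ≠ 0 ∧ c ≠ 0 ∧
      normAlong (heckeBetaBar Kbar N q) f = algebraMap Kbar (FF N) c * g ^ m := by
  obtain ⟨g, u, hg, hu, hu0, -, hnorm⟩ :=
    dgj_norm_of_push_eq_zero _ _ (hinp_finiteAlong_beta N q) (hinp_normFormula_beta N q)
      D m hf hD h0
  obtain ⟨c, hc, rfl⟩ := dgj_const_of_ord_eq_zero N u hu hu0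
  exact ⟨g, c, hg, hc, hnorm⟩

/-- every class in `J₀(Nq)[m]` has a Kummer function -/
theorem dgj_exists_kummer (M : ℕ) (x : JZero M) (m : ℕ) (hx : m • x = 0) :
    ∃ (D : Divisor.degZero (K := Kbar) (F := FF M)) (f : FF M), Pic0.mk D = x ∧ f ≠ 0 ∧
      ∀ w : Place Kbar (FF M), (m • (D : Divisor Kbar (FF M))) w = w.ord f := by
  obtain ⟨D, rfl⟩ := Pic0.mk_surjective x
  have h1 : Pic0.mk (m • D) = 0 := by
    rw [← hx]
    exact map_nsmul (QuotientAddGroup.mk' _) m D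
  rw [dgj_mk_eq_zero_iff] at h1
  obtain ⟨f, hf, hfD⟩ := h1
  exact ⟨D, f, rfl, hf, fun w => by rw [← hfD w]; rfl⟩

end Norm

section HeckeAlpha

variable (N : ℕ) [NeZero N] {q ℓ : ℕ} [NeZero q] [NeZero ℓ]

/-- `α_* ∘ T_ℓ = T_ℓ ∘ α_*` (correspondence form), `ℓ ≠ q` primes. -/
theorem degJAlpha_heckeOperatorAlong [NeZero (N * q)] (hq : q.Prime) (hℓ : ℓ.Prime)
    (hne : ℓ ≠ q) (x : JZero (N * q)) :
    degJAlpha N q (heckeOperatorAlong Kbar (N * q) ℓ x) =
      heckeOperatorAlong Kbar N ℓ (degJAlpha N q x) := by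
  haveI : NeZero (N * ℓ) := ⟨Nat.mul_ne_zero (NeZero.ne N) (NeZero.ne ℓ)⟩
  haveI : NeZero (N * q * ℓ) := ⟨Nat.mul_ne_zero (NeZero.ne _) (NeZero.ne ℓ)⟩
  haveI := wir_hasPrincipalDivisors (N * ℓ)
  haveI := wir_hasPrincipalDivisors (N * q)
  haveI := wir_hasPrincipalDivisors (N * q * ℓ)
  rw [heckeOperatorAlong_Qbar_eq, heckeOperatorAlong_Qbar_eq]
  have S := wir_squareData N inclNormFormula inclApprox hℓ hq hne (N * q * ℓ)
    (Nat.mul_right_comm N q ℓ) (hinp_isIntegral_beta N ℓ)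
  have hb : qpowBar (N * q) (N * q * ℓ) ℓ dvd_rfl = heckeBetaBar Kbar (N * q) ℓ :=
    (heckeBetaBar_eq_qpowBar (N * q) ℓ).symm
  rw [hb] at S
  refine dgjPic0Push_correspondence S ?_ (wir_deg_eq_one _) (wir_deg_eq_one _)
    (wir_deg_eq_one _) _ _ _ _ _ _ _ _ _ _ _ _ _ x
  rw [heckeAlphaBar_eq_inclBar, heckeAlphaBar_eq_inclBar, heckeAlphaBar_eq_inclBar,
    inclBar_comp_inclBar, inclBar_comp_inclBar]

/-- **`α_*` commutes with the Hecke operators `T_ℓ`, `ℓ ≠ q`.** -/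
theorem degJAlpha_heckeOperatorBar [NeZero (N * q)] (hq : q.Prime) (ℓ : Nat.Primes)
    (hne : (ℓ : ℕ) ≠ q) (x : JZero (N * q)) :
    degJAlpha N q (heckeOperatorBar (N * q) ℓ x) = heckeOperatorBar N ℓ (degJAlpha N q x) := by
  haveI : NeZero (ℓ : ℕ) := ⟨ℓ.2.ne_zero⟩
  rw [heckeOperatorBar_apply, heckeOperatorBar_apply]
  exact degJAlpha_heckeOperatorAlong N hq ℓ.2 hne x

end HeckeAlpha

end Fermat.Agent.S35lib

end
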