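/-
Item 82 (S35), piece P5 / DEGJ, part 2 (helper23): `β_*` COMMUTES WITH THE HECKE OPERATORS.

Route: `β = w_q ∘ α` with the Atkin–Lehner involution `w_q` of `F_{Nq}` (helper24's
`atkinLehnerFF`), so `β_* = α_* ∘ (w_q)_*`; `(w_q)_*` commutes with `T_ℓ = α_{ℓ*} β_ℓ^*` because
`w_q` at the levels `Nq` and `Nqℓ` is intertwined by both `α_ℓ` and `β_ℓ`
(`dgjPic0Push_correspondence` for the automorphism square), and `α_*` commutes with `T_ℓ` (DegJ).

* `dgj_al_comp_alpha`, `dgj_al_comp_beta` : `w' ∘ α_ℓ = α_ℓ ∘ w`, `w' ∘ β_ℓ = β_ℓ ∘ w`;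
* `dgj_al_alpha_eq_beta` : `w_q ∘ α_q = β_q`;
* `degJAL`, `degJAL_heckeOperatorBar`, `degJBeta_eq` : `β_* = α_* ∘ (w_q)_*`;
* `degJBeta_heckeOperatorBar`.
No sorry.
-/
import Mathlib
import Fermat.Agent.S34lib.VAtkinLehner
import Fermat.Agent.S35lib.DegJ

set_option autoImplicit false
set_option linter.style.haveILetI false
set_option linter.unusedSectionVars false

noncomputable section

namespace Fermat.Agent.S35lib

open AlgebraicCurve ModularCurve
open Fermat.Agent.S24lib Fermat.Agent.HeckeBar Fermat.Agent.S37lib Fermat.Agent.S34lib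

section AutGeneric

variable {K : Type*} [Field K] {F₁ F₂ M : Type*} [Field F₁] [Field F₂] [Field M]
  [Algebra K F₁] [Algebra K F₂] [Algebra K M]

/-- generation is automatic over a surjective map -/
theorem dgj_adjoin_eq_top_of_surjective (a : F₁ →ₐ[K] M) (b : F₂ →ₐ[K] M)
    (ha : Function.Surjective a) :
    letI := algebraAlong a
    Algebra.adjoin F₁ (Set.range b) = ⊤ := by
  letI := algebraAlong a
  rw [eq_top_iff]
  intro x _
  obtain ⟨y, rfl⟩ := ha x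
  exact Subalgebra.algebraMap_mem _ y

/-- the degree along a bijective map is one -/
theorem dgj_finrankAlong_of_bijective (a : F₁ →ₐ[K] M) (ha : Function.Bijective a) :
    finrankAlong K a = 1 := by
  letI := algebraAlong a
  show Module.finrank F₁ M = 1
  have e : F₁ ≃ₗ[F₁] M := LinearEquiv.ofBijective (Algebra.linearMap F₁ M) ha
  rw [← e.finrank_eq, Module.finrank_self]

theorem dgj_finiteAlong_of_bijective (a : F₁ →ₐ[K] M) (ha : Function.Bijective a) :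
    FiniteAlong K a := by
  letI := algebraAlong a
  have h : 0 < Module.finrank F₁ M := by
    have := dgj_finrankAlong_of_bijective a ha
    unfold finrankAlong at this
    omega
  exact Module.finite_of_finrank_pos h

/-- norm compatibility in a square of automorphisms -/
theorem dgj_normCompat_aut (β : F₂ →ₐ[K] M) (w : F₂ ≃ₐ[K] F₂) (w' : M ≃ₐ[K] M)
    (hsq : (w' : M →ₐ[K] M).comp β = β.comp (w : F₂ →ₐ[K] F₂)) :
    NormCompat β (w : F₂ →ₐ[K] F₂) (w' : M →ₐ[K] M) β :=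
  normCompat_of_adjoin _ _ _ _ hsq (dgj_finiteAlong_of_bijective _ w.bijective)
    (dgj_adjoin_eq_top_of_surjective _ _ w'.surjective)
    (by rw [dgj_finrankAlong_of_bijective _ w'.bijective,
      dgj_finrankAlong_of_bijective _ w.bijective])

end AutGeneric

section Swap

theorem dgj_alSwap_mul {q ℓ : ℕ} (hq : q.Prime) (hℓ : ℓ.Prime) (hne : ℓ ≠ q) (d : ℕ) :
    alSwap q (ℓ * d) = ℓ * alSwap q d := by
  have hqℓ : ¬ q ∣ ℓ := fun h => hne ((Nat.prime_dvd_prime_iff_eq hq hℓ).1 h).symm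
  by_cases h : q ∣ d
  · rw [alSwap_of_dvd h, alSwap_of_dvd (h.mul_left ℓ), Nat.mul_div_assoc ℓ h]
  · have h' : ¬ q ∣ ℓ * d := fun h1 => (hq.dvd_mul.1 h1).elim hqℓ h
    rw [alSwap_of_not_dvd h, alSwap_of_not_dvd h', mul_assoc]

theorem dgj_not_sq_dvd_mul {q ℓ M : ℕ} (hq : q.Prime) (hℓ : ℓ.Prime) (hne : ℓ ≠ q)
    (hq2 : ¬ q ^ 2 ∣ M) : ¬ q ^ 2 ∣ M * ℓ := by
  intro h
  have hcop : Nat.Coprime (q ^ 2) ℓ :=
    Nat.Coprime.pow_left 2 ((Nat.coprime_primes hq hℓ).2 (Ne.symm hne))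
  exact hq2 (hcop.dvd_of_dvd_mul_right h)

theorem dgj_not_sq_dvd_mul_self {q N : ℕ} (hq : q.Prime) (hqN : ¬ q ∣ N) : ¬ q ^ 2 ∣ N * q := by
  intro h
  rw [pow_two] at h
  exact hqN (Nat.dvd_of_mul_dvd_mul_right hq.pos h)

end Swap

section Intertwine

variable (M : ℕ) [NeZero M] {q ℓ : ℕ} [NeZero ℓ] [NeZero (M * ℓ)]
variable (hq : q.Prime) (hqM : q ∣ M) (hq2 : ¬ q ^ 2 ∣ M) (hℓ : ℓ.Prime) (hne : ℓ ≠ q)

/-- `w_q` at level `Mℓ` restricts to `w_q` at level `M` along the inclusion -/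
theorem dgj_al_comp_alpha :
    ((atkinLehnerFF (M * ℓ) q hq (hqM.mul_right ℓ) (dgj_not_sq_dvd_mul hq hℓ hne hq2) :
        FF (M * ℓ) →ₐ[Kbar] FF (M * ℓ))).comp (heckeAlphaBar Kbar M ℓ) =
      (heckeAlphaBar Kbar M ℓ).comp
        (atkinLehnerFF M q hq hqM hq2 : FF M →ₐ[Kbar] FF M) := by
  have h : ((atkinLehnerFF (M * ℓ) q hq (hqM.mul_right ℓ)
        (dgj_not_sq_dvd_mul hq hℓ hne hq2) : FF (M * ℓ) →ₐ[Kbar] FF (M * ℓ)).comp
          (heckeAlphaBar Kbar M ℓ)).toRingHom =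
      ((heckeAlphaBar Kbar M ℓ).comp
        (atkinLehnerFF M q hq hqM hq2 : FF M →ₐ[Kbar] FF M)).toRingHom := by
    apply FF_ringHom_ext
    · intro c
      show ((atkinLehnerFF (M * ℓ) q hq (hqM.mul_right ℓ)
        (dgj_not_sq_dvd_mul hq hℓ hne hq2) : FF (M * ℓ) →ₐ[Kbar] FF (M * ℓ)).comp
          (heckeAlphaBar Kbar M ℓ)) (algebraMap Kbar (FF M) c) =
        ((heckeAlphaBar Kbar M ℓ).comp
          (atkinLehnerFF M q hq hqM hq2 : FF M →ₐ[Kbar] FF M)) (algebraMap Kbar (FF M) c)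
      rw [AlgHom.commutes, AlgHom.commutes]
    · intro d _ hd
      haveI : NeZero (alSwap q d) := ⟨alSwap_ne_zero hq (NeZero.ne d)⟩
      show atkinLehnerFF (M * ℓ) q hq (hqM.mul_right ℓ) (dgj_not_sq_dvd_mul hq hℓ hne hq2)
          (heckeAlphaBar Kbar M ℓ (jdF M d hd)) =
        heckeAlphaBar Kbar M ℓ (atkinLehnerFF M q hq hqM hq2 (jdF M d hd))
      rw [atkinLehnerFF_jdF, heckeAlphaBar_eq_inclBar, inclBar_jdF, inclBar_jdF,
        atkinLehnerFF_jdF]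
  exact AlgHom.ext fun x => congrArg (fun φ : FF M →+* FF (M * ℓ) => φ x) h

/-- `w_q` at level `Mℓ` restricts to `w_q` at level `M` along `f(t) ↦ f(t^ℓ)` -/
theorem dgj_al_comp_beta :
    ((atkinLehnerFF (M * ℓ) q hq (hqM.mul_right ℓ) (dgj_not_sq_dvd_mul hq hℓ hne hq2) :
        FF (M * ℓ) →ₐ[Kbar] FF (M * ℓ))).comp (heckeBetaBar Kbar M ℓ) =
      (heckeBetaBar Kbar M ℓ).comp
        (atkinLehnerFF M q hq hqM hq2 : FF M →ₐ[Kbar] FF M) := by
  have h : ((atkinLehnerFF (M * ℓ) q hq (hqM.mul_right ℓ)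
        (dgj_not_sq_dvd_mul hq hℓ hne hq2) : FF (M * ℓ) →ₐ[Kbar] FF (M * ℓ)).comp
          (heckeBetaBar Kbar M ℓ)).toRingHom =
      ((heckeBetaBar Kbar M ℓ).comp
        (atkinLehnerFF M q hq hqM hq2 : FF M →ₐ[Kbar] FF M)).toRingHom := by
    apply FF_ringHom_ext
    · intro c
      show ((atkinLehnerFF (M * ℓ) q hq (hqM.mul_right ℓ)
        (dgj_not_sq_dvd_mul hq hℓ hne hq2) : FF (M * ℓ) →ₐ[Kbar] FF (M * ℓ)).comp
          (heckeBetaBar Kbar M ℓ)) (algebraMap Kbar (FF M) c) =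
        ((heckeBetaBar Kbar M ℓ).comp
          (atkinLehnerFF M q hq hqM hq2 : FF M →ₐ[Kbar] FF M)) (algebraMap Kbar (FF M) c)
      rw [AlgHom.commutes, AlgHom.commutes]
    · intro d _ hd
      haveI : NeZero (alSwap q d) := ⟨alSwap_ne_zero hq (NeZero.ne d)⟩
      haveI : NeZero (ℓ * d) := ⟨Nat.mul_ne_zero (NeZero.ne ℓ) (NeZero.ne d)⟩
      haveI : NeZero (ℓ * alSwap q d) := ⟨Nat.mul_ne_zero (NeZero.ne ℓ) (NeZero.ne _)⟩
      haveI : NeZero (alSwap q (ℓ * d)) := ⟨alSwap_ne_zero hq (NeZero.ne (ℓ * d))⟩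
      show atkinLehnerFF (M * ℓ) q hq (hqM.mul_right ℓ) (dgj_not_sq_dvd_mul hq hℓ hne hq2)
          (heckeBetaBar Kbar M ℓ (jdF M d hd)) =
        heckeBetaBar Kbar M ℓ (atkinLehnerFF M q hq hqM hq2 (jdF M d hd))
      rw [atkinLehnerFF_jdF, heckeBetaBar_eq_qpowBar, qpowBar_jdF, qpowBar_jdF,
        atkinLehnerFF_jdF]
      exact val_jdF_congr (M * ℓ) _ _ (dgj_alSwap_mul hq hℓ hne d)
  exact AlgHom.ext fun x => congrArg (fun φ : FF M →+* FF (M * ℓ) => φ x) h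

end Intertwine

section Beta

variable (N : ℕ) [NeZero N] {q : ℕ} [NeZero q] [NeZero (N * q)]
variable (hq : q.Prime) (hqN : ¬ q ∣ N)

/-- **`w_q ∘ α_q = β_q`** -/
theorem dgj_al_alpha_eq_beta :
    ((atkinLehnerFF (N * q) q hq (dvd_mul_left q N) (dgj_not_sq_dvd_mul_self hq hqN) :
        FF (N * q) →ₐ[Kbar] FF (N * q))).comp (heckeAlphaBar Kbar N q) =
      heckeBetaBar Kbar N q := by
  have h : ((atkinLehnerFF (N * q) q hq (dvd_mul_left q N)
        (dgj_not_sq_dvd_mul_self hq hqN) : FF (N * q) →ₐ[Kbar] FF (N * q)).comp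
          (heckeAlphaBar Kbar N q)).toRingHom = (heckeBetaBar Kbar N q).toRingHom := by
    apply FF_ringHom_ext
    · intro c
      show ((atkinLehnerFF (N * q) q hq (dvd_mul_left q N)
        (dgj_not_sq_dvd_mul_self hq hqN) : FF (N * q) →ₐ[Kbar] FF (N * q)).comp
          (heckeAlphaBar Kbar N q)) (algebraMap Kbar (FF N) c) =
        (heckeBetaBar Kbar N q) (algebraMap Kbar (FF N) c)
      rw [AlgHom.commutes, AlgHom.commutes]
    · intro d _ hd
      haveI : NeZero (d * q) := ⟨Nat.mul_ne_zero (NeZero.ne d) (NeZero.ne q)⟩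
      haveI : NeZero (q * d) := ⟨Nat.mul_ne_zero (NeZero.ne q) (NeZero.ne d)⟩
      have hqd : ¬ q ∣ d := fun h => hqN (h.trans hd)
      show atkinLehnerFF (N * q) q hq (dvd_mul_left q N) (dgj_not_sq_dvd_mul_self hq hqN)
          (heckeAlphaBar Kbar N q (jdF N d hd)) = heckeBetaBar Kbar N q (jdF N d hd)
      rw [heckeAlphaBar_eq_inclBar, inclBar_jdF, heckeBetaBar_eq_qpowBar, qpowBar_jdF,
        atkinLehnerFF_jdF_of_not_dvd (N * q) q hq _ _ d _ hqd (Nat.mul_dvd_mul_right hd q)]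
      exact val_jdF_congr (N * q) _ _ (mul_comm d q)
  exact AlgHom.ext fun x => congrArg (fun φ : FF N →+* FF (N * q) => φ x) h

end Beta

section ALPush

variable (M : ℕ) [NeZero M] {q : ℕ}
variable (hq : q.Prime) (hqM : q ∣ M) (hq2 : ¬ q ^ 2 ∣ M)

theorem dgj_al_isIntegral :
    ((atkinLehnerFF M q hq hqM hq2 : FF M →ₐ[Kbar] FF M)).toRingHom.IsIntegral :=
  haveI := fin_ffData M
  gen_isIntegral _ (transcendental_jF M) (x' := jF M)

theorem dgj_al_finiteAlong :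
    FiniteAlong Kbar (atkinLehnerFF M q hq hqM hq2 : FF M →ₐ[Kbar] FF M) :=
  haveI := fin_ffData M
  gen_finiteAlong _ (transcendental_jF M) (x' := jF M)

theorem dgj_al_normFormula :
    NormFormulaAlong Kbar (atkinLehnerFF M q hq hqM hq2 : FF M →ₐ[Kbar] FF M)
      (dgj_al_finiteAlong M hq hqM hq2) :=
  haveI := fin_ffData M
  gen_normFormula _ (x' := jF M) _

/-- **`(w_q)_*`** on `J₀(M)`, `q ‖ M` -/
def degJAL : JZero M →+ JZero M :=
  dgjPic0Push (atkinLehnerFF M q hq hqM hq2 : FF M →ₐ[Kbar] FF M)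
    (dgj_al_isIntegral M hq hqM hq2) (dgj_al_finiteAlong M hq hqM hq2)
    (dgj_al_normFormula M hq hqM hq2)

variable {ℓ : ℕ} [NeZero ℓ] [NeZero (M * ℓ)]

/-- the automorphism square `w' ∘ β_ℓ = β_ℓ ∘ w` as a base-change square -/
theorem dgj_al_squareData (hℓ : ℓ.Prime) (hne : ℓ ≠ q) :
    haveI := wir_hasPrincipalDivisors M
    haveI := wir_hasPrincipalDivisors (M * ℓ)
    SquareData (heckeBetaBar Kbar M ℓ) (atkinLehnerFF M q hq hqM hq2 : FF M →ₐ[Kbar] FF M)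
      (atkinLehnerFF (M * ℓ) q hq (hqM.mul_right ℓ) (dgj_not_sq_dvd_mul hq hℓ hne hq2) :
        FF (M * ℓ) →ₐ[Kbar] FF (M * ℓ))
      (heckeBetaBar Kbar M ℓ) := by
  haveI := wir_hasPrincipalDivisors M
  haveI := wir_hasPrincipalDivisors (M * ℓ)
  haveI := fin_ffData M
  exact
    { hβ := hinp_isIntegral_beta M ℓ
      hα' := dgj_al_isIntegral M hq hqM hq2
      ha := dgj_al_isIntegral (M * ℓ) hq _ _
      hb := hinp_isIntegral_beta M ℓ
      hsq := dgj_al_comp_beta M hq hqM hq2 hℓ hne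
      hfinα := dgj_al_finiteAlong M hq hqM hq2
      hNα := dgj_al_normFormula M hq hqM hq2
      hfina := dgj_al_finiteAlong (M * ℓ) hq _ _
      hNa := dgj_al_normFormula (M * ℓ) hq _ _
      hnc := dgj_normCompat_aut _ _ _ (dgj_al_comp_beta M hq hqM hq2 hℓ hne)
      happ := gen_approxAlong _ (dgj_al_isIntegral M hq hqM hq2) (transcendental_jF M)
        (x' := jF M) }

/-- `(w_q)_*` commutes with `T_ℓ`, `ℓ ≠ q` -/
theorem degJAL_heckeOperatorAlong (hℓ : ℓ.Prime) (hne : ℓ ≠ q) (x : JZero M) :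
    degJAL M hq hqM hq2 (heckeOperatorAlong Kbar M ℓ x) =
      heckeOperatorAlong Kbar M ℓ (degJAL M hq hqM hq2 x) := by
  haveI := wir_hasPrincipalDivisors M
  haveI := wir_hasPrincipalDivisors (M * ℓ)
  rw [heckeOperatorAlong_Qbar_eq]
  exact dgjPic0Push_correspondence (dgj_al_squareData M hq hqM hq2 hℓ hne)
    (dgj_al_comp_alpha M hq hqM hq2 hℓ hne) (wir_deg_eq_one _) (wir_deg_eq_one _)
    (wir_deg_eq_one _) _ _ _ _ _ _ _ _ _ _ _ _ _ x

end ALPush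

section BetaHecke

variable (N : ℕ) [NeZero N] {q : ℕ} [NeZero q] [NeZero (N * q)]
variable (hq : q.Prime) (hqN : ¬ q ∣ N)

/-- **`β_* = α_* ∘ (w_q)_*`** -/
theorem degJBeta_eq (x : JZero (N * q)) :
    degJBeta N q x =
      degJAlpha N q
        (degJAL (N * q) hq (dvd_mul_left q N) (dgj_not_sq_dvd_mul_self hq hqN) x) := by
  unfold degJBeta degJAlpha degJAL
  rw [← dgjPic0Push_comp (heckeAlphaBar Kbar N q)
    (atkinLehnerFF (N * q) q hq (dvd_mul_left q N) (dgj_not_sq_dvd_mul_self hq hqN) :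
      FF (N * q) →ₐ[Kbar] FF (N * q))
    (hinp_isIntegral_alpha N q) (hinp_finiteAlong_alpha N q) (hinp_normFormula_alpha N q)
    (dgj_al_isIntegral (N * q) hq _ _) (dgj_al_finiteAlong (N * q) hq _ _)
    (dgj_al_normFormula (N * q) hq _ _)
    (by rw [dgj_al_alpha_eq_beta N hq hqN]; exact hinp_isIntegral_beta N q)
    (by rw [dgj_al_alpha_eq_beta N hq hqN]; exact hinp_finiteAlong_beta N q)
    (by
      haveI := fin_ffData (N * q)
      exact gen_normFormula _ (x' := jF (N * q)) _)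
    (wir_deg_eq_one _) (wir_deg_eq_one _) x]
  exact congrArg (fun T : JZero (N * q) →+ JZero N => T x)
    (dgjPic0Push_congr (dgj_al_alpha_eq_beta N hq hqN).symm _ _ _ _ _ _)

variable {ℓ : ℕ} [NeZero ℓ]

include hq hqN in
/-- `β_* ∘ T_ℓ = T_ℓ ∘ β_*` (correspondence form), `ℓ ≠ q` primes, `q ∤ N`. -/
theorem degJBeta_heckeOperatorAlong (hℓ : ℓ.Prime) (hne : ℓ ≠ q) (x : JZero (N * q)) :
    degJBeta N q (heckeOperatorAlong Kbar (N * q) ℓ x) =
      heckeOperatorAlong Kbar N ℓ (degJBeta N q x) := by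
  haveI : NeZero (N * q * ℓ) := ⟨Nat.mul_ne_zero (NeZero.ne _) (NeZero.ne ℓ)⟩
  rw [degJBeta_eq N hq hqN, degJBeta_eq N hq hqN, degJAL_heckeOperatorAlong _ hq _ _ hℓ hne,
    degJAlpha_heckeOperatorAlong N hq hℓ hne]

include hq hqN in
/-- **`β_*` commutes with the Hecke operators `T_ℓ`, `ℓ ≠ q`** (`q ∤ N`). -/
theorem degJBeta_heckeOperatorBar (ℓ : Nat.Primes) (hne : (ℓ : ℕ) ≠ q) (x : JZero (N * q)) :
    degJBeta N q (heckeOperatorBar (N * q) ℓ x) = heckeOperatorBar N ℓ (degJBeta N q x) := by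
  haveI : NeZero (ℓ : ℕ) := ⟨ℓ.2.ne_zero⟩
  rw [heckeOperatorBar_apply, heckeOperatorBar_apply]
  exact degJBeta_heckeOperatorAlong N hq hqN ℓ.2 hne x

end BetaHecke

end Fermat.Agent.S35lib

end
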