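import Mathlib
import Fermat.Agent.S34lib.Algebra

/-!
# Item 79 (S35), algebra: definitions

* `evalJac M S N'`: evaluation of a Hecke polynomial (in the `T_ℓ`, `ℓ ∤ M`, `ℓ ∉ S`) at the Hecke
  operators of `J₀(N')`.
* `galEnd N σ`: the action of `σ ∈ G_ℚ` on `J₀(N)` as a `ℤ`-linear endomorphism.
* `frobNewOp N q a b σ = (σ² - q²)^a (σ² - 1)^b` on `J₀(N)`.
* `KillsLevel`, `FrobNewAt`: the geometric input of S35 (see `NOTES/S35_route_lead.md`).
-/

set_option autoImplicit false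

namespace Fermat.Agent.S35lib

open Fermat.Agent.GalRep ModularCurve Fermat.Agent.S31lib

/-- evaluation of a Hecke polynomial at the Hecke operators of `J₀(N')`. -/
noncomputable def evalJac (M : ℕ) (S : Finset ℕ) (N' : ℕ) [NeZero N'] :
    HPoly M S →ₐ[ℤ] Module.End ℤ (JZero N') :=
  FreeAlgebra.lift ℤ fun ℓ => heckeOperatorBar N' ℓ.1

theorem evalJac_ι (M : ℕ) (S : Finset ℕ) (N' : ℕ) [NeZero N'] (ℓ : GoodPrime M S) :
    evalJac M S N' (FreeAlgebra.ι ℤ ℓ) = heckeOperatorBar N' ℓ.1 := by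
  simp [evalJac]

/-- the action of `σ` on `J₀(N)` as an endomorphism. -/
noncomputable def galEnd (N : ℕ) (σ : GQ) : Module.End ℤ (JZero N) :=
  (DistribSMul.toAddMonoidHom (JZero N) σ).toIntLinearMap

@[simp] theorem galEnd_apply (N : ℕ) (σ : GQ) (x : JZero N) : galEnd N σ x = σ • x := rfl

theorem galEnd_mul (N : ℕ) (σ τ : GQ) : galEnd N (σ * τ) = galEnd N σ * galEnd N τ := by
  ext x
  simp [mul_smul]

theorem galEnd_one (N : ℕ) : galEnd N (1 : GQ) = 1 := by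
  ext x
  simp

/-- `(σ² - q²)^a (σ² - 1)^b` on `J₀(N)`. -/
noncomputable def frobNewOp (N q a b : ℕ) (σ : GQ) : Module.End ℤ (JZero N) :=
  (galEnd N (σ * σ) - ((q : ℤ) ^ 2) • (1 : Module.End ℤ (JZero N))) ^ a *
    (galEnd N (σ * σ) - 1) ^ b

/-- `h` kills the `p`-power torsion of `J₀(N')`. -/
def KillsLevel (M : ℕ) (S : Finset ℕ) (N' : ℕ) [NeZero N'] (p : ℕ) (h : HPoly M S) : Prop :=
  ∀ z : JZero N', (∃ n : ℕ, p ^ n • z = 0) → evalJac M S N' h z = 0

/-- **FrobNew** at `(M, p, q)` with exponents `a`, `b`, for the Hecke polynomials away from `S`: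
`(σ² - q²)^a (σ² - 1)^b` kills `h • J₀(M)[p^∞]` for every Frobenius lift `σ` at `q` and every
Hecke polynomial `h` which kills `J₀(M')[p^∞]`. -/
def FrobNewAt (M M' : ℕ) [NeZero M] [NeZero M'] (S : Finset ℕ) (p q a b : ℕ) : Prop :=
  ∀ B : ValuationSubring (AlgebraicClosure ℚ), B.LiesOverPrime q →
    ∀ σ : GQ, B.IsFrobeniusAt σ q →
      ∀ h : HPoly M S, KillsLevel M S M' p h →
        ∀ x : JZero M, (∃ n : ℕ, p ^ n • x = 0) → frobNewOp M q a b σ (evalJac M S M h x) = 0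

end Fermat.Agent.S35lib
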