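import Mathlib
import Fermat.Agent.S37lib.NormConj
import Fermat.Agent.S37lib.KronF

/-!
# Item 82 (S35), Step A (NORM): the statements `NormProdStatement` (N1) and `NormRedStatement` (N2)

Verbatim from `NOTES/S35_signatures.lean.txt` (architect helper15).  Definitions only.
-/

set_option autoImplicit false

open scoped MatrixGroups
open ModularCurve AlgebraicCurve HahnSeries
open Fermat.Agent.S24lib Fermat.Agent.HeckeBar Fermat.Agent.S37lib

namespace Fermat.Agent.S35lib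

/-- **N1 (NORM-PROD).**  The second expansion `E₀` (= expansion at the cusp `0_q`, = `coe ∘ w_q`)
and the two norm product formulas for ARBITRARY `x ∈ F_{Nℓ}`. -/
def NormProdStatement (N ℓ : ℕ) [NeZero N] [NeZero ℓ] : Prop :=
  ∃ E₀ : FF (N * ℓ) →+* LaurentSeries Kbar,
    (∀ c : Kbar, E₀ (algebraMap Kbar (FF (N * ℓ)) c) = algebraMap Kbar (LaurentSeries Kbar) c) ∧
    (∀ Y : FF N, E₀ (heckeAlphaBar Kbar N ℓ Y) = qExpand Kbar ℓ (Y : LaurentSeries Kbar)) ∧
    (∀ Y : FF N, E₀ (heckeBetaBar Kbar N ℓ Y) = (Y : LaurentSeries Kbar)) ∧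
    (∀ (ζ : Kbarˣ), IsPrimitiveRoot (ζ : Kbar) ℓ → ∀ x : FF (N * ℓ),
      letI := algebraAlong (heckeAlphaBar Kbar N ℓ)
      qExpand Kbar ℓ ((Algebra.norm (FF N) x : FF N) : LaurentSeries Kbar)
        = qExpand Kbar ℓ (x : LaurentSeries Kbar) * ∏ b ∈ Finset.range ℓ, twq (ζ ^ b) (E₀ x)) ∧
    (∀ (ζ : Kbarˣ), IsPrimitiveRoot (ζ : Kbar) ℓ → ∀ x : FF (N * ℓ),
      letI := algebraAlong (heckeBetaBar Kbar N ℓ)
      qExpand Kbar ℓ ((Algebra.norm (FF N) x : FF N) : LaurentSeries Kbar)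
        = qExpand Kbar ℓ (E₀ x) * ∏ b ∈ Finset.range ℓ, twq (ζ ^ b) (x : LaurentSeries Kbar))

/-- **N2 (NORM-RED).**  Reduction of the two norms. -/
def NormRedStatement (N ℓ : ℕ) [NeZero N] [NeZero ℓ] (A : ValuationSubring Kbar)
    [ExpChar (IsLocalRing.ResidueField A) ℓ] : Prop :=
  ∀ (E₀ : FF (N * ℓ) →+* LaurentSeries Kbar),
    (∀ c : Kbar, E₀ (algebraMap Kbar (FF (N * ℓ)) c) = algebraMap Kbar (LaurentSeries Kbar) c) →
    (∀ Y : FF N, E₀ (heckeAlphaBar Kbar N ℓ Y) = qExpand Kbar ℓ (Y : LaurentSeries Kbar)) →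
    (∀ Y : FF N, E₀ (heckeBetaBar Kbar N ℓ Y) = (Y : LaurentSeries Kbar)) →
    ∀ (x : FF (N * ℓ)) (y₁ y₂ : LaurentSeries A),
      (x : LaurentSeries Kbar) = coeffMap A.subtype y₁ → E₀ x = coeffMap A.subtype y₂ →
      (letI := algebraAlong (heckeAlphaBar Kbar N ℓ)
       ∃ z : LaurentSeries A,
        coeffMap A.subtype z = ((Algebra.norm (FF N) x : FF N) : LaurentSeries Kbar) ∧
        coeffMap (IsLocalRing.residue A) z = coeffMap (IsLocalRing.residue A) y₁ *
          coeffMap (frobenius (IsLocalRing.ResidueField A) ℓ)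
            (coeffMap (IsLocalRing.residue A) y₂)) ∧
      (letI := algebraAlong (heckeBetaBar Kbar N ℓ)
       ∃ z : LaurentSeries A,
        coeffMap A.subtype z = ((Algebra.norm (FF N) x : FF N) : LaurentSeries Kbar) ∧
        coeffMap (IsLocalRing.residue A) z = coeffMap (IsLocalRing.residue A) y₂ *
          coeffMap (frobenius (IsLocalRing.ResidueField A) ℓ)
            (coeffMap (IsLocalRing.residue A) y₁))

end Fermat.Agent.S35lib
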