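import Mathlib
import Fermat.Agent.S34lib.UnipK
import Fermat.Agent.S35lib.AlgDefs
import Fermat.Agent.S35lib.NormDefs

/-!
# Item 82 (S35), geometry: the KUMMER FORM of FROB2 (architect helper15)

`Frob2K M' q m A`: for every Frobenius lift `σ` at `A ∣ q` and every nonzero `f ∈ F_{M'q}` all of
whose orders are divisible by `m` and both of whose norms to `F_{M'}` (along `α` and along `β`) are
constants times `m`-th powers (`IsKummerNew`), the function `(σ² - q²)(σ² - 1) f` (written
multiplicatively, `kummerFrob2`) is a constant times an `m`-th power.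

This is the S35 analogue of `S34lib.UnipK`; see `NOTES/S35_blueprint.md` (v2).  Definitions only.
-/

set_option autoImplicit false
set_option linter.style.haveILetI false

noncomputable section

namespace Fermat.Agent.S35lib

open ModularCurve AlgebraicCurve
open Fermat.Agent.S24lib Fermat.Agent.HeckeBar Fermat.Agent.S34lib Fermat.Agent.GalRep

/-- `(σ² - 1) f`, multiplicatively. -/
def kummerSq (M : ℕ) (σ : GQ) (f : FF M) : FF M :=
  galFF M (σ * σ) • f / f

/-- `(σ² - q²)(σ² - 1) f`, multiplicatively. -/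
def kummerFrob2 (M q : ℕ) (σ : GQ) (f : FF M) : FF M :=
  galFF M (σ * σ) • kummerSq M σ f / kummerSq M σ f ^ (q ^ 2)

/-- `f ∈ F_{M'q}` is *Kummer-new* for `m`: both norms to `F_{M'}` are constants times `m`-th
powers. -/
def IsKummerNew (M' q m : ℕ) [NeZero M'] [NeZero q] (f : FF (M' * q)) : Prop :=
  (letI := algebraAlong (heckeAlphaBar Kbar M' q)
   ∃ (c : Kbar) (g : FF M'), Algebra.norm (FF M') f = algebraMap Kbar (FF M') c * g ^ m) ∧
  (letI := algebraAlong (heckeBetaBar Kbar M' q)
   ∃ (c : Kbar) (g : FF M'), Algebra.norm (FF M') f = algebraMap Kbar (FF M') c * g ^ m)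

/-- **FROB2, Kummer form** at level `M'q`, exponent `m`, along `A ∣ q`. -/
def Frob2K (M' q m : ℕ) [NeZero M'] [NeZero q] (A : ValuationSubring Kbar) : Prop :=
  ∀ σ : GQ, A.IsFrobeniusAt σ q →
    ∀ f : FF (M' * q), f ≠ 0 →
      (∀ P : Place Kbar (FF (M' * q)), (m : ℤ) ∣ P.ord f) →
      IsKummerNew M' q m f →
      ∃ (c : Kbar) (s : FF (M' * q)),
        kummerFrob2 (M' * q) q σ f = algebraMap Kbar (FF (M' * q)) c * s ^ m

end Fermat.Agent.S35lib

end
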