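/-
Item 82 (S35), piece G1 (a) = DEGJ-K (helper23): THE BRIDGE from Hecke polynomials killing the
old level to KUMMER-NEW functions.

* `degJAlpha_evalJac`, `degJBeta_evalJac` : `α_*`, `β_*` intertwine the evaluations of a Hecke
  polynomial (in the `T_ℓ`, `ℓ ∤ Nq`) at the levels `Nq` and `N`;
* `degJAlpha_evalJac_eq_zero`, `degJBeta_evalJac_eq_zero` : if `h` kills `J₀(N)[p^∞]`, then
  `α_* (h x) = 0 = β_* (h x)` for `x ∈ J₀(Nq)[p^∞]`;
* `degJ_isKummerNew` : ... hence every Kummer function of `h x` is Kummer-new (`IsKummerNew`).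
No sorry.
-/
import Mathlib
import Fermat.Agent.S35lib.Frob2K
import Fermat.Agent.S35lib.DegJBeta

set_option autoImplicit false
set_option linter.style.haveILetI false
set_option linter.unusedSectionVars false

noncomputable section

namespace Fermat.Agent.S35lib

open AlgebraicCurve ModularCurve
open Fermat.Agent.S24lib Fermat.Agent.HeckeBar Fermat.Agent.S37lib Fermat.Agent.S31lib

section EvalJac

variable (N : ℕ) [NeZero N] {q : ℕ} [NeZero q] [NeZero (N * q)] (hq : q.Prime)
variable (S : Finset ℕ)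

theorem dgj_goodPrime_ne (ℓ : GoodPrime (N * q) S) : ((ℓ.1 : Nat.Primes) : ℕ) ≠ q := by
  intro h
  apply ℓ.2.1
  rw [h]
  exact dvd_mul_left q N

include hq in
/-- **`α_*` intertwines the Hecke polynomials** at the levels `Nq` and `N`. -/
theorem degJAlpha_evalJac (h : HPoly (N * q) S) (x : JZero (N * q)) :
    degJAlpha N q (evalJac (N * q) S (N * q) h x) =
      evalJac (N * q) S N h (degJAlpha N q x) := by
  induction h using FreeAlgebra.induction generalizing x with
  | grade0 r =>
    rw [AlgHom.commutes, AlgHom.commutes, Module.algebraMap_end_apply,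
      Module.algebraMap_end_apply, map_zsmul]
  | grade1 ℓ =>
    rw [evalJac_ι, evalJac_ι]
    exact degJAlpha_heckeOperatorBar N hq ℓ.1 (dgj_goodPrime_ne N S ℓ) x
  | mul a b ha hb =>
    rw [map_mul, map_mul, Module.End.mul_apply, Module.End.mul_apply, ha, hb]
  | add a b ha hb =>
    rw [map_add, map_add, LinearMap.add_apply, LinearMap.add_apply, map_add, ha, hb]

include hq in
/-- **`β_*` intertwines the Hecke polynomials** at the levels `Nq` and `N` (`q ∤ N`). -/
theorem degJBeta_evalJac (hqN : ¬ q ∣ N) (h : HPoly (N * q) S) (x : JZero (N * q)) :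
    degJBeta N q (evalJac (N * q) S (N * q) h x) =
      evalJac (N * q) S N h (degJBeta N q x) := by
  induction h using FreeAlgebra.induction generalizing x with
  | grade0 r =>
    rw [AlgHom.commutes, AlgHom.commutes, Module.algebraMap_end_apply,
      Module.algebraMap_end_apply, map_zsmul]
  | grade1 ℓ =>
    rw [evalJac_ι, evalJac_ι]
    exact degJBeta_heckeOperatorBar N hq hqN ℓ.1 (dgj_goodPrime_ne N S ℓ) x
  | mul a b ha hb =>
    rw [map_mul, map_mul, Module.End.mul_apply, Module.End.mul_apply, ha, hb]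
  | add a b ha hb =>
    rw [map_add, map_add, LinearMap.add_apply, LinearMap.add_apply, map_add, ha, hb]

variable {S}
variable {p : ℕ} {h : HPoly (N * q) S}

include hq in
/-- `α_*` kills `h • J₀(Nq)[p^∞]` when `h` kills `J₀(N)[p^∞]` -/
theorem degJAlpha_evalJac_eq_zero (hK : KillsLevel (N * q) S N p h) (x : JZero (N * q))
    (hx : ∃ n : ℕ, p ^ n • x = 0) :
    degJAlpha N q (evalJac (N * q) S (N * q) h x) = 0 := by
  rw [degJAlpha_evalJac N hq S h x]
  obtain ⟨n, hn⟩ := hx
  exact hK _ ⟨n, by rw [← map_nsmul, hn, map_zero]⟩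

include hq in
/-- `β_*` kills `h • J₀(Nq)[p^∞]` when `h` kills `J₀(N)[p^∞]` -/
theorem degJBeta_evalJac_eq_zero (hqN : ¬ q ∣ N) (hK : KillsLevel (N * q) S N p h)
    (x : JZero (N * q)) (hx : ∃ n : ℕ, p ^ n • x = 0) :
    degJBeta N q (evalJac (N * q) S (N * q) h x) = 0 := by
  rw [degJBeta_evalJac N hq S hqN h x]
  obtain ⟨n, hn⟩ := hx
  exact hK _ ⟨n, by rw [← map_nsmul, hn, map_zero]⟩

end EvalJac

section KummerNew

variable (N : ℕ) [NeZero N] {q : ℕ} [NeZero q]

/-- a Kummer function of a class killed by `α_*` and `β_*` is Kummer-new -/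
theorem isKummerNew_of_degJ_eq_zero (D : Divisor.degZero (K := Kbar) (F := FF (N * q)))
    (m : ℕ) {f : FF (N * q)} (hf : f ≠ 0)
    (hDf : ∀ w : Place Kbar (FF (N * q)),
      (m : ℤ) * (D : Divisor Kbar (FF (N * q))) w = w.ord f)
    (hα : degJAlpha N q (Pic0.mk D) = 0) (hβ : degJBeta N q (Pic0.mk D) = 0) :
    IsKummerNew N q m f := by
  have hD : ∀ w : Place Kbar (FF (N * q)),
      (m • (D : Divisor Kbar (FF (N * q)))) w = w.ord f := by
    intro w
    rw [← hDf w, Finsupp.smul_apply, nsmul_eq_mul]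
  refine ⟨?_, ?_⟩
  · obtain ⟨g, c, -, -, hn⟩ := degJAlpha_norm N q D m hf hD hα
    exact ⟨c, g, hn⟩
  · obtain ⟨g, c, -, -, hn⟩ := degJBeta_norm N q D m hf hD hβ
    exact ⟨c, g, hn⟩

variable [NeZero (N * q)] (hq : q.Prime) (hqN : ¬ q ∣ N)
variable {S : Finset ℕ} {p : ℕ} {h : HPoly (N * q) S}

include hq hqN in
/-- **DEGJ-K** (blueprint v2, G1 (a)): if the Hecke polynomial `h` kills `J₀(N)[p^∞]` and
`x ∈ J₀(Nq)[p^∞]`, then every Kummer function `f` (`m • D = div f`) of a divisor `D` in the class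
`h • x` is Kummer-new: both norms of `f` to `F_N` are constants times `m`-th powers. -/
theorem degJ_isKummerNew (hK : KillsLevel (N * q) S N p h) (x : JZero (N * q))
    (hx : ∃ n : ℕ, p ^ n • x = 0)
    (D : Divisor.degZero (K := Kbar) (F := FF (N * q)))
    (hD : Pic0.mk D = evalJac (N * q) S (N * q) h x)
    (m : ℕ) {f : FF (N * q)} (hf : f ≠ 0)
    (hDf : ∀ w : Place Kbar (FF (N * q)),
      (m : ℤ) * (D : Divisor Kbar (FF (N * q))) w = w.ord f) :
    IsKummerNew N q m f :=
  isKummerNew_of_degJ_eq_zero N D m hf hDf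
    (by rw [hD]; exact degJAlpha_evalJac_eq_zero N hq hK x hx)
    (by rw [hD]; exact degJBeta_evalJac_eq_zero N hq hqN hK x hx)

include hq hqN in
/-- **DEGJ-K**, in the exact shape of `DegJKStatement` (helper22's `BridgeK.lean`). -/
theorem degJK_core (S : Finset ℕ) (p : ℕ) :
    ∀ h : HPoly (N * q) S, KillsLevel (N * q) S N p h →
      ∀ (x : JZero (N * q)) (n : ℕ), p ^ n • x = 0 →
      ∀ (D : Divisor.degZero (K := Kbar) (F := FF (N * q))) (f : FF (N * q)),
        Pic0.mk D = evalJac (N * q) S (N * q) h x → f ≠ 0 →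
        (∀ w : Place Kbar (FF (N * q)),
          ((p ^ n) • (D : Divisor Kbar (FF (N * q)))) w = w.ord f) →
        IsKummerNew N q (p ^ n) f := by
  intro h hK x n hx D f hD hf hDf
  refine degJ_isKummerNew N hq hqN hK x ⟨n, hx⟩ D hD (p ^ n) hf (fun w => ?_)
  rw [← hDf w, Finsupp.smul_apply, nsmul_eq_mul]

end KummerNew

end Fermat.Agent.S35lib

end
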