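/-
Item 82 (S35), piece N1 NORM-PROD (helper14): the norm of an ARBITRARY `f ∈ F_{Nℓ}` from level
`Nℓ` to level `N` (along `α`) is the product of its `ℓ + 1` conjugates: the expansion at `i∞` and
the `ℓ` twists of the expansion at the other cusp over `i∞`,

    `Norm_α f (t^{Nℓ}) = E₁ f · ∏_{b<ℓ} twq (v^b) (E_h f)`,

`h = (p q; N ℓ) ∈ Γ₀(N)`, `E_h = expansion of h⁻¹ • f`, `v^N = ζ`, `v^{Nℓ} = 1`.
This is the general form of `S37lib.normConj` (same proof); `normProd : NormProdStatement N ℓ`.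
-/
import Mathlib
import Fermat.Agent.S37lib.NormConj
import Fermat.Agent.S35lib.NormDefs

set_option autoImplicit false
set_option linter.style.haveILetI false
set_option linter.unusedSectionVars false

open scoped MatrixGroups
open UpperHalfPlane ModularCurve CongruenceSubgroup AlgebraicCurve
open Fermat.Agent.S24lib Fermat.Agent.HeckeBar Fermat.Agent.S37lib

namespace Fermat.Agent.S35lib

section

variable (N ℓ : ℕ) [NeZero N] [NeZero ℓ]

/-- the expansion at `i∞` of `F_{Nℓ}` -/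
noncomputable def npE1 : FF (N * ℓ) →+* LaurentSeries ℂ :=
  embF (N * ℓ) (expInf (N * ℓ)) (expInf_injective (N * ℓ))

/-- the expansion of `F_{Nℓ}` at the cusp `h⁻¹ ∞` -/
noncomputable def npEh (h : SL(2, ℤ)) : FF (N * ℓ) →+* LaurentSeries ℂ :=
  embF (N * ℓ) (twist (N * ℓ) (expInf (N * ℓ)) h⁻¹)
    (twist_injective (N * ℓ) (expInf_injective (N * ℓ)) h⁻¹)

theorem npE1_apply (f : FF (N * ℓ)) : npE1 N ℓ f = inclL (N * ℓ) (f : LaurentSeries Kbar) :=
  nc_embF_expInf (N * ℓ) f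

theorem npEh_alpha (h : SL(2, ℤ)) (h10 : h 1 0 = (N : ℤ)) (Y : FF N) :
    npEh N ℓ h (heckeAlphaBar Kbar N ℓ Y) = inclL (N * ℓ) (Y : LaurentSeries Kbar) :=
  nc_embF_twist_alpha N ℓ h⁻¹ (inv_mem (nc_h_mem_Gamma0 N h h10)) Y

theorem npEh_beta (h : SL(2, ℤ)) (h10 : h 1 0 = (N : ℤ)) (h11 : h 1 1 = (ℓ : ℤ)) (Y : FF N) :
    npEh N ℓ h (heckeBetaBar Kbar N ℓ Y) = inclL N (Y : LaurentSeries Kbar) :=
  nc_embF_twist_beta N ℓ h h10 h11 Y

/-- **N1 (α side).** For every `f ∈ F_{Nℓ}`, the norm along `α` is the product of the `ℓ + 1`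
conjugate expansions. -/
theorem normProd_alpha (hℓ : ℓ.Prime) (hℓN : ¬ ℓ ∣ N)
    (ζ : Kbarˣ) (hζ : IsPrimitiveRoot (ζ : Kbar) ℓ)
    (h : SL(2, ℤ)) (h10 : h 1 0 = (N : ℤ)) (h11 : h 1 1 = (ℓ : ℤ))
    (v : ℂˣ) (hvN : v ^ N = Units.map (ιC : Kbar →* ℂ) ζ) (f : FF (N * ℓ)) :
    letI := algebraAlong (heckeAlphaBar Kbar N ℓ)
    inclL (N * ℓ) ((Algebra.norm (FF N) f : FF N) : LaurentSeries Kbar)
      = npE1 N ℓ f * ∏ b ∈ Finset.range ℓ, twq (v ^ b) (npEh N ℓ h f) := by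
  classical
  have hζℓ : ζ ^ ℓ = 1 := by
    apply Units.ext
    rw [Units.val_pow_eq_pow_val, hζ.pow_eq_one, Units.val_one]
  have hvM' : v ^ (N * ℓ) = 1 := by
    rw [pow_mul, hvN, ← map_pow, hζℓ, map_one]
  -- the algebra structure
  letI := algebraAlong (heckeAlphaBar Kbar N ℓ)
  haveI : Module.Finite (FF N) (FF (N * ℓ)) := finiteAlong_inclBar N (N * ℓ) (dvd_mul_right N ℓ)
  haveI : FFData Kbar (jF (N * ℓ)) := fin_ffData (N * ℓ)
  haveI : Algebra.IsSeparable (FF N) (FF (N * ℓ)) :=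
    gen_separableAlong (heckeAlphaBar Kbar N ℓ) (transcendental_jF N) (x' := jF (N * ℓ))
  -- the embeddings
  let σ₀ : FF N →+* LaurentSeries ℂ :=
    (inclL (N * ℓ)).comp (algebraMap (FF N) (LaurentSeries Kbar))
  let τ : Option (Fin ℓ) → (FF (N * ℓ) →+* LaurentSeries ℂ) := fun i =>
    match i with
    | none => npE1 N ℓ
    | some b => (twq (v ^ (b : ℕ))).comp (npEh N ℓ h)
  -- values on `β Y`
  have hτβ_none : ∀ Z : FF N, τ none (heckeBetaBar Kbar N ℓ Z)
      = inclL (N * ℓ) (qExpand Kbar ℓ (Z : LaurentSeries Kbar)) := by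
    intro Z
    show npE1 N ℓ _ = _
    rw [npE1_apply, coe_heckeBetaBar]
  have hτβ_some : ∀ (b : Fin ℓ) (Z : FF N), τ (some b) (heckeBetaBar Kbar N ℓ Z)
      = inclL N (twq (ζ ^ (b : ℕ)) (Z : LaurentSeries Kbar)) := by
    intro b Z
    show twq (v ^ (b : ℕ)) (npEh N ℓ h _) = _
    rw [npEh_beta N ℓ h h10 h11 Z, nc_inclL_twq, map_pow, ← hvN, ← pow_mul,
      mul_comm N (b : ℕ), pow_mul]
    unfold inclL
    simp only [RingHom.comp_apply]
    rw [nc_twq_qExpand]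
  -- restriction to `F_N`
  have hτ : ∀ i a, τ i (algebraMap (FF N) (FF (N * ℓ)) a) = σ₀ a := by
    intro i a
    cases i with
    | none =>
      show npE1 N ℓ (heckeAlphaBar Kbar N ℓ a) = inclL (N * ℓ) (a : LaurentSeries Kbar)
      rw [npE1_apply, coe_heckeAlphaBar]
    | some b =>
      show twq (v ^ (b : ℕ)) (npEh N ℓ h (heckeAlphaBar Kbar N ℓ a))
        = inclL (N * ℓ) (a : LaurentSeries Kbar)
      rw [npEh_alpha N ℓ h h10 a]
      unfold inclL
      simp only [RingHom.comp_apply]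
      rw [nc_twq_qExpand, ← pow_mul, mul_comm (b : ℕ), pow_mul, hvM', one_pow, twq_one]
  -- distinctness
  have hinj : Function.Injective τ := by
    let c : Option (Fin ℓ) → ℂ := fun i =>
      (τ i (heckeBetaBar Kbar N ℓ (jF N))).coeff (-(N : ℤ))
    have hc_none : c none = 0 := by
      show (τ none (heckeBetaBar Kbar N ℓ (jF N))).coeff (-(N : ℤ)) = 0
      rw [hτβ_none]
      exact nc_coeff_qExpand_jF N ℓ hℓ.one_lt
    have hc_some : ∀ b : Fin ℓ, c (some b) = ιC (((ζ ^ (b : ℕ))⁻¹ : Kbarˣ) : Kbar) := by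
      intro b
      show (τ (some b) (heckeBetaBar Kbar N ℓ (jF N))).coeff (-(N : ℤ)) = _
      rw [hτβ_some]
      exact nc_coeff_twq_jF N _
    intro i j hij
    have hcij : c i = c j := by
      show (τ i _).coeff _ = (τ j _).coeff _
      rw [hij]
    cases i with
    | none =>
      cases j with
      | none => rfl
      | some b =>
        exfalso
        rw [hc_none, hc_some] at hcij
        exact (Units.ne_zero _) (ιC_injective (hcij.symm.trans (map_zero ιC).symm))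
    | some a =>
      cases j with
      | none =>
        exfalso
        rw [hc_none, hc_some] at hcij
        exact (Units.ne_zero _) (ιC_injective (hcij.trans (map_zero ιC).symm))
      | some b =>
        rw [hc_some, hc_some] at hcij
        have h1 : (ζ ^ (a : ℕ))⁻¹ = (ζ ^ (b : ℕ))⁻¹ := Units.ext (ιC_injective hcij)
        have h2 : (ζ : Kbar) ^ (a : ℕ) = (ζ : Kbar) ^ (b : ℕ) := by
          have := congrArg (fun u : Kbarˣ => ((u⁻¹ : Kbarˣ) : Kbar)) h1
          simpa using this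
        have h3 := hζ.pow_inj a.2 b.2 h2
        exact congrArg some (Fin.ext h3)
  have hcard : Fintype.card (Option (Fin ℓ)) = Module.finrank (FF N) (FF (N * ℓ)) := by
    rw [Fintype.card_option, Fintype.card_fin]
    have h1 := finrankAlong_inclBar_prime N hℓ (N * ℓ) rfl
    rw [if_neg hℓN] at h1
    exact h1.symm
  have key := nc_norm_eq_prod σ₀ τ hτ hinj hcard f
  rw [Fintype.prod_option] at key
  rw [Finset.prod_range]
  exact key

/-- existence of the data `(h, v)` of `normProd_alpha` -/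
theorem np_exists_data (hℓ : ℓ.Prime) (hℓN : ¬ ℓ ∣ N)
    (ζ : Kbarˣ) (hζ : IsPrimitiveRoot (ζ : Kbar) ℓ) :
    ∃ (h : SL(2, ℤ)) (v : ℂˣ), h 1 0 = (N : ℤ) ∧ h 1 1 = (ℓ : ℤ) ∧
      v ^ N = Units.map (ιC : Kbar →* ℂ) ζ ∧ v ^ (N * ℓ) = 1 := by
  have hcop : Nat.Coprime ℓ N := (Nat.Prime.coprime_iff_not_dvd hℓ).2 hℓN
  obtain ⟨h, h10, h11⟩ := nc_exists_h N ℓ hcop
  obtain ⟨N', -, hN'⟩ := Nat.exists_mul_mod_eq_one_of_coprime hcop.symm hℓ.one_lt
  have hζℓ : ζ ^ ℓ = 1 := by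
    apply Units.ext
    rw [Units.val_pow_eq_pow_val, hζ.pow_eq_one, Units.val_one]
  have hvN : (ζ ^ N') ^ N = ζ := by
    rw [← pow_mul, mul_comm, ← Nat.mod_add_div (N * N') ℓ, hN', pow_add, pow_one, pow_mul, hζℓ,
      one_pow, mul_one]
  refine ⟨h, Units.map (ιC : Kbar →* ℂ) (ζ ^ N'), h10, h11, ?_, ?_⟩
  · rw [← map_pow, hvN]
  · rw [pow_mul, ← map_pow, hvN, ← map_pow, hζℓ, map_one]

/-- `F_{Nℓ}` is generated as a field by `α(F_N)` and `β(F_N)` (`ℓ` prime): induction principle. -/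
theorem np_induction (hℓ : ℓ.Prime) {p : FF (N * ℓ) → Prop}
    (hα : ∀ Y : FF N, p (heckeAlphaBar Kbar N ℓ Y))
    (hβ : ∀ Y : FF N, p (heckeBetaBar Kbar N ℓ Y))
    (hadd : ∀ x y, p x → p y → p (x + y)) (hneg : ∀ x, p x → p (-x))
    (hmul : ∀ x y, p x → p y → p (x * y)) (hinv : ∀ x, p x → p x⁻¹) : ∀ x, p x := by
  apply FF_induction (N * ℓ) _ _ hadd hneg hmul hinv
  · intro c
    have h1 := hα (algebraMap Kbar (FF N) c)
    rwa [AlgHom.commutes] at h1
  · intro d _ hd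
    by_cases hℓd : ℓ ∣ d
    · obtain ⟨e, rfl⟩ := hℓd
      have he : e ∣ N := by
        have h1 : ℓ * e ∣ ℓ * N := by rwa [mul_comm ℓ N]
        exact (Nat.mul_dvd_mul_iff_left hℓ.pos).1 h1
      haveI : NeZero e := ⟨fun h => by
        rw [h, zero_dvd_iff] at he; exact NeZero.ne N he⟩
      have key : jdF (N * ℓ) (ℓ * e) hd = heckeBetaBar Kbar N ℓ (jdF N e he) := by
        rw [heckeBetaBar_eq_qpowBar, qpowBar_jdF]
      rw [key]
      exact hβ _
    · have hdN : d ∣ N := by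
        have hcop : Nat.Coprime d ℓ := (Nat.Prime.coprime_iff_not_dvd hℓ).2 hℓd |>.symm
        exact hcop.dvd_of_dvd_mul_right hd
      have key : jdF (N * ℓ) d hd = heckeAlphaBar Kbar N ℓ (jdF N d hdN) := by
        rw [heckeAlphaBar_eq_inclBar, inclBar_jdF]
      rw [key]
      exact hα _

/-- the expansion at the second cusp has coefficients in `ℚ̄` and is a series in `t^N` -/
theorem npEh_mem_range (hℓ : ℓ.Prime) (h : SL(2, ℤ)) (h10 : h 1 0 = (N : ℤ))
    (h11 : h 1 1 = (ℓ : ℤ)) (x : FF (N * ℓ)) :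
    ∃ y : LaurentSeries Kbar, inclL N y = npEh N ℓ h x := by
  induction x using np_induction N ℓ hℓ with
  | hα Y =>
    exact ⟨qExpand Kbar ℓ (Y : LaurentSeries Kbar), by
      rw [npEh_alpha N ℓ h h10 Y, nc_inclL_qExpand]⟩
  | hβ Y => exact ⟨(Y : LaurentSeries Kbar), (npEh_beta N ℓ h h10 h11 Y).symm⟩
  | hadd x y hx hy =>
    obtain ⟨a, ha⟩ := hx
    obtain ⟨b, hb⟩ := hy
    exact ⟨a + b, by rw [map_add, map_add, ha, hb]⟩
  | hneg x hx =>
    obtain ⟨a, ha⟩ := hx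
    exact ⟨-a, by rw [map_neg, map_neg, ha]⟩
  | hmul x y hx hy =>
    obtain ⟨a, ha⟩ := hx
    obtain ⟨b, hb⟩ := hy
    exact ⟨a * b, by rw [map_mul, map_mul, ha, hb]⟩
  | hinv x hx =>
    obtain ⟨a, ha⟩ := hx
    exact ⟨a⁻¹, by rw [map_inv₀, map_inv₀, ha]⟩

end

section Main

variable (N ℓ : ℕ) [NeZero N] [NeZero ℓ]

/-- the norm along `g` is the norm along `f` after an automorphism `w` with `w ∘ g = f` -/
theorem np_norm_transport {A B : Type*} [Field A] [Field B] (f g : A →+* B) (w : B ≃+* B)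
    (hw : ∀ a, w (g a) = f a) (x : B) :
    @Algebra.norm A B _ _ g.toAlgebra x = @Algebra.norm A B _ _ f.toAlgebra (w x) := by
  have key := @Algebra.norm_eq_of_equiv_equiv A B A B _ _ _ _ g.toAlgebra f.toAlgebra
    (RingEquiv.refl A) w (by
      refine RingHom.ext fun a => ?_
      exact (hw a).symm) x
  simpa using key

/-- the α-formula in terms of a second expansion `E₀` with `inclL N ∘ E₀ = E_h` -/
theorem np_alpha_formula (hℓ : ℓ.Prime) (hℓN : ¬ ℓ ∣ N)
    (h : SL(2, ℤ)) (h10 : h 1 0 = (N : ℤ)) (h11 : h 1 1 = (ℓ : ℤ))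
    (E₀ : FF (N * ℓ) →+* LaurentSeries Kbar)
    (hE : ∀ x, inclL N (E₀ x) = npEh N ℓ h x)
    (ζ : Kbarˣ) (hζ : IsPrimitiveRoot (ζ : Kbar) ℓ) (x : FF (N * ℓ)) :
    letI := algebraAlong (heckeAlphaBar Kbar N ℓ)
    qExpand Kbar ℓ ((Algebra.norm (FF N) x : FF N) : LaurentSeries Kbar)
      = qExpand Kbar ℓ (x : LaurentSeries Kbar) * ∏ b ∈ Finset.range ℓ, twq (ζ ^ b) (E₀ x) := by
  obtain ⟨h', v, h10', h11', hvN, -⟩ := np_exists_data N ℓ hℓ hℓN ζ hζ
  have key := normProd_alpha N ℓ hℓ hℓN ζ hζ h h10 h11 v hvN x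
  apply nc_inclL_injective N
  rw [nc_inclL_qExpand, map_mul, nc_inclL_qExpand, map_prod]
  refine key.trans ?_
  rw [npE1_apply]
  congr 1
  refine Finset.prod_congr rfl fun b _ => ?_
  rw [← hE x, nc_inclL_twq]
  unfold inclL
  simp only [RingHom.comp_apply]
  rw [nc_twq_qExpand, ← pow_mul, mul_comm b N, pow_mul, hvN, map_pow]

/-- **N1 (NORM-PROD).** -/
theorem normProd (hℓ : ℓ.Prime) (hℓN : ¬ ℓ ∣ N) : NormProdStatement N ℓ := by
  classical
  have hcop : Nat.Coprime ℓ N := (Nat.Prime.coprime_iff_not_dvd hℓ).2 hℓN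
  obtain ⟨h, h10, h11⟩ := nc_exists_h N ℓ hcop
  -- the second expansion
  choose e he using npEh_mem_range N ℓ hℓ h h10 h11
  have hinj := nc_inclL_injective N
  let E₀ : FF (N * ℓ) →+* LaurentSeries Kbar :=
    { toFun := e
      map_one' := hinj (by rw [he, map_one, map_one])
      map_mul' := fun x y => hinj (by rw [he, map_mul, map_mul, he, he])
      map_zero' := hinj (by rw [he, map_zero, map_zero])
      map_add' := fun x y => hinj (by rw [he, map_add, map_add, he, he]) }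
  have hE : ∀ x, inclL N (E₀ x) = npEh N ℓ h x := he
  have hEα : ∀ Y : FF N, E₀ (heckeAlphaBar Kbar N ℓ Y)
      = qExpand Kbar ℓ (Y : LaurentSeries Kbar) := by
    intro Y
    apply hinj
    rw [hE, npEh_alpha N ℓ h h10 Y, nc_inclL_qExpand]
  have hEβ : ∀ Y : FF N, E₀ (heckeBetaBar Kbar N ℓ Y) = (Y : LaurentSeries Kbar) := by
    intro Y
    apply hinj
    rw [hE, npEh_beta N ℓ h h10 h11 Y]
  have hEc : ∀ c : Kbar, E₀ (algebraMap Kbar (FF (N * ℓ)) c)
      = algebraMap Kbar (LaurentSeries Kbar) c := by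
    intro c
    have h1 := hEα (algebraMap Kbar (FF N) c)
    rw [AlgHom.commutes] at h1
    rw [h1, nc_coe_algebraMap, algebraMap_laurentSeries_eq_single, qExpand_single, mul_zero]
  -- the involution `w`
  have hmem : ∀ x, E₀ x ∈ modularFunctionFieldBar (N * ℓ) := by
    intro x
    induction x using np_induction N ℓ hℓ with
    | hα Y =>
      rw [hEα Y, ← coe_heckeBetaBar (L := Kbar) N ℓ Y]
      exact (heckeBetaBar Kbar N ℓ Y).2
    | hβ Y =>
      rw [hEβ Y, ← coe_heckeAlphaBar (L := Kbar) N ℓ Y]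
      exact (heckeAlphaBar Kbar N ℓ Y).2
    | hadd x y hx hy => rw [map_add]; exact add_mem hx hy
    | hneg x hx => rw [map_neg]; exact neg_mem hx
    | hmul x y hx hy => rw [map_mul]; exact mul_mem hx hy
    | hinv x hx => rw [map_inv₀]; exact inv_mem hx
  let w : FF (N * ℓ) →+* FF (N * ℓ) := E₀.codRestrict (modularFunctionFieldBar (N * ℓ)) hmem
  have hw : ∀ x, ((w x : FF (N * ℓ)) : LaurentSeries Kbar) = E₀ x := fun x => rfl
  have hwα : ∀ Y : FF N, w (heckeAlphaBar Kbar N ℓ Y) = heckeBetaBar Kbar N ℓ Y := by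
    intro Y
    apply Subtype.ext
    rw [hw, hEα, coe_heckeBetaBar]
  have hwβ : ∀ Y : FF N, w (heckeBetaBar Kbar N ℓ Y) = heckeAlphaBar Kbar N ℓ Y := by
    intro Y
    apply Subtype.ext
    rw [hw, hEβ, coe_heckeAlphaBar]
  have hww : ∀ x, w (w x) = x := by
    intro x
    induction x using np_induction N ℓ hℓ with
    | hα Y => rw [hwα, hwβ]
    | hβ Y => rw [hwβ, hwα]
    | hadd x y hx hy => rw [map_add, map_add, hx, hy]
    | hneg x hx => rw [map_neg, map_neg, hx]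
    | hmul x y hx hy => rw [map_mul, map_mul, hx, hy]
    | hinv x hx => rw [map_inv₀, map_inv₀, hx]
  let wE : FF (N * ℓ) ≃+* FF (N * ℓ) :=
    RingEquiv.ofRingHom w w (RingHom.ext hww) (RingHom.ext hww)
  have hwE : ∀ x, wE x = w x := fun x => rfl
  refine ⟨E₀, hEc, hEα, hEβ, ?_, ?_⟩
  · intro ζ hζ x
    exact np_alpha_formula N ℓ hℓ hℓN h h10 h11 E₀ hE ζ hζ x
  · intro ζ hζ x
    have h1 := np_norm_transport (heckeAlphaBar Kbar N ℓ).toRingHom
      (heckeBetaBar Kbar N ℓ).toRingHom wE (fun a => hwβ a) x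
    have h2 := np_alpha_formula N ℓ hℓ hℓN h h10 h11 E₀ hE ζ hζ (wE x)
    show qExpand Kbar ℓ ((@Algebra.norm (FF N) (FF (N * ℓ)) _ _
        (heckeBetaBar Kbar N ℓ).toRingHom.toAlgebra x : FF N) : LaurentSeries Kbar) = _
    rw [h1]
    refine h2.trans ?_
    rw [hwE, hw, ← hw (w x), hww]

end Main

end Fermat.Agent.S35lib
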