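import Mathlib
import Fermat.Agent.S24lib.Embed
import Fermat.Agent.HeckeBar.ModDeg
import Fermat.Agent.HeckeBar.GaloisHecke

/-!
# Item 82 (S35), piece N2' (FROB-E0): the second expansion commutes with the Galois action

For a prime `ℓ`, the function field `F_{Nℓ}` is generated over `ℚ̄` by `α(F_N)` and `β(F_N)`
(`fe0_ringHom_ext`).  Hence any ring hom `E₀ : F_{Nℓ} → ℚ̄((q))` with the three properties of
`NormProdStatement` (constants, `E₀ ∘ α = (q ↦ q^ℓ)`, `E₀ ∘ β = coe`) is unique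
(`fe0_unique`) and commutes with the coefficientwise Galois action:
`E₀ (σ • x) = coeffMap σ (E₀ x)` (`frobE0`).
-/

set_option autoImplicit false
set_option linter.style.haveILetI false
set_option linter.unusedSectionVars false

noncomputable section

namespace Fermat.Agent.S35lib

open ModularCurve AlgebraicCurve
open Fermat.Agent.S24lib Fermat.Agent.HeckeBar

variable (N ℓ : ℕ) [NeZero N] [NeZero ℓ]

/-- `F_{Nℓ}` is generated by the constants, `α(F_N)` and `β(F_N)` (`ℓ` prime): two ring homs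
into a field which agree there are equal. -/
theorem fe0_ringHom_ext (hℓ : ℓ.Prime) {R : Type*} [Field R]
    (φ ψ : FF (N * ℓ) →+* R)
    (hc : ∀ c : Kbar, φ (algebraMap Kbar (FF (N * ℓ)) c) = ψ (algebraMap Kbar (FF (N * ℓ)) c))
    (hα : ∀ Y : FF N, φ (heckeAlphaBar Kbar N ℓ Y) = ψ (heckeAlphaBar Kbar N ℓ Y))
    (hβ : ∀ Y : FF N, φ (heckeBetaBar Kbar N ℓ Y) = ψ (heckeBetaBar Kbar N ℓ Y)) :
    φ = ψ := by
  haveI : NeZero (N * ℓ) := ⟨Nat.mul_ne_zero (NeZero.ne N) (NeZero.ne ℓ)⟩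
  apply FF_ringHom_ext (N * ℓ) φ ψ hc
  intro d _ hd
  by_cases hℓd : ℓ ∣ d
  · obtain ⟨e, rfl⟩ := hℓd
    have he : e ∣ N := by
      have h1 : ℓ * e ∣ ℓ * N := by rwa [mul_comm ℓ N]
      exact (Nat.mul_dvd_mul_iff_left hℓ.pos).1 h1
    haveI : NeZero e := ⟨fun h => by
      rw [h, zero_dvd_iff] at he; exact NeZero.ne N he⟩
    have key : jdF (N * ℓ) (ℓ * e) hd = heckeBetaBar Kbar N ℓ (jdF N e he) := by
      rw [heckeBetaBar_eq_qpowBar, qpowBar_jdF]
    rw [key]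
    exact hβ _
  · have hdN : d ∣ N := by
      have hcop : Nat.Coprime d ℓ := (Nat.Prime.coprime_iff_not_dvd hℓ).2 hℓd |>.symm
      exact hcop.dvd_of_dvd_mul_right hd
    have key : jdF (N * ℓ) d hd = heckeAlphaBar Kbar N ℓ (jdF N d hdN) := by
      rw [heckeAlphaBar_eq_inclBar, inclBar_jdF]
    rw [key]
    exact hα _

/-- Uniqueness of the second expansion. -/
theorem fe0_unique (hℓ : ℓ.Prime) (E₀ E₁ : FF (N * ℓ) →+* LaurentSeries Kbar)
    (hc₀ : ∀ c : Kbar, E₀ (algebraMap Kbar (FF (N * ℓ)) c) = algebraMap Kbar (LaurentSeries Kbar) c)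
    (hα₀ : ∀ Y : FF N, E₀ (heckeAlphaBar Kbar N ℓ Y) = qExpand Kbar ℓ (Y : LaurentSeries Kbar))
    (hβ₀ : ∀ Y : FF N, E₀ (heckeBetaBar Kbar N ℓ Y) = (Y : LaurentSeries Kbar))
    (hc₁ : ∀ c : Kbar, E₁ (algebraMap Kbar (FF (N * ℓ)) c) = algebraMap Kbar (LaurentSeries Kbar) c)
    (hα₁ : ∀ Y : FF N, E₁ (heckeAlphaBar Kbar N ℓ Y) = qExpand Kbar ℓ (Y : LaurentSeries Kbar))
    (hβ₁ : ∀ Y : FF N, E₁ (heckeBetaBar Kbar N ℓ Y) = (Y : LaurentSeries Kbar)) :
    E₀ = E₁ :=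
  fe0_ringHom_ext N ℓ hℓ E₀ E₁ (fun c => (hc₀ c).trans (hc₁ c).symm)
    (fun Y => (hα₀ Y).trans (hα₁ Y).symm) (fun Y => (hβ₀ Y).trans (hβ₁ Y).symm)

/-- **N2' (FROB-E0)**: the second expansion commutes with the Galois action on coefficients. -/
theorem frobE0 (hℓ : ℓ.Prime) (E₀ : FF (N * ℓ) →+* LaurentSeries Kbar)
    (hc : ∀ c : Kbar, E₀ (algebraMap Kbar (FF (N * ℓ)) c) = algebraMap Kbar (LaurentSeries Kbar) c)
    (hα : ∀ Y : FF N, E₀ (heckeAlphaBar Kbar N ℓ Y) = qExpand Kbar ℓ (Y : LaurentSeries Kbar))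
    (hβ : ∀ Y : FF N, E₀ (heckeBetaBar Kbar N ℓ Y) = (Y : LaurentSeries Kbar))
    (σ : Kbar ≃ₐ[ℚ] Kbar) (x : FF (N * ℓ)) :
    E₀ (arithmeticGalois (modularFunctionFieldFull (N * ℓ)) σ • x)
      = coeffMap (σ : Kbar →+* Kbar) (E₀ x) := by
  have key : E₀.comp ((arithmeticRingAut (modularFunctionFieldFull (N * ℓ)) σ :
        FF (N * ℓ) ≃+* FF (N * ℓ)) : FF (N * ℓ) →+* FF (N * ℓ))
      = (coeffMap (σ : Kbar →+* Kbar)).comp E₀ := by
    apply fe0_ringHom_ext N ℓ hℓ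
    · intro c
      simp only [RingHom.comp_apply, RingHom.coe_coe]
      rw [arithmeticRingAut_algebraMap, hc, hc, coeffMap_algebraMap]
      rfl
    · intro Y
      simp only [RingHom.comp_apply, RingHom.coe_coe]
      have h1 : arithmeticRingAut (modularFunctionFieldFull (N * ℓ)) σ (heckeAlphaBar Kbar N ℓ Y)
          = heckeAlphaBar Kbar N ℓ (arithmeticGalois (modularFunctionFieldFull N) σ • Y) :=
        gal_intertwines_alpha N ℓ σ Y
      rw [h1, hα, hα, coe_arithmeticGalois_smul, coeffMap_qExpand]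
    · intro Y
      simp only [RingHom.comp_apply, RingHom.coe_coe]
      have h1 : arithmeticRingAut (modularFunctionFieldFull (N * ℓ)) σ (heckeBetaBar Kbar N ℓ Y)
          = heckeBetaBar Kbar N ℓ (arithmeticGalois (modularFunctionFieldFull N) σ • Y) :=
        gal_intertwines_beta N ℓ σ Y
      rw [h1, hβ, hβ, coe_arithmeticGalois_smul]
  exact congrArg (fun f : FF (N * ℓ) →+* LaurentSeries Kbar => f x) key

end Fermat.Agent.S35lib
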