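import Mathlib

/-!
# Item 82 (S35), algebra: the resultant identity

For `u v = v u = 1` in a ring and an integer `d`:
`((d v - d)^a (d v - 1)^b) ((u - d)^a (u - 1)^b) = d^a (d + 1 - u - d v)^(a+b)`.
(With `u = σ²`, `d = q²`: the product of `P(σ²)` and `P(q² σ⁻²)` for `P = (X - q²)^a (X - 1)^b`
is a polynomial in the Hecke operator `σ² + q² σ⁻²`.)

Also: `tr (f²) = (tr f)² - 2 det f` in rank `2`.
-/

set_option autoImplicit false

namespace Fermat.Agent.S35lib

/-- the resultant identity in a commutative ring -/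
theorem ar_resultant_comm {C : Type*} [CommRing C] (u v : C) (hvu : v * u = 1) (d : C)
    (a b : ℕ) :
    ((d * v - d) ^ a * (d * v - 1) ^ b) * ((u - d) ^ a * (u - 1) ^ b) =
      d ^ a * (d + 1 - u - d * v) ^ (a + b) := by
  have e1 : (d * v - d) * (u - d) = d * (d + 1 - u - d * v) := by
    linear_combination d * hvu
  have e2 : (d * v - 1) * (u - 1) = d + 1 - u - d * v := by
    linear_combination d * hvu
  have e3 : ((d * v - d) ^ a * (d * v - 1) ^ b) * ((u - d) ^ a * (u - 1) ^ b)
      = ((d * v - d) * (u - d)) ^ a * ((d * v - 1) * (u - 1)) ^ b := by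
    rw [mul_pow, mul_pow]
    generalize (d * v - d) ^ a = x1
    generalize (d * v - 1) ^ b = x2
    generalize (u - d) ^ a = x3
    generalize (u - 1) ^ b = x4
    ring
  rw [e3, e1, e2, mul_pow, pow_add, mul_assoc]

/-- the resultant identity for two mutually inverse elements of a (noncommutative) ring -/
theorem ar_resultant {E : Type*} [Ring E] (u v : E) (huv : u * v = 1) (hvu : v * u = 1) (d : ℤ)
    (a b : ℕ) :
    (((d : E) * v - (d : E)) ^ a * ((d : E) * v - 1) ^ b) * ((u - (d : E)) ^ a * (u - 1) ^ b) =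
      (d : E) ^ a * ((d : E) + 1 - u - (d : E) * v) ^ (a + b) := by
  classical
  have hcomm : ∀ x ∈ ({u, v} : Set E), ∀ y ∈ ({u, v} : Set E), x * y = y * x := by
    intro x hx y hy
    rcases hx with rfl | rfl <;> rcases hy with rfl | rfl
    · rfl
    · rw [huv, hvu]
    · rw [huv, hvu]
    · rfl
  have hmc : IsMulCommutative (Algebra.adjoin ℤ ({u, v} : Set E)) :=
    Algebra.isMulCommutative_adjoin ℤ hcomm
  let _ : CommRing (Algebra.adjoin ℤ ({u, v} : Set E)) :=
    { (inferInstance : Ring (Algebra.adjoin ℤ ({u, v} : Set E))) with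
      mul_comm := fun x y => hmc.is_comm.comm x y }
  let U : Algebra.adjoin ℤ ({u, v} : Set E) := ⟨u, Algebra.subset_adjoin (by simp)⟩
  let V : Algebra.adjoin ℤ ({u, v} : Set E) := ⟨v, Algebra.subset_adjoin (by simp)⟩
  have hVU : V * U = 1 := Subtype.ext hvu
  have h := ar_resultant_comm U V hVU (d : Algebra.adjoin ℤ ({u, v} : Set E)) a b
  have h2 := congrArg (fun x : Algebra.adjoin ℤ ({u, v} : Set E) => (x : E)) h
  simpa [U, V] using h2

/-- `tr (f²) = (tr f)² - 2 det f` in rank `2`. -/
theorem ar_trace_sq {R : Type*} [CommRing R] {V : Type*} [AddCommGroup V] [Module R V]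
    [Module.Free R V] [Module.Finite R V] (hV : Module.finrank R V = 2) (f : Module.End R V) :
    LinearMap.trace R V (f * f) = LinearMap.trace R V f ^ 2 - 2 * LinearMap.det f := by
  classical
  rcases subsingleton_or_nontrivial R with hR | hR
  · exact Subsingleton.elim _ _
  let bas : Module.Basis (Fin 2) R V := Module.finBasisOfFinrankEq R V hV
  rw [LinearMap.trace_eq_matrix_trace R bas, LinearMap.trace_eq_matrix_trace R bas f,
    ← LinearMap.det_toMatrix bas f, LinearMap.toMatrix_mul]
  generalize LinearMap.toMatrix bas bas f = A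
  rw [Matrix.det_fin_two, Matrix.trace_fin_two, Matrix.trace_fin_two, Matrix.mul_apply,
    Matrix.mul_apply]
  simp only [Fin.sum_univ_two]
  ring

/-- the characteristic polynomial in rank `2`. -/
theorem ar_charpoly {R : Type*} [CommRing R] [Nontrivial R] {V : Type*}
    [AddCommGroup V] [Module R V] [Module.Free R V] [Module.Finite R V]
    (hV : Module.finrank R V = 2) (f : Module.End R V) :
    LinearMap.charpoly f =
      Polynomial.X ^ 2 - Polynomial.C (LinearMap.trace R V f) * Polynomial.X
        + Polynomial.C (LinearMap.det f) := by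
  classical
  let bas : Module.Basis (Fin 2) R V := Module.finBasisOfFinrankEq R V hV
  rw [← LinearMap.charpoly_toMatrix f bas, Matrix.charpoly_fin_two,
    LinearMap.trace_eq_matrix_trace R bas f, ← LinearMap.det_toMatrix bas f]

end Fermat.Agent.S35lib
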