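import Mathlib
import Fermat.Agent.S35lib.AlgDefs
import Fermat.Agent.S35lib.AlgRing

/-!
# Item 82 (S35), algebra: the lattice step

If `(s - d)^a (s - 1)^b` kills `h • J₀(N)[p^∞]` (`s ∈ G_ℚ`, `d ∈ ℤ`), and a power `τ^k` of a
Frobenius at a good prime `ℓ` acts as `s` on `J[pⁿ]`, with `ℓ^k ≡ d` modulo `pⁿ`, then the Hecke
polynomial `h * d^a (d + 1 - P_k(T_ℓ, ℓ))^(a+b)` maps the lattice `Λ` into `pⁿ Λ`.
-/

set_option autoImplicit false

namespace Fermat.Agent.S35lib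

open Fermat.Agent.GalRep ModularCurve Fermat.Agent.S31lib

section

variable {p : ℕ} {N : ℕ} [NeZero N] {S : Finset ℕ}

/-- the level structures intertwine every Hecke polynomial. -/
theorem al_e_evalLat (J : JacInput N p) (n : ℕ) (P : HPoly N S) (l : J.Λ) :
    J.e n (evalLat S J P l) = evalJac N S N P (J.e n l) := by
  induction P using FreeAlgebra.induction generalizing l with
  | grade0 r =>
    rw [AlgHom.commutes, AlgHom.commutes, Algebra.algebraMap_eq_smul_one,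
      Algebra.algebraMap_eq_smul_one, LinearMap.smul_apply, LinearMap.smul_apply,
      Module.End.one_apply, Module.End.one_apply, map_zsmul]
  | grade1 ℓ =>
    have h1 : evalLat S J (FreeAlgebra.ι ℤ ℓ) = J.T ℓ.1 := by simp [evalLat]
    rw [h1, evalJac_ι, J.e_hecke]
  | mul a b ha hb =>
    rw [map_mul, map_mul, Module.End.mul_apply, Module.End.mul_apply, ha, hb]
  | add a b ha hb =>
    rw [map_add, map_add, LinearMap.add_apply, LinearMap.add_apply, map_add, ha, hb]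

/-- Hecke polynomials commute with the Galois action. -/
theorem al_galEnd_evalJac (J : JacInput N p) (σ : GQ) (P : HPoly N S) :
    galEnd N σ * evalJac N S N P = evalJac N S N P * galEnd N σ := by
  induction P using FreeAlgebra.induction with
  | grade0 r =>
    rw [AlgHom.commutes]
    exact (Algebra.commutes r (galEnd N σ)).symm
  | grade1 ℓ =>
    rw [evalJac_ι]
    ext x
    simp only [Module.End.mul_apply, galEnd_apply]
    exact J.galComm σ ℓ.1 x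
  | mul a b ha hb =>
    rw [map_mul, ← mul_assoc, ha, mul_assoc, hb, mul_assoc]
  | add a b ha hb =>
    rw [map_add, mul_add, add_mul, ha, hb]

omit [NeZero N] in
theorem al_torsion_map (f : Module.End ℤ (JZero N)) (n : ℕ) (x : JZero N) (hx : p ^ n • x = 0) :
    p ^ n • f x = 0 := by
  rw [← map_nsmul, hx, map_zero]

omit [NeZero N] in
theorem al_torsion_gal (σ : GQ) (n : ℕ) (x : JZero N) (hx : p ^ n • x = 0) :
    p ^ n • (σ • x) = 0 :=
  al_torsion_map (galEnd N σ) n x hx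

/-- the Galois operator `d + 1 - s - d s⁻¹`. -/
noncomputable def alU (N : ℕ) (s : GQ) (d : ℤ) : Module.End ℤ (JZero N) :=
  (d : Module.End ℤ (JZero N)) + 1 - galEnd N s - (d : Module.End ℤ (JZero N)) * galEnd N s⁻¹

omit [NeZero N] in
theorem alU_apply (s : GQ) (d : ℤ) (x : JZero N) :
    alU N s d x = d • x + x - s • x - d • s⁻¹ • x := by
  simp [alU, Module.End.intCast_apply]

/-- on `J[pⁿ]` the Hecke polynomial `d + 1 - P_k(T_ℓ, ℓ)` acts as `d + 1 - s - d s⁻¹`. -/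
theorem al_evalJac_U (J : JacInput N p) (n : ℕ)
    (ℓ : GoodPrime N S) (hℓp : ¬ (ℓ.1 : ℕ) ∣ N * p)
    (A : ValuationSubring (AlgebraicClosure ℚ)) (hA : A.LiesOverPrime (ℓ.1 : ℕ))
    (τ : GQ) (hτ : A.IsFrobeniusAt τ (ℓ.1 : ℕ)) (k : ℕ) (s : GQ)
    (hg : ∀ x : JZero N, p ^ n • x = 0 → τ ^ k • x = s • x ∧ (τ ^ k)⁻¹ • x = s⁻¹ • x)
    (d : ℤ) (hdvd : ((p ^ n : ℕ) : ℤ) ∣ ((ℓ.1 : ℕ) : ℤ) ^ k - d)
    (x : JZero N) (hx : p ^ n • x = 0) :
    evalJac N S N ((d + 1) • (1 : HPoly N S) - frobPoly N S ℓ k) x = alU N s d x := by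
  have hfp : evalJac N S N (frobPoly N S ℓ k) =
      powTr (heckeOperatorBar N ℓ.1) ((((ℓ.1 : ℕ)) : ℤ) • (1 : Module.End ℤ (JZero N))) k := by
    have h := map_powTr (evalJac N S N).toRingHom (FreeAlgebra.ι ℤ ℓ)
      ((((ℓ.1 : ℕ)) : ℤ) • (1 : HPoly N S)) k
    simp only [AlgHom.toRingHom_eq_coe, RingHom.coe_coe, map_zsmul, map_one] at h
    rw [frobPoly, h, evalJac_ι]
  have q2 : powTr (heckeOperatorBar N ℓ.1) ((((ℓ.1 : ℕ)) : ℤ) • (1 : Module.End ℤ (JZero N))) k x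
      = τ ^ k • x + (((ℓ.1 : ℕ)) ^ k : ℤ) • (τ ^ k)⁻¹ • x :=
    powTr_heckeBar_apply J (ℓ.1 : ℕ) ℓ.1.2 hℓp A hA τ hτ k x ⟨n, hx⟩
  rw [map_sub, map_zsmul, map_one, LinearMap.sub_apply, LinearMap.smul_apply,
    Module.End.one_apply, hfp, q2, (hg x hx).1, (hg x hx).2, alU_apply]
  obtain ⟨z, hz⟩ := hdvd
  have h3 : (((ℓ.1 : ℕ) : ℤ) ^ k) • s⁻¹ • x = d • s⁻¹ • x := by
    have e : ((ℓ.1 : ℕ) : ℤ) ^ k = d + ((p ^ n : ℕ) : ℤ) * z := by rw [← hz]; ring
    have e0 : (((p ^ n : ℕ) : ℤ) * z) • s⁻¹ • x = 0 := by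
      rw [mul_comm, mul_smul, natCast_zsmul, al_torsion_gal s⁻¹ n x hx, smul_zero]
    rw [e, add_zsmul, e0, add_zero]
  rw [h3, add_smul, one_smul]
  abel

omit [NeZero N] in
theorem al_torsion_alU (s : GQ) (d : ℤ) (n : ℕ) (x : JZero N) (hx : p ^ n • x = 0) :
    p ^ n • alU N s d x = 0 :=
  al_torsion_map _ n x hx

/-- powers of the two operators agree on `J[pⁿ]`. -/
theorem al_evalJac_U_pow (J : JacInput N p) (n : ℕ)
    (ℓ : GoodPrime N S) (hℓp : ¬ (ℓ.1 : ℕ) ∣ N * p)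
    (A : ValuationSubring (AlgebraicClosure ℚ)) (hA : A.LiesOverPrime (ℓ.1 : ℕ))
    (τ : GQ) (hτ : A.IsFrobeniusAt τ (ℓ.1 : ℕ)) (k : ℕ) (s : GQ)
    (hg : ∀ x : JZero N, p ^ n • x = 0 → τ ^ k • x = s • x ∧ (τ ^ k)⁻¹ • x = s⁻¹ • x)
    (d : ℤ) (hdvd : ((p ^ n : ℕ) : ℤ) ∣ ((ℓ.1 : ℕ) : ℤ) ^ k - d) (j : ℕ)
    (x : JZero N) (hx : p ^ n • x = 0) :
    (evalJac N S N ((d + 1) • (1 : HPoly N S) - frobPoly N S ℓ k) ^ j) x
      = (alU N s d ^ j) x := by
  induction j generalizing x with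
  | zero => simp
  | succ j ih =>
    rw [pow_succ, pow_succ, Module.End.mul_apply, Module.End.mul_apply,
      al_evalJac_U J n ℓ hℓp A hA τ hτ k s hg d hdvd x hx]
    exact ih _ (al_torsion_alU s d n x hx)

/-- **The lattice step.** -/
theorem al_evalLat (J : JacInput N p) (n : ℕ)
    (ℓ : GoodPrime N S) (hℓp : ¬ (ℓ.1 : ℕ) ∣ N * p)
    (A : ValuationSubring (AlgebraicClosure ℚ)) (hA : A.LiesOverPrime (ℓ.1 : ℕ))
    (τ : GQ) (hτ : A.IsFrobeniusAt τ (ℓ.1 : ℕ)) (k : ℕ) (s : GQ)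
    (hg : ∀ x : JZero N, p ^ n • x = 0 → τ ^ k • x = s • x ∧ (τ ^ k)⁻¹ • x = s⁻¹ • x)
    (d : ℤ) (hdvd : ((p ^ n : ℕ) : ℤ) ∣ ((ℓ.1 : ℕ) : ℤ) ^ k - d)
    (a b : ℕ) (h : HPoly N S)
    (hfrob : ∀ x : JZero N, (∃ m : ℕ, p ^ m • x = 0) →
      ((galEnd N s - (d : Module.End ℤ (JZero N))) ^ a * (galEnd N s - 1) ^ b)
        (evalJac N S N h x) = 0)
    (l : J.Λ) :
    ∃ m : J.Λ, evalLat S J
      (h * (d ^ a • ((d + 1) • (1 : HPoly N S) - frobPoly N S ℓ k) ^ (a + b))) l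
        = (p ^ n : ℤ) • m := by
  have hx : p ^ n • J.e n l = 0 := by
    rw [← map_nsmul]
    exact (J.e_ker n _).mpr ⟨l, rfl⟩
  have key : J.e n (evalLat S J
      (h * (d ^ a • ((d + 1) • (1 : HPoly N S) - frobPoly N S ℓ k) ^ (a + b))) l) = 0 := by
    rw [al_e_evalLat, map_mul, Module.End.mul_apply, map_zsmul, map_pow, LinearMap.smul_apply,
      al_evalJac_U_pow J n ℓ hℓp A hA τ hτ k s hg d hdvd (a + b) _ hx]
    -- commute `h` with the Galois operator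
    have hc1 : Commute (evalJac N S N h) (galEnd N s) := (al_galEnd_evalJac J s h).symm
    have hc2 : Commute (evalJac N S N h) (galEnd N s⁻¹) := (al_galEnd_evalJac J s⁻¹ h).symm
    have hcU : Commute (evalJac N S N h) (alU N s d) := by
      unfold alU
      exact (((Commute.intCast_right).add_right (Commute.one_right _)).sub_right hc1).sub_right
        ((Commute.intCast_right).mul_right hc2)
    have hcP : Commute (evalJac N S N h) (alU N s d ^ (a + b)) := hcU.pow_right _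
    have e1 : (evalJac N S N h) (d ^ a • (alU N s d ^ (a + b)) (J.e n l))
        = ((d : Module.End ℤ (JZero N)) ^ a * alU N s d ^ (a + b)) (evalJac N S N h (J.e n l)) := by
      rw [map_zsmul, ← Module.End.mul_apply, hcP.eq, Module.End.mul_apply,
        Module.End.mul_apply, ← Int.cast_pow, Module.End.intCast_apply]
    rw [e1]
    have huv : galEnd N s * galEnd N s⁻¹ = 1 := by
      rw [← galEnd_mul, mul_inv_cancel, galEnd_one]
    have hvu : galEnd N s⁻¹ * galEnd N s = 1 := by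
      rw [← galEnd_mul, inv_mul_cancel, galEnd_one]
    have hres := ar_resultant (galEnd N s) (galEnd N s⁻¹) huv hvu d a b
    have hU : alU N s d = (d : Module.End ℤ (JZero N)) + 1 - galEnd N s
        - (d : Module.End ℤ (JZero N)) * galEnd N s⁻¹ := rfl
    rw [hU, ← hres, Module.End.mul_apply, hfrob _ ⟨n, hx⟩, map_zero]
  obtain ⟨m, hm⟩ := (J.e_ker n _).mp key
  exact ⟨m, by rw [hm, ← natCast_zsmul, Nat.cast_pow]⟩

end

end Fermat.Agent.S35lib
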