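import Mathlib
import Fermat.Agent.S34lib.UnipDesc
import Fermat.Agent.S35lib.Frob2K
import Fermat.Agent.S35lib.NormProd
import Fermat.Agent.S35lib.FrobE0

/-!
# Item 82 (S35), piece G2 (DESC-K, helper14): descent of the Kummer form of FROB2

* `dk_norm_alpha_incl`, `dk_norm_beta_incl` : NORM BASE CHANGE.  For `M ∣ Mt`, `q` prime, `q ∤ Mt`:
  the norms `F_{Mt q} → F_{Mt}` along `α` and `β` restrict on `F_{Mq}` to the norms
  `F_{Mq} → F_M` (from the product formula N1 at both levels and the uniqueness of the second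
  expansion).
* `dk_isKummerNew_incl` : `IsKummerNew` goes up along `F_{Mq} ⊂ F_{Mt q}`.
* `frob2K_descent` : `Frob2K Mt q m A → Frob2K M q m A` for `Mt q = M q e`,
  `ψ(Mt q) < 2 e ψ(M q)` (by `S18lib.exists_root_of_inclBar`).
* `frob2K_of_aux` : for `q` prime, `q ∤ N'` there is an auxiliary level `M'`
  (`GM.IsAuxLevel q M'`, `N' ∣ M'`) with `Frob2K M' q m A → Frob2K N' q m A`.
-/

set_option autoImplicit false
set_option linter.style.haveILetI false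
set_option linter.unusedSectionVars false

noncomputable section

namespace Fermat.Agent.S35lib

open ModularCurve AlgebraicCurve
open Fermat.Agent.S24lib Fermat.Agent.HeckeBar Fermat.Agent.S34lib Fermat.Agent.GM
open Fermat.Agent.GalRep

section BaseChange

variable (M Mt q : ℕ) [NeZero M] [NeZero Mt] [NeZero q]

/-- `α` commutes with the inclusions of levels -/
theorem dk_incl_alpha (h : M ∣ Mt) (Y : FF M) :
    inclBar (M * q) (Mt * q) (Nat.mul_dvd_mul_right h q) (heckeAlphaBar Kbar M q Y)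
      = heckeAlphaBar Kbar Mt q (inclBar M Mt h Y) := by
  apply Subtype.ext
  rw [coe_inclBar, coe_heckeAlphaBar, coe_heckeAlphaBar, coe_inclBar]

/-- `β` commutes with the inclusions of levels -/
theorem dk_incl_beta (h : M ∣ Mt) (Y : FF M) :
    inclBar (M * q) (Mt * q) (Nat.mul_dvd_mul_right h q) (heckeBetaBar Kbar M q Y)
      = heckeBetaBar Kbar Mt q (inclBar M Mt h Y) := by
  apply Subtype.ext
  rw [coe_inclBar, coe_heckeBetaBar, coe_heckeBetaBar, coe_inclBar]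

/-- the second expansion is compatible with the inclusion `F_{Mq} ⊂ F_{Mt q}` -/
theorem dk_E0_incl (hq : q.Prime) (h : M ∣ Mt)
    (E₀ : FF (M * q) →+* LaurentSeries Kbar)
    (hc₀ : ∀ c : Kbar, E₀ (algebraMap Kbar (FF (M * q)) c) = algebraMap Kbar (LaurentSeries Kbar) c)
    (hα₀ : ∀ Y : FF M, E₀ (heckeAlphaBar Kbar M q Y) = qExpand Kbar q (Y : LaurentSeries Kbar))
    (hβ₀ : ∀ Y : FF M, E₀ (heckeBetaBar Kbar M q Y) = (Y : LaurentSeries Kbar))
    (E₁ : FF (Mt * q) →+* LaurentSeries Kbar)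
    (hc₁ : ∀ c : Kbar, E₁ (algebraMap Kbar (FF (Mt * q)) c)
      = algebraMap Kbar (LaurentSeries Kbar) c)
    (hα₁ : ∀ Y : FF Mt, E₁ (heckeAlphaBar Kbar Mt q Y) = qExpand Kbar q (Y : LaurentSeries Kbar))
    (hβ₁ : ∀ Y : FF Mt, E₁ (heckeBetaBar Kbar Mt q Y) = (Y : LaurentSeries Kbar))
    (x : FF (M * q)) :
    E₁ (inclBar (M * q) (Mt * q) (Nat.mul_dvd_mul_right h q) x) = E₀ x := by
  have key : E₁.comp (inclBar (M * q) (Mt * q) (Nat.mul_dvd_mul_right h q)).toRingHom = E₀ := by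
    apply fe0_unique M q hq _ _ _ _ _ hc₀ hα₀ hβ₀
    · intro c
      show E₁ (inclBar (M * q) (Mt * q) (Nat.mul_dvd_mul_right h q)
        (algebraMap Kbar (FF (M * q)) c)) = _
      rw [AlgHom.commutes, hc₁]
    · intro Y
      show E₁ (inclBar (M * q) (Mt * q) (Nat.mul_dvd_mul_right h q)
        (heckeAlphaBar Kbar M q Y)) = _
      rw [dk_incl_alpha M Mt q h, hα₁, coe_inclBar]
    · intro Y
      show E₁ (inclBar (M * q) (Mt * q) (Nat.mul_dvd_mul_right h q)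
        (heckeBetaBar Kbar M q Y)) = _
      rw [dk_incl_beta M Mt q h, hβ₁, coe_inclBar]
  exact congrArg (fun f : FF (M * q) →+* LaurentSeries Kbar => f x) key

/-- **Norm base change, `α`.** -/
theorem dk_norm_alpha_incl (hq : q.Prime) (hqMt : ¬ q ∣ Mt) (h : M ∣ Mt) (x : FF (M * q)) :
    (letI := algebraAlong (heckeAlphaBar Kbar Mt q)
     Algebra.norm (FF Mt) (inclBar (M * q) (Mt * q) (Nat.mul_dvd_mul_right h q) x))
    = inclBar M Mt h
        (letI := algebraAlong (heckeAlphaBar Kbar M q)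
         Algebra.norm (FF M) x) := by
  have hqM : ¬ q ∣ M := fun h' => hqMt (h'.trans h)
  obtain ⟨E₀, hc₀, hα₀, hβ₀, hA₀, -⟩ := normProd M q hq hqM
  obtain ⟨E₁, hc₁, hα₁, hβ₁, hA₁, -⟩ := normProd Mt q hq hqMt
  have : NeZero ((q : ℕ) : ℚ) := ⟨by exact_mod_cast NeZero.ne q⟩
  obtain ⟨ζ0, hζ0⟩ := HasEnoughRootsOfUnity.exists_primitiveRoot (AlgebraicClosure ℚ) q
  have hunit : IsUnit ζ0 := hζ0.isUnit (NeZero.ne q)
  obtain ⟨ζ, rfl⟩ := hunit
  have k0 := hA₀ ζ hζ0 x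
  have k1 := hA₁ ζ hζ0 (inclBar (M * q) (Mt * q) (Nat.mul_dvd_mul_right h q) x)
  rw [coe_inclBar, dk_E0_incl M Mt q hq h E₀ hc₀ hα₀ hβ₀ E₁ hc₁ hα₁ hβ₁ x] at k1
  apply Subtype.ext
  apply qExpand_injective (R := Kbar) q
  rw [coe_inclBar]
  exact k1.trans k0.symm

/-- **Norm base change, `β`.** -/
theorem dk_norm_beta_incl (hq : q.Prime) (hqMt : ¬ q ∣ Mt) (h : M ∣ Mt) (x : FF (M * q)) :
    (letI := algebraAlong (heckeBetaBar Kbar Mt q)
     Algebra.norm (FF Mt) (inclBar (M * q) (Mt * q) (Nat.mul_dvd_mul_right h q) x))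
    = inclBar M Mt h
        (letI := algebraAlong (heckeBetaBar Kbar M q)
         Algebra.norm (FF M) x) := by
  have hqM : ¬ q ∣ M := fun h' => hqMt (h'.trans h)
  obtain ⟨E₀, hc₀, hα₀, hβ₀, -, hB₀⟩ := normProd M q hq hqM
  obtain ⟨E₁, hc₁, hα₁, hβ₁, -, hB₁⟩ := normProd Mt q hq hqMt
  have : NeZero ((q : ℕ) : ℚ) := ⟨by exact_mod_cast NeZero.ne q⟩
  obtain ⟨ζ0, hζ0⟩ := HasEnoughRootsOfUnity.exists_primitiveRoot (AlgebraicClosure ℚ) q
  have hunit : IsUnit ζ0 := hζ0.isUnit (NeZero.ne q)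
  obtain ⟨ζ, rfl⟩ := hunit
  have k0 := hB₀ ζ hζ0 x
  have k1 := hB₁ ζ hζ0 (inclBar (M * q) (Mt * q) (Nat.mul_dvd_mul_right h q) x)
  rw [coe_inclBar, dk_E0_incl M Mt q hq h E₀ hc₀ hα₀ hβ₀ E₁ hc₁ hα₁ hβ₁ x] at k1
  apply Subtype.ext
  apply qExpand_injective (R := Kbar) q
  rw [coe_inclBar]
  exact k1.trans k0.symm

/-- `IsKummerNew` goes up along `F_{Mq} ⊂ F_{Mt q}` -/
theorem dk_isKummerNew_incl (hq : q.Prime) (hqMt : ¬ q ∣ Mt) (h : M ∣ Mt) (m : ℕ)
    (f : FF (M * q)) (hf : IsKummerNew M q m f) :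
    IsKummerNew Mt q m (inclBar (M * q) (Mt * q) (Nat.mul_dvd_mul_right h q) f) := by
  obtain ⟨⟨c, g, hg⟩, ⟨c', g', hg'⟩⟩ := hf
  refine ⟨⟨c, inclBar M Mt h g, ?_⟩, ⟨c', inclBar M Mt h g', ?_⟩⟩
  · rw [dk_norm_alpha_incl M Mt q hq hqMt h f, hg, map_mul, map_pow, AlgHom.commutes]
  · rw [dk_norm_beta_incl M Mt q hq hqMt h f, hg', map_mul, map_pow, AlgHom.commutes]

end BaseChange

section Kummer

/-- `kummerSq` commutes with the inclusion `F_N ⊂ F_M` -/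
theorem dk_incl_kummerSq (N M : ℕ) [NeZero N] [NeZero M] (h : N ∣ M) (σ : GQ) (f : FF N) :
    inclBar N M h (kummerSq N σ f) = kummerSq M σ (inclBar N M h f) := by
  unfold kummerSq
  rw [map_div₀, ud_incl_smul]

/-- `kummerFrob2` commutes with the inclusion `F_N ⊂ F_M` -/
theorem dk_incl_kummerFrob2 (N M : ℕ) [NeZero N] [NeZero M] (h : N ∣ M) (q : ℕ) (σ : GQ)
    (f : FF N) :
    inclBar N M h (kummerFrob2 N q σ f) = kummerFrob2 M q σ (inclBar N M h f) := by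
  unfold kummerFrob2
  rw [map_div₀, ud_incl_smul, map_pow, dk_incl_kummerSq]

theorem dk_kummerSq_ne_zero (N : ℕ) (σ : GQ) (f : FF N) (hf : f ≠ 0) : kummerSq N σ f ≠ 0 := by
  have hsf : galFF N (σ * σ) • f ≠ 0 := by simpa using hf
  exact div_ne_zero hsf hf

theorem dk_kummerFrob2_ne_zero (N q : ℕ) (σ : GQ) (f : FF N) (hf : f ≠ 0) :
    kummerFrob2 N q σ f ≠ 0 := by
  have hu := dk_kummerSq_ne_zero N σ f hf
  have hsu : galFF N (σ * σ) • kummerSq N σ f ≠ 0 := by simpa using hu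
  exact div_ne_zero hsu (pow_ne_zero _ hu)

/-- divisibility of all orders passes to `kummerSq` -/
theorem dk_dvd_ord_kummerSq (N m : ℕ) (σ : GQ) (f : FF N) (hf : f ≠ 0)
    (hdiv : ∀ P : Place Kbar (FF N), (m : ℤ) ∣ P.ord f) (P : Place Kbar (FF N)) :
    (m : ℤ) ∣ P.ord (kummerSq N σ f) := by
  have hsf : galFF N (σ * σ) • f ≠ 0 := by simpa using hf
  show (m : ℤ) ∣ P.ord (galFF N (σ * σ) • f / f)
  rw [uk_ord_div P hsf hf, uk_ord_smul']
  exact dvd_sub (hdiv _) (hdiv _)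

/-- divisibility of all orders passes to `kummerFrob2` -/
theorem dk_dvd_ord_kummerFrob2 (N q m : ℕ) (σ : GQ) (f : FF N) (hf : f ≠ 0)
    (hdiv : ∀ P : Place Kbar (FF N), (m : ℤ) ∣ P.ord f) (P : Place Kbar (FF N)) :
    (m : ℤ) ∣ P.ord (kummerFrob2 N q σ f) := by
  have hu := dk_kummerSq_ne_zero N σ f hf
  have hsu : galFF N (σ * σ) • kummerSq N σ f ≠ 0 := by simpa using hu
  have h1 := dk_dvd_ord_kummerSq N m σ f hf hdiv
  show (m : ℤ) ∣ P.ord (galFF N (σ * σ) • kummerSq N σ f / kummerSq N σ f ^ (q ^ 2))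
  rw [uk_ord_div P hsu (pow_ne_zero _ hu), uk_ord_smul', Fermat.Agent.S18lib.ord_pow_nat]
  exact dvd_sub (h1 _) (Dvd.dvd.mul_left (h1 _) _)

end Kummer

section Descent

/-- **Piece G2 (DESC-K).**  Descent of the Kummer form of FROB2 from level `Mt q` to level `M q`
(`M ∣ Mt`, `q ∤ Mt` prime), when `Mt q = M q e` and `ψ(Mt q) < 2 e ψ(M q)`. -/
theorem frob2K_descent (M Mt q e : ℕ) [NeZero M] [NeZero Mt] [NeZero q] (hq : q.Prime)
    (hqMt : ¬ q ∣ Mt) (hdvd : M ∣ Mt) (hM : Mt * q = M * q * e)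
    (hdeg : dedekindPsi (Mt * q) < 2 * e * dedekindPsi (M * q)) (m : ℕ)
    (A : ValuationSubring Kbar) (h : Frob2K Mt q m A) : Frob2K M q m A := by
  intro σ hσ f hf hdiv hnew
  have hNM : M * q ∣ Mt * q := Nat.mul_dvd_mul_right hdvd q
  have hιf : inclBar (M * q) (Mt * q) hNM f ≠ 0 := (map_ne_zero _).2 hf
  obtain ⟨c, s, hcs⟩ := h σ hσ (inclBar (M * q) (Mt * q) hNM f) hιf
    (ud_dvd_ord_incl (M * q) (Mt * q) hNM m f hdiv)
    (dk_isKummerNew_incl M Mt q hq hqMt hdvd m f hnew)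
  rw [← dk_incl_kummerFrob2 (M * q) (Mt * q) hNM q σ f] at hcs
  rcases Nat.eq_zero_or_pos m with hm0 | hm
  · subst hm0
    refine ⟨c, 1, ?_⟩
    rw [pow_zero, mul_one] at hcs ⊢
    have hinj : Function.Injective (inclBar (M * q) (Mt * q) hNM) :=
      (inclBar (M * q) (Mt * q) hNM).toRingHom.injective
    apply hinj
    rw [hcs, AlgHom.commutes]
  · obtain ⟨g₀, c₀, h0⟩ := Fermat.Agent.S18lib.exists_root_of_inclBar (M * q) (Mt * q) e hM hdeg
      m hm (kummerFrob2 (M * q) q σ f) (dk_kummerFrob2_ne_zero (M * q) q σ f hf)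
      (dk_dvd_ord_kummerFrob2 (M * q) q m σ f hf hdiv) s c hcs
    exact ⟨c₀, g₀, h0⟩

/-- **Piece G2, numerics.**  For `q` prime, `q ∤ N'`: the level `N' q` is reached by descent from
`M' q` with `M' = lcm(N', baseLevel q)` an auxiliary level. -/
theorem frob2K_of_aux (N' q : ℕ) [NeZero N'] [NeZero q] (hq : q.Prime) (hqN : ¬ q ∣ N') :
    ∃ (M' : ℕ) (_ : NeZero M'), N' ∣ M' ∧ IsAuxLevel q M' ∧
      ∀ (m : ℕ) (A : ValuationSubring Kbar), Frob2K M' q m A → Frob2K N' q m A := by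
  obtain ⟨e, hlcm, hdeg, haux⟩ := Fermat.Agent.S18lib.dedekindPsi_lcm_lt N' q hq hqN
  have hN0 : N' ≠ 0 := NeZero.ne N'
  have hM0 : Nat.lcm N' (baseLevel q) ≠ 0 := by
    intro h0
    rw [h0] at haux
    exact haux.1 (dvd_zero q)
  haveI : NeZero (Nat.lcm N' (baseLevel q)) := ⟨hM0⟩
  refine ⟨Nat.lcm N' (baseLevel q), ⟨hM0⟩, Nat.dvd_lcm_left _ _, haux, ?_⟩
  intro m A h
  have hM : Nat.lcm N' (baseLevel q) * q = N' * q * e := by
    rw [hlcm]
    ring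
  refine frob2K_descent N' (Nat.lcm N' (baseLevel q)) q e hq haux.1 (Nat.dvd_lcm_left _ _) hM ?_
    m A h
  rw [mul_comm (Nat.lcm N' (baseLevel q)) q, mul_comm N' q,
    Fermat.Agent.S20lib.dedekindPsi_prime_mul_of_not_dvd hq hM0 haux.1,
    Fermat.Agent.S20lib.dedekindPsi_prime_mul_of_not_dvd hq hN0 hqN]
  have hq1 : 0 < q + 1 := Nat.succ_pos q
  calc (q + 1) * dedekindPsi (Nat.lcm N' (baseLevel q))
      < (q + 1) * (2 * e * dedekindPsi N') := Nat.mul_lt_mul_of_pos_left hdeg hq1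
    _ = 2 * e * ((q + 1) * dedekindPsi N') := by ring

/-- **Piece G2, wiring.**  `Frob2K` at all levels `N'` prime to `q` from `Frob2K` at the
auxiliary levels. -/
theorem frob2K_of_frob2K_aux (q : ℕ) [NeZero q] (hq : q.Prime) (m : ℕ)
    (A : ValuationSubring Kbar)
    (h : ∀ (M' : ℕ) [NeZero M'], IsAuxLevel q M' → Frob2K M' q m A)
    (N' : ℕ) [NeZero N'] (hqN : ¬ q ∣ N') : Frob2K N' q m A := by
  obtain ⟨M', hM', -, haux, hdesc⟩ := frob2K_of_aux N' q hq hqN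
  exact hdesc m A (h M' haux)

end Descent

end Fermat.Agent.S35lib

end
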