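import Mathlib
import Fermat.Agent.S31lib.Defs
import Fermat.Prelude.Def_CuspForm_HeckeEvalForms

/-!
# Item 82 (S35), pieces P3a/P3b: evaluation of Hecke polynomials of level `M` at level `M'`

`evalFormsAt M S M'`: evaluation of a Hecke polynomial in the symbols `T_ℓ` (`ℓ ∤ M`, `ℓ ∉ S`)
at the Hecke operators on `S₂(Γ₀(M'))`, with values in the full Hecke algebra of level `M'`.
(For `M' ∣ M` the symbol `ℓ` goes to `T_ℓ`, since `ℓ ∤ M'`.)  Definitions only.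
-/

set_option autoImplicit false

namespace Fermat.Agent.S35lib

open Fermat.Agent.S31lib

/-- evaluation of a Hecke polynomial (in the `T_ℓ`, `ℓ ∤ M`, `ℓ ∉ S`) at the Hecke operators on
`S₂(Γ₀(M'))`. -/
noncomputable def evalFormsAt (M : ℕ) (S : Finset ℕ) (M' : ℕ) [NeZero M'] :
    HPoly M S →ₐ[ℤ] CuspForm.heckeAlgebra M' 2 (∅ : Set ℕ) :=
  FreeAlgebra.lift ℤ fun ℓ => CuspForm.heckeFormsGen M' 2 ℓ.1

theorem evalFormsAt_ι (M : ℕ) (S : Finset ℕ) (M' : ℕ) [NeZero M'] (ℓ : GoodPrime M S) :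
    evalFormsAt M S M' (FreeAlgebra.ι ℤ ℓ) = CuspForm.heckeFormsGen M' 2 ℓ.1 := by
  simp [evalFormsAt]

/-- for `M' ∣ M` the generator `ℓ` acts on `S₂(Γ₀(M'))` as `T_ℓ`. -/
theorem evalFormsAt_ι_coe (M : ℕ) (S : Finset ℕ) (M' : ℕ) [NeZero M'] (hM' : M' ∣ M)
    (ℓ : GoodPrime M S) :
    ((evalFormsAt M S M' (FreeAlgebra.ι ℤ ℓ) : CuspForm.heckeAlgebra M' 2 (∅ : Set ℕ)) :
      Module.End ℂ (CuspForm (CongruenceSubgroup.Gamma0 M') 2)) =
      CuspForm.heckeTLin 2 ℓ.1.2 (fun h => ℓ.2.1 (dvd_trans h hM')) := by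
  rw [evalFormsAt_ι, CuspForm.heckeFormsGen_of_not_dvd (fun h => ℓ.2.1 (dvd_trans h hM')),
    CuspForm.heckeAlgebra.coe_T]

end Fermat.Agent.S35lib
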