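import Mathlib
import Fermat.Agent.LatE.LatStatement
import Fermat.Agent.GalRep.FaithEmbLat
import Fermat.Agent.S35lib.EvalAt
import Fermat.Agent.S35lib.AlgDefs

/-!
# Item 82 (S35), piece P3a: converse Faith

`killsLevel_of_evalFormsAt`: a Hecke polynomial `P` (in the symbols `T_ℓ`, `ℓ ∤ M`, `ℓ ∉ S`) which
vanishes on `S₂(Γ₀(M'))` kills `J₀(M')[p^∞]` (in fact every torsion point of `J₀(M')`).

Route: Eichler–Shimura (`emES`, S21) makes `ℂ ⊗ HLat M'` a quotient of `S₂ × S₂`
Hecke-equivariantly, so `P` vanishes on `HLat M'` for the operators `heckeLat`, hence (conjugation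
by the Fricke involution) for the transposed operators `heckeLatT`; the level structures
`e_n : HLat M' → J₀(M')[n]` of Layer E (Form L) are onto and intertwine `heckeLatT` with
`heckeOperatorBar`.
-/

set_option autoImplicit false
open scoped MatrixGroups TensorProduct
open CongruenceSubgroup ModularCurve ModularCurve.Period
open Fermat.Agent.GalRep Fermat.Agent.S31lib Fermat.Agent.LatE

namespace Fermat.Agent.S35lib

noncomputable section

variable (M : ℕ) (S : Finset ℕ) (N : ℕ) [NeZero N]

/-- evaluation of a Hecke polynomial at the operators `heckeLat` on `HLat N`. -/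
def cfEvalLat : HPoly M S →ₐ[ℤ] Module.End ℤ (HLat N) :=
  FreeAlgebra.lift ℤ fun ℓ => heckeLat N ℓ.1

/-- evaluation of a Hecke polynomial at the transposed operators `heckeLatT` on `HLat N`. -/
def cfEvalLatT : HPoly M S →ₐ[ℤ] Module.End ℤ (HLat N) :=
  FreeAlgebra.lift ℤ fun ℓ => heckeLatT N ℓ.1

theorem cfEvalLat_ι (ℓ : GoodPrime M S) :
    cfEvalLat M S N (FreeAlgebra.ι ℤ ℓ) = heckeLat N ℓ.1 := by
  simp [cfEvalLat]

theorem cfEvalLatT_ι (ℓ : GoodPrime M S) :
    cfEvalLatT M S N (FreeAlgebra.ι ℤ ℓ) = heckeLatT N ℓ.1 := by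
  simp [cfEvalLatT]

/-- the Hecke polynomial `P` as an endomorphism of `S₂(Γ₀(N))`. -/
def cfForms (P : HPoly M S) : Module.End ℂ (CuspForm (Gamma0 N) 2) :=
  ((evalFormsAt M S N P : CuspForm.heckeAlgebra N 2 (∅ : Set ℕ)) :
    Module.End ℂ (CuspForm (Gamma0 N) 2))

theorem cfForms_algebraMap (r : ℤ) :
    cfForms M S N (algebraMap ℤ (HPoly M S) r) = (r : ℤ) • (1 : Module.End ℂ _) := by
  rw [cfForms, AlgHom.commutes, Subalgebra.coe_algebraMap, Algebra.algebraMap_eq_smul_one]

theorem cfForms_ι (ℓ : GoodPrime M S) :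
    cfForms M S N (FreeAlgebra.ι ℤ ℓ) =
      (CuspForm.heckeFormsGen N 2 ℓ.1 : Module.End ℂ (CuspForm (Gamma0 N) 2)) := by
  rw [cfForms, evalFormsAt_ι]

theorem cfForms_mul (P Q : HPoly M S) :
    cfForms M S N (P * Q) = cfForms M S N P * cfForms M S N Q := by
  rw [cfForms, map_mul, Subalgebra.coe_mul]; rfl

theorem cfForms_add (P Q : HPoly M S) :
    cfForms M S N (P + Q) = cfForms M S N P + cfForms M S N Q := by
  rw [cfForms, map_add, Subalgebra.coe_add]; rfl

/-- Eichler–Shimura intertwines a Hecke polynomial on `S₂ × S₂` with its base change on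
`ℂ ⊗ HLat N`. -/
theorem cf_hlBC_evalLat (P : HPoly M S) :
    ∀ (v : ℂ ⊗[ℤ] HLat N) (f g : CuspForm (Gamma0 N) 2), hlBC N v = emES N (f, g) →
      hlBC N ((cfEvalLat M S N P).baseChange ℂ v)
        = emES N (cfForms M S N P f, cfForms M S N P g) := by
  induction P using FreeAlgebra.induction with
  | grade0 r =>
    intro v f g h
    have e1 : (cfEvalLat M S N (algebraMap ℤ (HPoly M S) r)).baseChange ℂ v = (r : ℤ) • v := by
      rw [AlgHom.commutes, Algebra.algebraMap_eq_smul_one, LinearMap.baseChange_smul,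
        Module.End.one_eq_id, LinearMap.baseChange_id, LinearMap.smul_apply, LinearMap.id_apply]
    rw [e1, cfForms_algebraMap, map_zsmul, h, ← map_zsmul]
    rfl
  | grade1 ℓ =>
    intro v f g h
    rw [cfEvalLat_ι, hlBC_hecke, h, emES_hecke N (heckeInvolStatement N), cfForms_ι]
  | mul P Q hP hQ =>
    intro v f g h
    have e1 : (cfEvalLat M S N (P * Q)).baseChange ℂ v
        = (cfEvalLat M S N P).baseChange ℂ ((cfEvalLat M S N Q).baseChange ℂ v) := by
      rw [map_mul, Module.End.mul_eq_comp, LinearMap.baseChange_comp, LinearMap.comp_apply]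
    rw [e1, hP _ _ _ (hQ v f g h), cfForms_mul]
    rfl
  | add P Q hP hQ =>
    intro v f g h
    rw [map_add, LinearMap.baseChange_add, LinearMap.add_apply, map_add, hP v f g h,
      hQ v f g h, cfForms_add, ← map_add]
    rfl

omit [NeZero N] in
theorem cf_hlCast_injective : Function.Injective (hlCast N) := by
  intro φ ψ h
  apply Subtype.ext
  refine AddMonoidHom.ext fun γ => ?_
  have h1 := congrArg (fun x : parabolicHoms ℂ (Gamma0 N) ℂ => x.1 γ) h
  simp only [hlCast_apply] at h1
  exact_mod_cast h1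

/-- **converse Faith on the lattice**: a Hecke polynomial vanishing on `S₂(Γ₀(N))` vanishes on
`HLat N` (operators `heckeLat`). -/
theorem cf_evalLat_eq_zero (P : HPoly M S) (h : evalFormsAt M S N P = 0) :
    cfEvalLat M S N P = 0 := by
  have h0 : cfForms M S N P = 0 := by rw [cfForms, h]; rfl
  refine LinearMap.ext fun φ => ?_
  apply cf_hlCast_injective N
  have key : hlBC N ((cfEvalLat M S N P).baseChange ℂ ((1 : ℂ) ⊗ₜ[ℤ] φ)) = 0 := by
    obtain ⟨⟨f, g⟩, hfg⟩ := emES_surjective N (hlBC N ((1 : ℂ) ⊗ₜ[ℤ] φ))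
    rw [cf_hlBC_evalLat M S N P _ f g hfg.symm, h0, LinearMap.zero_apply, LinearMap.zero_apply]
    exact map_zero _
  rw [LinearMap.baseChange_tmul, hlBC_tmul, one_smul] at key
  rw [key, LinearMap.zero_apply, map_zero]

/-- the transposed evaluation is conjugate to the evaluation by the Fricke involution. -/
theorem cf_evalLatT_apply (P : HPoly M S) :
    ∀ φ : HLat N, cfEvalLatT M S N P φ = frickeLat N (cfEvalLat M S N P (frickeLat N φ)) := by
  induction P using FreeAlgebra.induction with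
  | grade0 r =>
    intro φ
    rw [AlgHom.commutes, AlgHom.commutes, Algebra.algebraMap_eq_smul_one, LinearMap.smul_apply,
      LinearMap.smul_apply, Module.End.one_apply, Module.End.one_apply, map_zsmul,
      frickeLat_frickeLat]
  | grade1 ℓ =>
    intro φ
    rw [cfEvalLatT_ι, cfEvalLat_ι, heckeLatT_apply]
  | mul P Q hP hQ =>
    intro φ
    rw [map_mul, map_mul, Module.End.mul_apply, Module.End.mul_apply, hP, hQ,
      frickeLat_frickeLat]
  | add P Q hP hQ =>
    intro φ
    rw [map_add, map_add, LinearMap.add_apply, LinearMap.add_apply, hP, hQ, map_add]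

theorem cf_evalLatT_eq_zero (P : HPoly M S) (h : evalFormsAt M S N P = 0) :
    cfEvalLatT M S N P = 0 := by
  refine LinearMap.ext fun φ => ?_
  rw [cf_evalLatT_apply, cf_evalLat_eq_zero M S N P h, LinearMap.zero_apply, map_zero,
    LinearMap.zero_apply]

/-- Hecke equivariance of the level structure `e_n` of Form L, for one operator. -/
theorem cf_e_hecke (n : ℕ) (hn : 0 < n) (ℓ : Nat.Primes) (φ : HLat N) :
    heckeOperatorBar N ℓ ((formL_of_pieces N).e n hn φ)
      = (formL_of_pieces N).e n hn (heckeLatT N ℓ φ) := by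
  have : NeZero (ℓ : ℕ) := ⟨ℓ.2.ne_zero⟩
  obtain ⟨X, hX, γ, σ, γ', hreps, hrel, -, hT⟩ := exists_cosetData N ℓ
  symm
  apply (formL_of_pieces N).e_eq
  refine hasTorsionChar_hecke_of n hn ℓ γ σ γ' hrel (normProdFor_of_isReps N ℓ ℓ.2 γ hreps) _
    (latChar N n φ.1) _ (fun g => ?_) ((formL_of_pieces N).e_spec n hn φ)
  rw [latChar_apply, heckeLatT_coe, hT ℤ φ.1 g, lef_zpow_sum]
  rfl

/-- Hecke equivariance of the level structure `e_n`, for Hecke polynomials. -/
theorem cf_e_evalJac (n : ℕ) (hn : 0 < n) (P : HPoly M S) :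
    ∀ φ : HLat N, evalJac M S N P ((formL_of_pieces N).e n hn φ)
      = (formL_of_pieces N).e n hn (cfEvalLatT M S N P φ) := by
  induction P using FreeAlgebra.induction with
  | grade0 r =>
    intro φ
    rw [AlgHom.commutes, AlgHom.commutes, Algebra.algebraMap_eq_smul_one,
      Algebra.algebraMap_eq_smul_one, LinearMap.smul_apply, LinearMap.smul_apply,
      Module.End.one_apply, Module.End.one_apply, map_zsmul]
  | grade1 ℓ =>
    intro φ
    rw [evalJac_ι, cfEvalLatT_ι, cf_e_hecke]
  | mul P Q hP hQ =>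
    intro φ
    rw [map_mul, map_mul, Module.End.mul_apply, Module.End.mul_apply, hQ, hP]
  | add P Q hP hQ =>
    intro φ
    rw [map_add, map_add, LinearMap.add_apply, LinearMap.add_apply, hP, hQ, map_add]

/-- a Hecke polynomial vanishing on `S₂(Γ₀(N))` kills every torsion point of `J₀(N)`. -/
theorem evalJac_eq_zero_of_evalFormsAt (P : HPoly M S) (h : evalFormsAt M S N P = 0)
    (n : ℕ) (hn : 0 < n) (z : JZero N) (hz : n • z = 0) : evalJac M S N P z = 0 := by
  obtain ⟨φ, rfl⟩ := (formL_of_pieces N).e_range n hn z hz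
  rw [cf_e_evalJac, cf_evalLatT_eq_zero M S N P h, LinearMap.zero_apply, map_zero]

/-- **P3a (converse Faith at level `M'`)**: a Hecke polynomial in the `T_ℓ` (`ℓ ∤ M`, `ℓ ∉ S`)
which vanishes on `S₂(Γ₀(M'))` kills `J₀(M')[p^∞]`. -/
theorem killsLevel_of_evalFormsAt (p : ℕ) (hp : 0 < p) (P : HPoly M S)
    (h : evalFormsAt M S N P = 0) : KillsLevel M S N p P := by
  rintro z ⟨n, hz⟩
  exact evalJac_eq_zero_of_evalFormsAt M S N P h (p ^ n) (pow_pos hp n) z hz

end

end Fermat.Agent.S35lib
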