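import Mathlib
import Fermat.Agent.S35lib.EvalAt
import Fermat.Agent.GalRep.ExtendChar
import Fermat.Agent.GalRep.EigenOne
import Fermat.Agent.S22

/-!
# Item 82 (S35), piece P3b: an eigensystem which factors through level `M'` occurs at level `M'`

`exists_eigenform_of_factor`: let `χ` be a character of the Hecke algebra of level `M` away from
`S`.  If `χ` kills every Hecke polynomial (in the `T_ℓ`, `ℓ ∤ M`, `ℓ ∉ S`) which vanishes on
`S₂(Γ₀(M'))`, then there is a normalised eigenform `g'` of level `M'` with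
`a_ℓ(g') = χ(T_ℓ)` for all primes `ℓ ∤ M`, `ℓ ∉ S`.

Proof: `χ` factors through the image `T₀` of the Hecke polynomials in the full Hecke algebra of
level `M'`; extend the character of `T₀` to the full Hecke algebra (integral extension,
`GalRep/ExtendChar`); every character of the full Hecke algebra occurs (`GalRep/EigenOne`);
normalise the eigenvector (`S49_Normalize`).
-/

set_option autoImplicit false

open CongruenceSubgroup ModularFormClass

namespace Fermat.Agent.S35lib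

open Fermat.Agent.S31lib Fermat.Agent.GalRep

/-- a character of a (noncommutative) ring `A` which kills the kernel of a ring homomorphism
`e : A → T` factors through the range of `e`. -/
theorem ed_exists_factor {A T Ω : Type} [Ring A] [CommRing T] [CommRing Ω] (e : A →+* T)
    (χ : A →+* Ω) (H : ∀ a : A, e a = 0 → χ a = 0) :
    ∃ χ₀ : e.range →+* Ω, ∀ a : A, χ₀ ⟨e a, ⟨a, rfl⟩⟩ = χ a := by
  classical
  have hsurj : Function.Surjective e.rangeRestrict := e.rangeRestrict_surjective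
  have hker : RingHom.ker e.rangeRestrict ≤ RingHom.ker χ := by
    intro a ha
    rw [RingHom.mem_ker] at ha ⊢
    apply H
    have := congrArg Subtype.val ha
    simpa using this
  refine ⟨RingHom.liftOfRightInverse e.rangeRestrict (Function.surjInv hsurj)
    (Function.rightInverse_surjInv hsurj) ⟨χ, hker⟩, fun a => ?_⟩
  have h := RingHom.liftOfRightInverse_comp_apply e.rangeRestrict (Function.surjInv hsurj)
    (Function.rightInverse_surjInv hsurj) ⟨χ, hker⟩ a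
  exact h

/-- **P3b.** -/
theorem exists_eigenform_of_factor {M M' : ℕ} [NeZero M] [NeZero M'] (_hM' : M' ∣ M)
    (S : Finset ℕ) (χ : CuspForm.heckeAlgebra M 2 (↑S : Set ℕ) →+* ℂ)
    (H : ∀ P : HPoly M S, evalFormsAt M S M' P = 0 → χ (evalForms M S P) = 0) :
    ∃ g' : CuspForm (Gamma0 M') 2, g'.IsNormalizedEigenform ∧
      ∀ (ℓ : ℕ) (hℓ : ℓ.Prime) (hℓM : ¬ ℓ ∣ M) (hℓS : ℓ ∉ (↑S : Set ℕ)),
        qCoeff g' ℓ = χ (CuspForm.heckeAlgebra.T hℓ hℓM hℓS) := by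
  classical
  have hfin : Module.Finite ℤ (CuspForm.heckeAlgebra M' 2 (∅ : Set ℕ)) :=
    Fermat.Agent.S22.result M' 2 ∅
  -- the character of the image
  obtain ⟨χ₀, hχ₀⟩ := ed_exists_factor (evalFormsAt M S M').toRingHom
    (χ.comp (evalForms M S).toRingHom) (fun a ha => H a ha)
  -- extend to the full Hecke algebra of level `M'`
  obtain ⟨ψ, hψ⟩ := fe_exists_lift_algClosed
    ((evalFormsAt M S M').toRingHom.range.subtype) Subtype.val_injective
    (fe_isIntegral_of_finite_int _) ℂ χ₀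
  -- a nonzero eigenvector, normalised
  obtain ⟨f, hf, hf0⟩ := eo_exists_ne_zero M' ψ
  obtain ⟨g', hg', hcoef⟩ := Fermat.Agent.S49norm.exists_normalizedEigenform_of_eigenvector f hf0
    (eoLam M' ψ) (fun ℓ hℓ hℓN => eo_heckeT_eq M' ψ hf ℓ hℓ hℓN)
    (fun q hq hqN => eo_heckeU_eq M' ψ hf q hq hqN)
  refine ⟨g', hg', fun ℓ hℓ hℓM hℓS => ?_⟩
  rw [hcoef ℓ hℓ, eoLam, dif_pos hℓ]
  set ℓ' : GoodPrime M S := ⟨⟨ℓ, hℓ⟩, hℓM, hℓS⟩ with hℓ'
  have h1 : CuspForm.heckeFormsGen M' 2 ⟨ℓ, hℓ⟩ =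
      (evalFormsAt M S M').toRingHom.range.subtype
        ⟨(evalFormsAt M S M').toRingHom (FreeAlgebra.ι ℤ ℓ'), ⟨_, rfl⟩⟩ := by
    show _ = evalFormsAt M S M' (FreeAlgebra.ι ℤ ℓ')
    rw [evalFormsAt_ι]
  rw [h1, hψ, hχ₀]
  show χ (evalForms M S (FreeAlgebra.ι ℤ ℓ')) = _
  simp [evalForms, hℓ']

/-- **P3 (EXISTS-H), core**: if no normalised eigenform of level `M'` has the good eigenvalues
of `χ` away from `S`, then some Hecke polynomial vanishes on `S₂(Γ₀(M'))` but not under `χ`. -/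
theorem exists_poly_of_not_occurs {M M' : ℕ} [NeZero M] [NeZero M'] (hM' : M' ∣ M)
    (S : Finset ℕ) (χ : CuspForm.heckeAlgebra M 2 (↑S : Set ℕ) →+* ℂ)
    (hno : ∀ g' : CuspForm (Gamma0 M') 2, g'.IsNormalizedEigenform →
      ¬ ∀ (ℓ : ℕ) (hℓ : ℓ.Prime) (hℓM : ¬ ℓ ∣ M) (hℓS : ℓ ∉ (↑S : Set ℕ)),
        qCoeff g' ℓ = χ (CuspForm.heckeAlgebra.T hℓ hℓM hℓS)) :
    ∃ P : HPoly M S, evalFormsAt M S M' P = 0 ∧ χ (evalForms M S P) ≠ 0 := by
  by_contra hcon
  push Not at hcon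
  obtain ⟨g', hg', h⟩ := exists_eigenform_of_factor hM' S χ hcon
  exact hno g' hg' h

/-- **P3 (EXISTS-H), core**, for the character `χ_g` of a form `g` of level `M`. -/
theorem exists_poly_of_not_occurs' {M M' : ℕ} [NeZero M] [NeZero M'] (hM' : M' ∣ M)
    (S : Finset ℕ) {g : CuspForm (Gamma0 M) 2}
    (χ : CuspForm.heckeAlgebra M 2 (↑S : Set ℕ) →+* ℂ)
    (hχ : ∀ (ℓ : ℕ) (hℓ : ℓ.Prime) (hℓM : ¬ ℓ ∣ M) (hℓS : ℓ ∉ (↑S : Set ℕ)),
      χ (CuspForm.heckeAlgebra.T hℓ hℓM hℓS) = qCoeff g ℓ)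
    (hno : ∀ g' : CuspForm (Gamma0 M') 2, g'.IsNormalizedEigenform →
      ¬ ∀ ℓ : ℕ, ℓ.Prime → ¬ ℓ ∣ M → ℓ ∉ S → qCoeff g' ℓ = qCoeff g ℓ) :
    ∃ P : HPoly M S, evalFormsAt M S M' P = 0 ∧ χ (evalForms M S P) ≠ 0 := by
  refine exists_poly_of_not_occurs hM' S χ fun g' hg' h => hno g' hg' fun ℓ hℓ hℓM hℓS => ?_
  rw [h ℓ hℓ hℓM (by simpa using hℓS), hχ ℓ hℓ hℓM (by simpa using hℓS)]

end Fermat.Agent.S35lib
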