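import Mathlib
import Fermat.Agent.S35lib.EigenDown
import Fermat.Prelude.Def_CuspForm_Newforms

/-!
# Item 82 (S35), piece P3 (EXISTS-H) without strong multiplicity one

`exists_poly_of_isNewform`: for a newform `g` of level `M`, a proper divisor `M'` of `M`, and a
finite set `S₀` containing no prime `ℓ ∤ M` (e.g. `S₀ = M.primeFactors`), there is a Hecke
polynomial `P` in the `T_ℓ` (`ℓ ∤ M`) which vanishes on `S₂(Γ₀(M'))` and with `χ_g(P) ≠ 0`.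
(helper6's remark: with `S₀` the primes of `M`, P3b contradicts `IsNewform` directly.)
-/

set_option autoImplicit false

open CongruenceSubgroup ModularFormClass

namespace Fermat.Agent.S35lib

open Fermat.Agent.S31lib Fermat.Agent.GalRep

/-- **P3 (EXISTS-H)** for a finite set `S₀` without good primes. -/
theorem exists_poly_of_isNewform {M M' : ℕ} [NeZero M] [NeZero M'] (hM' : M' ∣ M) (hne : M' ≠ M)
    (S₀ : Finset ℕ) (hS₀ : ∀ ℓ : ℕ, ℓ.Prime → ¬ ℓ ∣ M → ℓ ∉ S₀)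
    {g : CuspForm (Gamma0 M) 2} (hg : g.IsNewform)
    (χ : CuspForm.heckeAlgebra M 2 (↑S₀ : Set ℕ) →+* ℂ)
    (hχ : ∀ (ℓ : ℕ) (hℓ : ℓ.Prime) (hℓM : ¬ ℓ ∣ M) (hℓS : ℓ ∉ (↑S₀ : Set ℕ)),
      χ (CuspForm.heckeAlgebra.T hℓ hℓM hℓS) = qCoeff g ℓ) :
    ∃ P : HPoly M S₀, evalFormsAt M S₀ M' P = 0 ∧ χ (evalForms M S₀ P) ≠ 0 := by
  refine exists_poly_of_not_occurs' hM' S₀ χ hχ fun g' hg' h => ?_
  exact hg.2 M' hM' hne ⟨g', hg', fun ℓ hℓ hℓM => h ℓ hℓ hℓM (hS₀ ℓ hℓ hℓM)⟩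

/-- **P3 (EXISTS-H)** for `S₀ = M.primeFactors`. -/
theorem exists_poly_of_isNewform_primeFactors {M M' : ℕ} [NeZero M] [NeZero M'] (hM' : M' ∣ M)
    (hne : M' ≠ M) {g : CuspForm (Gamma0 M) 2} (hg : g.IsNewform)
    (χ : CuspForm.heckeAlgebra M 2 (↑M.primeFactors : Set ℕ) →+* ℂ)
    (hχ : ∀ (ℓ : ℕ) (hℓ : ℓ.Prime) (hℓM : ¬ ℓ ∣ M) (hℓS : ℓ ∉ (↑M.primeFactors : Set ℕ)),
      χ (CuspForm.heckeAlgebra.T hℓ hℓM hℓS) = qCoeff g ℓ) :
    ∃ P : HPoly M M.primeFactors,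
      evalFormsAt M M.primeFactors M' P = 0 ∧ χ (evalForms M M.primeFactors P) ≠ 0 :=
  exists_poly_of_isNewform hM' hne M.primeFactors
    (fun _ _ hℓM h => hℓM (Nat.dvd_of_mem_primeFactors h)) hg χ hχ

end Fermat.Agent.S35lib
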