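import Mathlib
import Fermat.Agent.GalRep.S37Input
import Fermat.Agent.GalRep.EigenChar
import Fermat.Agent.GalRep.ExtendChar

/-!
# Item 82 (S35), algebra, piece FRONT: the representation and the character on the Hecke algebra
away from `S0 = primes of M`

`g` a normalised eigenform of level `M`, `chig` its character on the Hecke algebra away from `S`
(`S ∋ lam` and the primes of `M`), `iota : chig.range →+* O'`.

* `front_chig_eq`: `chig = ecChar hg S`.
* `front_exists`: there are a finite extension `O''` of `O'`, a representation `ρ` over `O''`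
  with the Eichler–Shimura characteristic polynomials at the primes `ℓ ∉ S` (the first half of
  S35 verbatim) **and** a character `Θ` of the Hecke algebra away from `S0 ⊆ S` (any finset of
  primes containing the primes of `M`, e.g. `M.primeFactors`) such that `Θ = j ∘ χ_g` with `j`
  injective, `χ_g = ecChar hg S0`, and `Θ (T_ℓ) = algebraMap (iota (chig (T_ℓ)))` for `ℓ ∉ S`.

So the Hecke polynomial `h` of EXISTS-H may involve all `T_ℓ`, `ℓ ∤ M` (also `ℓ ∈ S`), and no
strong multiplicity one is needed.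
-/

set_option autoImplicit false

open Polynomial IsLocalRing CongruenceSubgroup ModularFormClass

namespace Fermat.Agent.S35lib

open Fermat.Agent.GalRep

section

variable {M : ℕ} [NeZero M] {g : CuspForm (Gamma0 M) 2}

/-- two characters of a Hecke algebra without `U`-generators which agree on the `T_ℓ` are
equal. -/
theorem front_ringHom_ext {R : Type*} [CommRing R] (S : Set ℕ)
    (hMS : ∀ q : ℕ, q.Prime → q ∣ M → q ∈ S)
    (φ ψ : CuspForm.heckeAlgebra M 2 S →+* R)
    (h : ∀ (ℓ : ℕ) (hℓ : ℓ.Prime) (hℓM : ¬ ℓ ∣ M) (hℓS : ℓ ∉ S),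
      φ (CuspForm.heckeAlgebra.T hℓ hℓM hℓS) = ψ (CuspForm.heckeAlgebra.T hℓ hℓM hℓS)) :
    φ = ψ := by
  apply RingHom.ext
  rintro ⟨t, ht⟩
  have key : ∀ (x : Module.End ℂ (CuspForm (Gamma0 M) 2))
      (hx : x ∈ Algebra.adjoin ℤ (CuspForm.heckeGenerators M 2 S)),
      φ ⟨x, hx⟩ = ψ ⟨x, hx⟩ := by
    intro x hx
    induction hx using Algebra.adjoin_induction with
    | mem x hx =>
      rcases hx with ⟨ℓ, hℓ, hℓN, hℓS, rfl⟩ | ⟨q, hqN, hq, hqS, rfl⟩
      · exact h ℓ hℓ hℓN hℓS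
      · exact absurd (hMS q hq hqN) hqS
    | algebraMap r =>
      have e : (⟨algebraMap ℤ _ r, Subalgebra.algebraMap_mem _ r⟩ : CuspForm.heckeAlgebra M 2 S)
          = algebraMap ℤ (CuspForm.heckeAlgebra M 2 S) r := rfl
      rw [e]
      simp
    | add x y hx hy ihx ihy =>
      have e : (⟨x + y, Subalgebra.add_mem _ hx hy⟩ : CuspForm.heckeAlgebra M 2 S)
          = ⟨x, hx⟩ + ⟨y, hy⟩ := rfl
      rw [e, map_add, map_add, ihx, ihy]
    | mul x y hx hy ihx ihy =>
      have e : (⟨x * y, Subalgebra.mul_mem _ hx hy⟩ : CuspForm.heckeAlgebra M 2 S)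
          = ⟨x, hx⟩ * ⟨y, hy⟩ := rfl
      rw [e, map_mul, map_mul, ihx, ihy]
  exact key t ht

/-- the given character is the character of the eigenform. -/
theorem front_chig_eq (hg : g.IsNormalizedEigenform) (S : Set ℕ)
    (hMS : ∀ q : ℕ, q.Prime → q ∣ M → q ∈ S)
    (chig : CuspForm.heckeAlgebra M 2 S →+* ℂ)
    (hchig : ∀ (ℓ : ℕ) (hℓ : ℓ.Prime) (hℓM : ¬ ℓ ∣ M) (hℓS : ℓ ∉ S),
      chig (CuspForm.heckeAlgebra.T hℓ hℓM hℓS) = qCoeff g ℓ) :
    chig = ecChar hg S :=
  front_ringHom_ext S hMS _ _ fun ℓ hℓ hℓM hℓS => by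
    rw [hchig ℓ hℓ hℓM hℓS, ecChar_T hg S hℓ hℓM hℓS]

/-- the character of the eigenform on a smaller Hecke algebra is the restriction. -/
theorem front_ecChar_inclusion (hg : g.IsNormalizedEigenform) {S S0 : Set ℕ} (h : S0 ⊆ S)
    (t : CuspForm.heckeAlgebra M 2 S) :
    ecChar hg S0 (Subalgebra.inclusion (CuspForm.heckeAlgebra_mono h) t) = ecChar hg S t := rfl

/-- a ring homomorphism from a domain which is finite over `ℤ` to a ring of characteristic
zero is injective. -/
theorem front_injective_of_finite_int {R B : Type*} [CommRing R] [IsDomain R]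
    [Module.Finite ℤ R] [CommRing B] [CharZero B] (f : R →+* B) : Function.Injective f := by
  rw [injective_iff_map_eq_zero]
  intro x hx
  have hI : Algebra.IsIntegral ℤ R := inferInstance
  have hker : (RingHom.ker f).comap (algebraMap ℤ R) = ⊥ := by
    rw [eq_bot_iff]
    intro n hn
    rw [Ideal.mem_comap, RingHom.mem_ker, eq_intCast, map_intCast] at hn
    have : n = 0 := by exact_mod_cast hn
    simp [this]
  have := Ideal.eq_bot_of_comap_eq_bot hker
  have hx' : x ∈ RingHom.ker f := hx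
  rw [this] at hx'
  exact hx'

end

section Main

variable {M : ℕ} [NeZero M] {g : CuspForm (Gamma0 M) 2}

/-- **FRONT**: the representation of S30 for the eigensystem of `g`, together with a character
`Θ` of the Hecke algebra away from `S0 ⊆ S` which is the character of `g` followed by an
injection. -/
theorem front_exists (hg : g.IsNormalizedEigenform)
    (lam : ℕ) [Fact lam.Prime] (S S0 : Finset ℕ) (hS0S : S0 ⊆ S)
    (hMS0 : ∀ q : ℕ, q.Prime → q ∣ M → q ∈ S0)
    (O' : Type) [CommRing O'] [IsDomain O'] [IsDiscreteValuationRing O']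
    [IsAdicComplete (maximalIdeal O') O'] [Finite (ResidueField O')]
    [CharZero O'] (hlamO' : (lam : O') ∈ maximalIdeal O')
    (chig : CuspForm.heckeAlgebra M 2 (↑S : Set ℕ) →+* ℂ)
    (hchig : ∀ (ℓ : ℕ) (hℓ : ℓ.Prime) (hℓM : ¬ ℓ ∣ M) (hℓS : ℓ ∉ (↑S : Set ℕ)),
      chig (CuspForm.heckeAlgebra.T hℓ hℓM hℓS) = qCoeff g ℓ)
    (iota : chig.range →+* O') (hlamS : lam ∈ S) :
    ∃ (O'' : Type) (_ : CommRing O'') (_ : IsDomain O'') (_ : IsDiscreteValuationRing O'')
      (_ : IsAdicComplete (maximalIdeal O'') O'') (_ : Finite (ResidueField O''))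
      (_ : CharZero O'') (_ : Algebra O' O'') (_ : Module.Finite O' O'')
      (_ : IsLocalHom (algebraMap O' O'')),
      Function.Injective (algebraMap O' O'') ∧
      ∃ (ρ : GaloisRepAdic O'') (Θ : CuspForm.heckeAlgebra M 2 (↑S0 : Set ℕ) →+* O''),
        (∀ (ℓ : ℕ) (hℓ : ℓ.Prime) (hℓM : ¬ ℓ ∣ M) (hℓS : ℓ ∉ (↑S : Set ℕ)),
          ∀ A : ValuationSubring (AlgebraicClosure ℚ), A.LiesOverPrime ℓ →
            ∀ σ : AlgebraicClosure ℚ ≃ₐ[ℚ] AlgebraicClosure ℚ, A.IsFrobeniusAt σ ℓ →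
              LinearMap.charpoly (ρ.ρ σ) =
                X ^ 2 - C (algebraMap O' O'' ((iota.comp chig.rangeRestrict)
                  (CuspForm.heckeAlgebra.T hℓ hℓM hℓS))) * X + C ((ℓ : O''))) ∧
        (∀ (ℓ : ℕ) (hℓ : ℓ.Prime) (hℓM : ¬ ℓ ∣ M) (hℓS : ℓ ∉ (↑S : Set ℕ))
          (hℓS0 : ℓ ∉ (↑S0 : Set ℕ)),
          Θ (CuspForm.heckeAlgebra.T hℓ hℓM hℓS0) =
            algebraMap O' O'' ((iota.comp chig.rangeRestrict)
              (CuspForm.heckeAlgebra.T hℓ hℓM hℓS))) ∧
        (∀ t : CuspForm.heckeAlgebra M 2 (↑S0 : Set ℕ), Θ t = 0 ↔ ecChar hg (↑S0) t = 0) ∧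
        (∀ q : ℕ, q.Prime → ¬ q ∣ M → q ≠ lam → ρ.IsUnramifiedAt q) := by
  classical
  have hSS : (↑S0 : Set ℕ) ⊆ (↑S : Set ℕ) := Finset.coe_subset.mpr hS0S
  have hMS : ∀ q : ℕ, q.Prime → q ∣ M → q ∈ S := fun q hq hqM => hS0S (hMS0 q hq hqM)
  have hchi : chig = ecChar hg (↑S) :=
    front_chig_eq hg (↑S) (fun q hq hqM => Finset.mem_coe.mpr (hMS q hq hqM)) chig hchig
  set χ0 : CuspForm.heckeAlgebra M 2 (↑S0 : Set ℕ) →+* ℂ := ecChar hg (↑S0) with hχ0
  set incl : CuspForm.heckeAlgebra M 2 (↑S : Set ℕ) →+* CuspForm.heckeAlgebra M 2 (↑S0 : Set ℕ) :=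
    (Subalgebra.inclusion (CuspForm.heckeAlgebra_mono hSS)).toRingHom with hincl
  have hincl_apply : ∀ t, χ0 (incl t) = chig t := by
    intro t
    rw [hchi]
    exact front_ecChar_inclusion hg hSS t
  -- the two rings of values
  have hle : chig.range ≤ χ0.range := by
    rintro _ ⟨t, rfl⟩
    exact ⟨incl t, hincl_apply t⟩
  have hfinT : Module.Finite ℤ (CuspForm.heckeAlgebra M 2 (↑S0 : Set ℕ)) :=
    Fermat.Agent.S22.result M 2 _
  have hfinR : Module.Finite ℤ χ0.range :=
    Module.Finite.of_surjective (χ0.rangeRestrict.toIntAlgHom.toLinearMap)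
      χ0.rangeRestrict_surjective
  -- extend `iota`
  obtain ⟨O1, i1, i2, i3, i4, i5, i6, i7, i8, i9, iota0, hinj1, hiota0⟩ :=
    exists_extension_of_char (Subring.inclusion hle) (Subring.inclusion_injective hle) O' iota
  have hiota0_inj : Function.Injective iota0 := front_injective_of_finite_int iota0
  have hlam1 : (lam : O1) ∈ maximalIdeal O1 := by
    have e : (lam : O1) = algebraMap O' O1 (lam : O') := (map_natCast _ lam).symm
    rw [e]
    exact (IsLocalRing.mem_maximalIdeal _).mpr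
      (map_mem_nonunits_iff (algebraMap O' O1) _ |>.mpr
        ((IsLocalRing.mem_maximalIdeal _).mp hlamO'))
  set Θ1 : CuspForm.heckeAlgebra M 2 (↑S0 : Set ℕ) →+* O1 := iota0.comp χ0.rangeRestrict
    with hΘ1
  -- S30
  obtain ⟨O2, j1, j2, j3, j4, j5, j6, j7, j8, j9, hinj2, ρ, hρ, hunr⟩ :=
    s30Statement lam M S hlamS hMS O1 hlam1 (Θ1.comp incl)
  -- the tower
  let _ : Algebra O' O2 := ((algebraMap O1 O2).comp (algebraMap O' O1)).toAlgebra
  have : IsScalarTower O' O1 O2 := IsScalarTower.of_algebraMap_eq fun _ => rfl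
  have hfin : Module.Finite O' O2 := Module.Finite.trans O1 O2
  have hloc : IsLocalHom (algebraMap O' O2) := by
    show IsLocalHom ((algebraMap O1 O2).comp (algebraMap O' O1))
    exact RingHom.isLocalHom_comp _ _
  have hkey : ∀ t : CuspForm.heckeAlgebra M 2 (↑S : Set ℕ),
      algebraMap O1 O2 (Θ1 (incl t)) = algebraMap O' O2 ((iota.comp chig.rangeRestrict) t) := by
    intro t
    show algebraMap O1 O2 (iota0 (χ0.rangeRestrict (incl t)))
      = algebraMap O1 O2 (algebraMap O' O1 (iota (chig.rangeRestrict t)))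
    rw [← hiota0]
    congr 2
    exact Subtype.ext (hincl_apply t)
  refine ⟨O2, j1, j2, j3, j4, j5, j6, inferInstance, hfin, hloc, hinj2.comp hinj1, ρ,
    (algebraMap O1 O2).comp Θ1, ?_, ?_, ?_, hunr⟩
  · intro ℓ hℓ hℓM hℓS A hA σ hσ
    rw [hρ ℓ hℓ hℓM hℓS A hA σ hσ, RingHom.comp_apply, hkey]
  · intro ℓ hℓ hℓM hℓS hℓS0
    rw [← hkey]
    rfl
  · intro t
    rw [RingHom.comp_apply]
    constructor
    · intro h
      have h1 : Θ1 t = 0 := hinj2 (by rw [h, map_zero])
      have h2 : χ0.rangeRestrict t = 0 := hiota0_inj (by rw [← RingHom.comp_apply, h1, map_zero])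
      exact congrArg Subtype.val h2
    · intro h
      have h2 : χ0.rangeRestrict t = 0 := Subtype.ext h
      rw [hΘ1, RingHom.comp_apply, h2, map_zero, map_zero]

end Main

end Fermat.Agent.S35lib
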