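import Mathlib
import Fermat.Agent.S35lib.Frob2K

/-!
# Item 82 (S35), piece G1 (b): `FrobNewAt` from its Kummer form `Frob2K`

* `DegJKStatement M' q p S` (piece G1 (a), proved elsewhere): the Kummer function of a class
  `h • x`, `h` a Hecke polynomial killing `J₀(M')[p^∞]`, is Kummer-new.
* `bk_mk_eq_zero`: the generic divisor computation.
* `frobNewAt_of_frob2K`: if `Frob2K M' q (p ^ n) A` holds for all `n` and all `A` over `q`, then
  `FrobNewAt (M' * q) M' S p q 1 1`.
-/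

set_option autoImplicit false

noncomputable section

namespace Fermat.Agent.S35lib

open ModularCurve AlgebraicCurve
open Fermat.Agent.S24lib Fermat.Agent.HeckeBar Fermat.Agent.S34lib Fermat.Agent.S31lib
  Fermat.Agent.GalRep

section Gen

variable {K F : Type*} [Field K] [Field F] [Algebra K F]

/-- generic Kummer computation: if `m D = div f` and `g (g f / f) / (g f / f) ^ Q = c s ^ m`,
then `(g - Q)(g - 1) D = div s`. -/
theorem bk_mk_eq_zero (g : SemilinearAut K F) (D : Divisor.degZero (K := K) (F := F))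
    (m Q : ℕ) (hm0 : m ≠ 0) (f : F) (hf0 : f ≠ 0)
    (hfD : ∀ w : Place K F, (m • (D : Divisor K F)) w = w.ord f)
    (c : K) (s : F)
    (hcs : g • (g • f / f) / (g • f / f) ^ Q = algebraMap K F c * s ^ m) :
    Pic0.mk (SemilinearAut.degZeroSMulHom g (SemilinearAut.degZeroSMulHom g D)
      - SemilinearAut.degZeroSMulHom g D
      - Q • (SemilinearAut.degZeroSMulHom g D - D)) = 0 := by
  have hfD' : ∀ v : Place K F, (m : ℤ) * (D : Divisor K F) v = v.ord f := by
    intro v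
    rw [← hfD v]
    simp
  have hgf0 : g • f ≠ 0 := by simpa using hf0
  have hu0 : g • f / f ≠ 0 := div_ne_zero hgf0 hf0
  have hgu0 : g • (g • f / f) ≠ 0 := by simpa using hu0
  have huq0 : (g • f / f) ^ Q ≠ 0 := pow_ne_zero _ hu0
  have hw0 : g • (g • f / f) / (g • f / f) ^ Q ≠ 0 := div_ne_zero hgu0 huq0
  have hc0 : algebraMap K F c ≠ 0 := by
    intro h0
    rw [hcs, h0, zero_mul] at hw0
    exact hw0 rfl
  have hs0 : s ≠ 0 := by
    intro h0
    rw [hcs, h0, zero_pow hm0, mul_zero] at hw0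
    exact hw0 rfl
  apply Fermat.Agent.S18lib.mk_eq_zero_of_mem_principal
  refine ⟨s, hs0, fun v => ?_⟩
  have h1 : v.ord (g • (g • f / f) / (g • f / f) ^ Q) = (m : ℤ) * v.ord s := by
    rw [hcs, v.ord_mul hc0 (pow_ne_zero _ hs0), Fermat.Agent.S18lib.ord_pow_nat,
      uk_ord_const, zero_add]
  have h2 : v.ord (g • (g • f / f) / (g • f / f) ^ Q)
      = (m : ℤ) * ((g • g • (D : Divisor K F)) v - (g • (D : Divisor K F)) v
          - (Q : ℤ) * ((g • (D : Divisor K F)) v - (D : Divisor K F) v)) := by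
    rw [uk_ord_div v hgu0 huq0, Fermat.Agent.S18lib.ord_pow_nat,
      uk_ord_smul' g v, uk_ord_div _ hgf0 hf0, uk_ord_div v hgf0 hf0,
      uk_ord_smul' g (g⁻¹ • v), uk_ord_smul' g v, ← hfD', ← hfD', ← hfD',
      SemilinearAut.divisor_smul_apply, SemilinearAut.divisor_smul_apply,
      SemilinearAut.divisor_smul_apply]
    ring
  have h3 : (m : ℤ) * ((g • g • (D : Divisor K F)) v - (g • (D : Divisor K F)) v
          - (Q : ℤ) * ((g • (D : Divisor K F)) v - (D : Divisor K F) v))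
        = (m : ℤ) * v.ord s := by rw [← h2, h1]
  have hm' : (m : ℤ) ≠ 0 := by exact_mod_cast hm0
  have h4 := mul_left_cancel₀ hm' h3
  rw [← h4]
  simp [SemilinearAut.coe_degZeroSMulHom]

/-- the same, in `Pic0`. -/
theorem bk_smul_eq_zero (g : SemilinearAut K F) (D : Divisor.degZero (K := K) (F := F))
    (m Q : ℕ) (hm0 : m ≠ 0) (f : F) (hf0 : f ≠ 0)
    (hfD : ∀ w : Place K F, (m • (D : Divisor K F)) w = w.ord f)
    (c : K) (s : F)
    (hcs : g • (g • f / f) / (g • f / f) ^ Q = algebraMap K F c * s ^ m) :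
    g • (g • Pic0.mk D - Pic0.mk D) - ((Q : ℤ)) • (g • Pic0.mk D - Pic0.mk D) = 0 := by
  have h := bk_mk_eq_zero g D m Q hm0 f hf0 hfD c s hcs
  rw [natCast_zsmul, smul_sub, SemilinearAut.pic0_smul_mk, SemilinearAut.pic0_smul_mk]
  exact h

end Gen

/-- **DEGJ-K** (piece G1 (a)): the Kummer function of a class `h • x`, `h` killing level `M'`,
has both norms of the form `c g ^ m`. -/
def DegJKStatement (M' q p : ℕ) [NeZero M'] [NeZero q] [NeZero (M' * q)] (S : Finset ℕ) : Prop :=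
  ∀ h : HPoly (M' * q) S, KillsLevel (M' * q) S M' p h →
    ∀ (x : JZero (M' * q)) (n : ℕ), p ^ n • x = 0 →
    ∀ (D : Divisor.degZero (K := Kbar) (F := FF (M' * q))) (f : FF (M' * q)),
      Pic0.mk D = evalJac (M' * q) S (M' * q) h x → f ≠ 0 →
      (∀ w : Place Kbar (FF (M' * q)),
        ((p ^ n) • (D : Divisor Kbar (FF (M' * q)))) w = w.ord f) →
      IsKummerNew M' q (p ^ n) f

/-- `frobNewOp` with exponents `1, 1`, spelled out. -/
theorem frobNewOp_one_one (N q : ℕ) (σ : GQ) (y : JZero N) :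
    frobNewOp N q 1 1 σ y
      = galFF N (σ * σ) • (galFF N (σ * σ) • y - y)
        - ((q ^ 2 : ℕ) : ℤ) • (galFF N (σ * σ) • y - y) := by
  simp only [frobNewOp, pow_one, Module.End.mul_apply, LinearMap.sub_apply, galEnd_apply,
    LinearMap.smul_apply, Module.End.one_apply, Nat.cast_pow]
  rfl

theorem frobNewAt_of_frob2K (M' q p : ℕ) [NeZero M'] [NeZero q] [NeZero (M' * q)]
    (S : Finset ℕ) (hp : p ≠ 0) (hdeg : DegJKStatement M' q p S)
    (h : ∀ A : ValuationSubring Kbar, A.LiesOverPrime q → ∀ n : ℕ, Frob2K M' q (p ^ n) A) :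
    FrobNewAt (M' * q) M' S p q 1 1 := by
  intro B hB σ hσ P hP x ⟨n, hn⟩
  have hny : p ^ n • evalJac (M' * q) S (M' * q) P x = 0 := by
    rw [← map_nsmul, hn, map_zero]
  obtain ⟨D, hD⟩ := Pic0.mk_surjective (evalJac (M' * q) S (M' * q) P x)
  have hprin : (((p ^ n) • D : Divisor.degZero (K := Kbar) (F := FF (M' * q))) :
      Divisor Kbar (FF (M' * q))) ∈ Divisor.principal := by
    apply Fermat.Agent.S18lib.mem_principal_of_mk_eq_zero
    rw [← hny, ← hD]
    rfl
  obtain ⟨f, hf0, hf⟩ := hprin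
  have hfD : ∀ w : Place Kbar (FF (M' * q)),
      ((p ^ n) • (D : Divisor Kbar (FF (M' * q)))) w = w.ord f := by
    intro w
    rw [← hf w]
    rfl
  have hdiv : ∀ v : Place Kbar (FF (M' * q)), ((p ^ n : ℕ) : ℤ) ∣ v.ord f := by
    intro v
    refine ⟨(D : Divisor Kbar (FF (M' * q))) v, ?_⟩
    rw [← hfD v]
    simp
  have hnew : IsKummerNew M' q (p ^ n) f := hdeg P hP x n hn D f hD hf0 hfD
  obtain ⟨c, s, hcs⟩ := h B hB n σ hσ f hf0 hdiv hnew
  rw [← hD, frobNewOp_one_one]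
  exact bk_smul_eq_zero (galFF (M' * q) (σ * σ)) D (p ^ n) (q ^ 2) (pow_ne_zero _ hp) f hf0 hfD
    c s hcs

end Fermat.Agent.S35lib

end
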