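/-
Item 82 (S35), piece G1 = BRIDGE-K, wiring of (a) and (b) (helper23):
* `degJK : q.Prime → ¬ q ∣ M' → DegJKStatement M' q p S`  (helper22's statement, from `DegJK.lean`);
* `frobNewAt_of_frob2K_all` : `FrobNewAt (M' * q) M' S p q 1 1` from `Frob2K` at all `A ∣ q` and all
  `p ^ n`, WITHOUT any further hypothesis.
No sorry.
-/
import Mathlib
import Fermat.Agent.S35lib.BridgeK
import Fermat.Agent.S35lib.DegJK

set_option autoImplicit false

namespace Fermat.Agent.S35lib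

open AlgebraicCurve ModularCurve
open Fermat.Agent.S24lib

/-- **DEGJ-K** = G1 (a). -/
theorem degJK (M' : ℕ) [NeZero M'] {q : ℕ} [NeZero q] [NeZero (M' * q)] (hq : q.Prime)
    (hqM : ¬ q ∣ M') (p : ℕ) (S : Finset ℕ) : DegJKStatement M' q p S :=
  degJK_core M' hq hqM S p

/-- **G1 = BRIDGE-K**: `FrobNewAt` from the Kummer form `Frob2K`. -/
theorem frobNewAt_of_frob2K_all (M' : ℕ) [NeZero M'] {q : ℕ} [NeZero q] [NeZero (M' * q)]
    (hq : q.Prime) (hqM : ¬ q ∣ M') (p : ℕ) (hp : p ≠ 0) (S : Finset ℕ)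
    (h : ∀ A : ValuationSubring Kbar, A.LiesOverPrime q → ∀ n : ℕ, Frob2K M' q (p ^ n) A) :
    FrobNewAt (M' * q) M' S p q 1 1 :=
  frobNewAt_of_frob2K M' q p S hp (degJK M' hq hqM p S) h

end Fermat.Agent.S35lib
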