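/-
Item 82 (S35), add-on to DEGJ for G3a (helper23): THE `β`-NORM IS THE `α`-NORM AFTER ATKIN–LEHNER.

* `dgj_normAlong_comp_equiv` (generic): `N_{w ∘ φ} (w x) = N_φ x` for an automorphism `w` of the
  top field;
* `dgj_normAlong_beta_eq` : `normAlong β f = normAlong α (w_q f)` on `F_{Nq}` (`q ∤ N`);
* `dgj_normAlong_alpha_eq` : `normAlong α f = normAlong β (w_q f)`;
* `dgj_norm_beta_eq`, `dgj_norm_alpha_eq` : the same, spelled out with `Algebra.norm` and
  `algebraAlong` (the form used in `IsKummerNew`, `NormProdStatement`).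
No sorry.
-/
import Mathlib
import Fermat.Agent.S35lib.DegJBeta

set_option autoImplicit false
set_option linter.style.haveILetI false
set_option linter.unusedSectionVars false

noncomputable section

namespace Fermat.Agent.S35lib

open AlgebraicCurve ModularCurve
open Fermat.Agent.S24lib Fermat.Agent.HeckeBar Fermat.Agent.S37lib Fermat.Agent.S34lib

section Generic

variable {K F F' : Type*} [Field K] [Field F] [Field F'] [Algebra K F] [Algebra K F']

/-- the norm along `w ∘ φ` at `w x` is the norm along `φ` at `x` -/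
theorem dgj_normAlong_comp_equiv (φ : F →ₐ[K] F') (w : F' ≃ₐ[K] F') (x : F') :
    normAlong ((w : F' →ₐ[K] F').comp φ) (w x) = normAlong φ x := by
  have he : RingHom.comp (@algebraMap F F' _ _ (algebraAlong ((w : F' →ₐ[K] F').comp φ)))
      ((RingEquiv.refl F : F ≃+* F) : F →+* F) =
      RingHom.comp ((w.toRingEquiv : F' ≃+* F') : F' →+* F')
        (@algebraMap F F' _ _ (algebraAlong φ)) := by
    ext y
    rfl
  have h := @Algebra.norm_eq_of_equiv_equiv F F' F F' _ _ _ _ (algebraAlong φ)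
    (algebraAlong ((w : F' →ₐ[K] F').comp φ)) (RingEquiv.refl F) w.toRingEquiv he x
  exact h.symm

end Generic

section Modular

variable (N : ℕ) [NeZero N] {q : ℕ} [NeZero q] [NeZero (N * q)]
variable (hq : q.Prime) (hqN : ¬ q ∣ N)

/-- **`N_β f = N_α (w_q f)`** -/
theorem dgj_normAlong_beta_eq (f : FF (N * q)) :
    normAlong (heckeBetaBar Kbar N q) f =
      normAlong (heckeAlphaBar Kbar N q)
        (atkinLehnerFF (N * q) q hq (dvd_mul_left q N) (dgj_not_sq_dvd_mul_self hq hqN) f) := by
  have h := dgj_normAlong_comp_equiv (heckeAlphaBar Kbar N q)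
    (atkinLehnerFF (N * q) q hq (dvd_mul_left q N) (dgj_not_sq_dvd_mul_self hq hqN))
    (atkinLehnerFF (N * q) q hq (dvd_mul_left q N) (dgj_not_sq_dvd_mul_self hq hqN) f)
  rw [atkinLehnerFF_involutive] at h
  rw [← h, dgj_al_alpha_eq_beta N hq hqN]

/-- **`w_q ∘ β_q = α_q`** -/
theorem dgj_al_beta_eq_alpha :
    ((atkinLehnerFF (N * q) q hq (dvd_mul_left q N) (dgj_not_sq_dvd_mul_self hq hqN) :
        FF (N * q) →ₐ[Kbar] FF (N * q))).comp (heckeBetaBar Kbar N q) =
      heckeAlphaBar Kbar N q := by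
  rw [← dgj_al_alpha_eq_beta N hq hqN]
  refine AlgHom.ext fun x => ?_
  show atkinLehnerFF (N * q) q hq _ _ (atkinLehnerFF (N * q) q hq _ _ _) = _
  rw [atkinLehnerFF_involutive]
  rfl

/-- **`N_α f = N_β (w_q f)`** -/
theorem dgj_normAlong_alpha_eq (f : FF (N * q)) :
    normAlong (heckeAlphaBar Kbar N q) f =
      normAlong (heckeBetaBar Kbar N q)
        (atkinLehnerFF (N * q) q hq (dvd_mul_left q N) (dgj_not_sq_dvd_mul_self hq hqN) f) := by
  rw [dgj_normAlong_beta_eq N hq hqN, atkinLehnerFF_involutive]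

/-- `N_β f = N_α (w_q f)`, spelled out -/
theorem dgj_norm_beta_eq (f : FF (N * q)) :
    (letI := algebraAlong (heckeBetaBar Kbar N q); Algebra.norm (FF N) f) =
      (letI := algebraAlong (heckeAlphaBar Kbar N q)
       Algebra.norm (FF N)
        (atkinLehnerFF (N * q) q hq (dvd_mul_left q N) (dgj_not_sq_dvd_mul_self hq hqN) f)) :=
  dgj_normAlong_beta_eq N hq hqN f

/-- `N_α f = N_β (w_q f)`, spelled out -/
theorem dgj_norm_alpha_eq (f : FF (N * q)) :
    (letI := algebraAlong (heckeAlphaBar Kbar N q); Algebra.norm (FF N) f) =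
      (letI := algebraAlong (heckeBetaBar Kbar N q)
       Algebra.norm (FF N)
        (atkinLehnerFF (N * q) q hq (dvd_mul_left q N) (dgj_not_sq_dvd_mul_self hq hqN) f)) :=
  dgj_normAlong_alpha_eq N hq hqN f

end Modular

end Fermat.Agent.S35lib

end
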