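import Mathlib
import Fermat.Agent.S35lib.NormDefs
import Fermat.Agent.S35lib.FrobE0

/-!
# Item 82 (S35), piece N2 (NORM-RED): reduction of the two norms

* `normRed_core`: if `Z(s^ℓ) = y₁(s^ℓ) · ∏_{b<ℓ} y₂(ζ^b s)` with `y₁ y₂` having coefficients in
  the valuation ring `A` of residue characteristic `ℓ`, then `Z` has coefficients in `A` and
  reduces to `ȳ₁ · Frob(ȳ₂)`  (`kf_core` with two series).
* `normRed_of_normProd`: `NormProdStatement N ℓ → NormRedStatement N ℓ A`.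
-/

set_option autoImplicit false

noncomputable section

namespace Fermat.Agent.S35lib

open ModularCurve AlgebraicCurve HahnSeries
open Fermat.Agent.S24lib Fermat.Agent.HeckeBar Fermat.Agent.S37lib

/-- The algebraic core of NORM-RED (`kf_core` with two series). -/
theorem normRed_core {K : Type*} [Field K] (A : ValuationSubring K) (ℓ : ℕ) [NeZero ℓ]
    [ExpChar (IsLocalRing.ResidueField A) ℓ] (hℓ : ℓ.Prime)
    (ζ : Kˣ) (hζ : (ζ : K) ^ ℓ = 1) (y₁ y₂ : LaurentSeries A) (Z : LaurentSeries K)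
    (hZ : qExpand K ℓ Z = qExpand K ℓ (coeffMap A.subtype y₁)
        * ∏ b ∈ Finset.range ℓ, twq (ζ ^ b) (coeffMap A.subtype y₂)) :
    ∃ z : LaurentSeries A, coeffMap A.subtype z = Z ∧
      coeffMap (IsLocalRing.residue A) z
        = coeffMap (IsLocalRing.residue A) y₁
          * coeffMap (frobenius (IsLocalRing.ResidueField A) ℓ)
              (coeffMap (IsLocalRing.residue A) y₂) := by
  classical
  have : Fact ℓ.Prime := ⟨hℓ⟩
  have : CharP (IsLocalRing.ResidueField A) ℓ := kf_charP_of_expChar _ hℓ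
  have hmem : (ζ : K) ∈ A := kf_mem_of_pow_eq_one A (NeZero.ne ℓ) hζ
  have hζA : (⟨(ζ : K), hmem⟩ : A) ^ ℓ = 1 := Subtype.ext (by simpa using hζ)
  let ζA : Aˣ := Units.ofPowEqOne (⟨(ζ : K), hmem⟩ : A) ℓ hζA (NeZero.ne ℓ)
  have hζA_map : Units.map (A.subtype : A →* K) ζA = ζ := Units.ext rfl
  have hζA_res : Units.map (IsLocalRing.residue A : A →* IsLocalRing.ResidueField A) ζA = 1 := by
    refine Units.ext ?_
    show IsLocalRing.residue A (⟨(ζ : K), hmem⟩ : A) = 1
    apply kf_eq_one_of_pow_eq_one (ℓ := ℓ)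
    rw [← map_pow, hζA, map_one]
  set w : LaurentSeries A := qExpand A ℓ y₁ * ∏ b ∈ Finset.range ℓ, twq (ζA ^ b) y₂ with hw
  have hwK : coeffMap A.subtype w = qExpand K ℓ Z := by
    rw [hZ, hw, map_mul, map_prod, coeffMap_qExpand]
    congr 1
    refine Finset.prod_congr rfl fun b _ => ?_
    rw [coeffMap_twq, map_pow, hζA_map]
  have hw0 : ∀ n : ℤ, ¬ (ℓ : ℤ) ∣ n → w.coeff n = 0 := by
    intro n hn
    apply A.subtype_injective
    have := congrArg (fun t => t.coeff n) hwK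
    simp only [coeffMap_coeff] at this
    rw [this, qExpand_coeff_of_not_dvd ℓ _ hn, map_zero]
  refine ⟨Kron.qContract ℓ w, ?_, ?_⟩
  · apply qExpand_injective (R := K) ℓ
    rw [← coeffMap_qExpand, Kron.qExpand_qContract ℓ hw0, hwK]
  · apply qExpand_injective (R := IsLocalRing.ResidueField A) ℓ
    have hL : qExpand (IsLocalRing.ResidueField A) ℓ
        (coeffMap (IsLocalRing.residue A) (Kron.qContract ℓ w))
        = qExpand (IsLocalRing.ResidueField A) ℓ (coeffMap (IsLocalRing.residue A) y₁)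
          * (coeffMap (IsLocalRing.residue A) y₂) ^ ℓ := by
      rw [← coeffMap_qExpand, Kron.qExpand_qContract ℓ hw0, hw, map_mul, map_prod,
        coeffMap_qExpand]
      congr 1
      rw [Finset.prod_congr rfl (fun b _ => by
        rw [coeffMap_twq, map_pow, hζA_res, one_pow, twq_one] :
          ∀ b ∈ Finset.range ℓ, coeffMap (IsLocalRing.residue A) (twq (ζA ^ b) y₂)
            = coeffMap (IsLocalRing.residue A) y₂), Finset.prod_const, Finset.card_range]
    rw [hL, map_mul, ← Kron.kc_pow_char]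

set_option linter.unusedVariables false in
/-- **N2 (NORM-RED)** from N1 (NORM-PROD). -/
theorem normRed_of_normProd (N ℓ : ℕ) [NeZero N] [NeZero ℓ] (A : ValuationSubring Kbar)
    [ExpChar (IsLocalRing.ResidueField A) ℓ] (hℓ : ℓ.Prime)
    (hprod : NormProdStatement N ℓ) : NormRedStatement N ℓ A := by
  intro E₀ hc hα hβ x y₁ y₂ h1 h2
  obtain ⟨E₁, hc₁, hα₁, hβ₁, hA, hB⟩ := hprod
  have hE : E₁ = E₀ := fe0_unique N ℓ hℓ E₁ E₀ hc₁ hα₁ hβ₁ hc hα hβ
  subst hE
  have : NeZero ((ℓ : ℕ) : ℚ) := ⟨by exact_mod_cast NeZero.ne ℓ⟩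
  obtain ⟨ζ0, hζ0⟩ := HasEnoughRootsOfUnity.exists_primitiveRoot (AlgebraicClosure ℚ) ℓ
  have hunit : IsUnit ζ0 := hζ0.isUnit (NeZero.ne ℓ)
  obtain ⟨ζ, rfl⟩ := hunit
  constructor
  · have key := hA ζ hζ0 x
    rw [h1, h2] at key
    exact normRed_core A ℓ hℓ ζ hζ0.pow_eq_one y₁ y₂ _ key
  · have key := hB ζ hζ0 x
    rw [h1, h2] at key
    exact normRed_core A ℓ hℓ ζ hζ0.pow_eq_one y₂ y₁ _ key

end Fermat.Agent.S35lib
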