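import Mathlib
import Fermat.Agent.S35lib.NormProd
import Fermat.Agent.S35lib.NormRed
import Fermat.Agent.S35lib.FrobE0
import Fermat.Agent.GoodRed.Bounded
import Fermat.Agent.GoodRed.ModDatum

/-!
# Item 82 (S35), piece G3a (NORM-RED-CR), part 1: "bi-NFInt" fractions

`BiNF E₀ x`: both expansions `coe x` and `E₀ x` of `x ∈ F_{Nℓ}` are `NFInt` (coefficients in a
number field and in `A`).  Every element of `F_{Nℓ}` is a quotient of two such elements
(`nrc_exists_frac`).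
-/

set_option autoImplicit false
set_option linter.style.haveILetI false
set_option linter.unusedSectionVars false

noncomputable section

namespace Fermat.Agent.S35lib

open ModularCurve AlgebraicCurve HahnSeries
open Fermat.Agent.S24lib Fermat.Agent.HeckeBar Fermat.Agent.S37lib Fermat.Agent.GoodRed

section

variable (N ℓ : ℕ) [NeZero N] [NeZero ℓ] (A : ValuationSubring Kbar)

theorem nrc_halg : ∀ c : Kbar, IsIntegral ℚ c := fun c =>
  ((AlgebraicClosure.isAlgebraic ℚ).isAlgebraic c).isIntegral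

/-- `twq` fixes the constants -/
theorem nrc_twq_C {R : Type*} [CommRing R] (u : Rˣ) (c : R) :
    twq u (HahnSeries.C c : LaurentSeries R) = HahnSeries.C c := by
  ext n
  rw [twq_coeff, HahnSeries.C_apply, HahnSeries.coeff_single]
  split_ifs with h
  · subst h; simp
  · simp

variable {A} in
/-- `NFInt` is stable under `q ↦ q^n` -/
theorem nrc_nfInt_qExpand (n : ℕ) [NeZero n] {g : LaurentSeries Kbar} (h : NFInt A g) :
    NFInt A (qExpand Kbar n g) := by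
  obtain ⟨E, hE, hcoef⟩ := h
  refine ⟨E, hE, fun k => ?_⟩
  by_cases hk : (n : ℤ) ∣ k
  · obtain ⟨j, rfl⟩ := hk
    rw [qExpand_coeff_mul]
    exact hcoef j
  · rw [qExpand_coeff_of_not_dvd n _ hk]
    exact ⟨zero_mem _, A.zero_mem⟩

variable (E₀ : FF (N * ℓ) →+* LaurentSeries Kbar)

/-- the second expansion takes values in `F_{Nℓ}` -/
theorem nrc_E0_mem (hℓ : ℓ.Prime)
    (hα : ∀ Y : FF N, E₀ (heckeAlphaBar Kbar N ℓ Y) = qExpand Kbar ℓ (Y : LaurentSeries Kbar))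
    (hβ : ∀ Y : FF N, E₀ (heckeBetaBar Kbar N ℓ Y) = (Y : LaurentSeries Kbar))
    (x : FF (N * ℓ)) : E₀ x ∈ modularFunctionFieldBar (N * ℓ) := by
  induction x using np_induction N ℓ hℓ with
  | hα Y =>
    rw [hα Y, ← coe_heckeBetaBar (L := Kbar) N ℓ Y]
    exact (heckeBetaBar Kbar N ℓ Y).2
  | hβ Y =>
    rw [hβ Y, ← coe_heckeAlphaBar (L := Kbar) N ℓ Y]
    exact (heckeAlphaBar Kbar N ℓ Y).2
  | hadd x y hx hy => rw [map_add]; exact add_mem hx hy
  | hneg x hx => rw [map_neg]; exact neg_mem hx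
  | hmul x y hx hy => rw [map_mul]; exact mul_mem hx hy
  | hinv x hx => rw [map_inv₀]; exact inv_mem hx

/-- both expansions are `NFInt` -/
def BiNF (x : FF (N * ℓ)) : Prop :=
  NFInt A (x : LaurentSeries Kbar) ∧ NFInt A (E₀ x)

variable {N ℓ A E₀}

theorem BiNF.add {x y : FF (N * ℓ)} (hx : BiNF N ℓ A E₀ x) (hy : BiNF N ℓ A E₀ y) :
    BiNF N ℓ A E₀ (x + y) :=
  ⟨hx.1.add hy.1, by rw [map_add]; exact hx.2.add hy.2⟩

theorem BiNF.mul {x y : FF (N * ℓ)} (hx : BiNF N ℓ A E₀ x) (hy : BiNF N ℓ A E₀ y) :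
    BiNF N ℓ A E₀ (x * y) :=
  ⟨hx.1.mul hy.1, by rw [map_mul]; exact hx.2.mul hy.2⟩

theorem BiNF.neg {x : FF (N * ℓ)} (hx : BiNF N ℓ A E₀ x) : BiNF N ℓ A E₀ (-x) :=
  ⟨hx.1.neg, by rw [map_neg]; exact hx.2.neg⟩

theorem binf_zero : BiNF N ℓ A E₀ 0 :=
  ⟨nfInt_zero, by rw [map_zero]; exact nfInt_zero⟩

theorem binf_one : BiNF N ℓ A E₀ 1 :=
  ⟨nfInt_one, by rw [map_one]; exact nfInt_one⟩

theorem binf_alpha
    (hα : ∀ Y : FF N, E₀ (heckeAlphaBar Kbar N ℓ Y) = qExpand Kbar ℓ (Y : LaurentSeries Kbar))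
    (Y : FF N) (hY : NFInt A (Y : LaurentSeries Kbar)) :
    BiNF N ℓ A E₀ (heckeAlphaBar Kbar N ℓ Y) := by
  refine ⟨?_, ?_⟩
  · rw [coe_heckeAlphaBar]; exact hY
  · rw [hα]; exact nrc_nfInt_qExpand ℓ hY

theorem binf_beta
    (hβ : ∀ Y : FF N, E₀ (heckeBetaBar Kbar N ℓ Y) = (Y : LaurentSeries Kbar))
    (Y : FF N) (hY : NFInt A (Y : LaurentSeries Kbar)) :
    BiNF N ℓ A E₀ (heckeBetaBar Kbar N ℓ Y) := by
  refine ⟨?_, ?_⟩
  · rw [coe_heckeBetaBar]; exact nrc_nfInt_qExpand ℓ hY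
  · rw [hβ]; exact hY

variable (N ℓ A E₀) in
/-- every element of `F_{Nℓ}` is a quotient of two bi-`NFInt` elements -/
theorem nrc_exists_frac (hℓ : ℓ.Prime)
    (hα : ∀ Y : FF N, E₀ (heckeAlphaBar Kbar N ℓ Y) = qExpand Kbar ℓ (Y : LaurentSeries Kbar))
    (hβ : ∀ Y : FF N, E₀ (heckeBetaBar Kbar N ℓ Y) = (Y : LaurentSeries Kbar))
    (f : FF (N * ℓ)) :
    ∃ x x' : FF (N * ℓ), x' ≠ 0 ∧ BiNF N ℓ A E₀ x ∧ BiNF N ℓ A E₀ x' ∧ f * x' = x := by
  induction f using np_induction N ℓ hℓ with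
  | hα Y =>
    obtain ⟨a, b, ha, hb, hb0, hna, hnb, hab⟩ :=
      isFracNF_of_mem (A := A) (N := N) nrc_halg Y.2
    refine ⟨heckeAlphaBar Kbar N ℓ ⟨a, ha⟩, heckeAlphaBar Kbar N ℓ ⟨b, hb⟩, ?_,
      binf_alpha hα _ hna, binf_alpha hα _ hnb, ?_⟩
    · intro h0
      apply hb0
      have := (heckeAlphaBar Kbar N ℓ).toRingHom.injective (h0.trans (map_zero _).symm)
      exact congrArg Subtype.val this
    · rw [← map_mul]
      congr 1
      exact Subtype.ext hab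
  | hβ Y =>
    obtain ⟨a, b, ha, hb, hb0, hna, hnb, hab⟩ :=
      isFracNF_of_mem (A := A) (N := N) nrc_halg Y.2
    refine ⟨heckeBetaBar Kbar N ℓ ⟨a, ha⟩, heckeBetaBar Kbar N ℓ ⟨b, hb⟩, ?_,
      binf_beta hβ _ hna, binf_beta hβ _ hnb, ?_⟩
    · intro h0
      apply hb0
      have := (heckeBetaBar Kbar N ℓ).toRingHom.injective (h0.trans (map_zero _).symm)
      exact congrArg Subtype.val this
    · rw [← map_mul]
      congr 1
      exact Subtype.ext hab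
  | hadd f g hf hg =>
    obtain ⟨x, x', hx', hx, hxx', hfx⟩ := hf
    obtain ⟨y, y', hy', hy, hyy', hgy⟩ := hg
    refine ⟨x * y' + y * x', x' * y', mul_ne_zero hx' hy',
      (hx.mul hyy').add (hy.mul hxx'), hxx'.mul hyy', ?_⟩
    rw [← hfx, ← hgy]
    ring
  | hneg f hf =>
    obtain ⟨x, x', hx', hx, hxx', hfx⟩ := hf
    exact ⟨-x, x', hx', hx.neg, hxx', by rw [← hfx]; ring⟩
  | hmul f g hf hg =>
    obtain ⟨x, x', hx', hx, hxx', hfx⟩ := hf
    obtain ⟨y, y', hy', hy, hyy', hgy⟩ := hg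
    refine ⟨x * y, x' * y', mul_ne_zero hx' hy', hx.mul hy, hxx'.mul hyy', ?_⟩
    rw [← hfx, ← hgy]
    ring
  | hinv f hf =>
    obtain ⟨x, x', hx', hx, hxx', hfx⟩ := hf
    by_cases hx0 : x = 0
    · have hf0 : f = 0 := by
        rw [hx0] at hfx
        rcases mul_eq_zero.mp hfx with h | h
        · exact h
        · exact absurd h hx'
      rw [hf0, inv_zero]
      exact ⟨0, 1, one_ne_zero, binf_zero, binf_one, by rw [zero_mul]⟩
    · have hf0 : f ≠ 0 := by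
        rintro rfl
        rw [zero_mul] at hfx
        exact hx0 hfx.symm
      refine ⟨x', x, hx0, hxx', hx, ?_⟩
      rw [← hfx]
      field_simp

end

end Fermat.Agent.S35lib
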