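import Mathlib
import Fermat.Agent.GoodRed.Defs
import Fermat.Agent.GoodRed.Lattice
import Fermat.Prelude.Def_AlgebraicCurve_BaseChangeGalois

/-!
# Item 82 (S35), piece G3b (NORM-NEW), abstract core (helper15)

Setting: `R'` a constant reduction of `F'/K`, `R₁, R₂` two constant reductions of `F/K`, all with
the same residue function field `Fk` (in the application `F' = F_{M'}`, `F = F_{M'q}`,
`R₁ = R_∞`, `R₂ = R_0`), `Nα, Nβ : F → F'` (the two norms), `Φ : Fk →+* Fk` (the coefficient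
Frobenius), `g, g'` semilinear automorphisms of `F`, `F'` (the Frobenius lift `σ`) with
`red ∘ g = Φ ∘ red` (K1F).

Hypothesis `NormRedCR` (norm reduction, piece G3a): for `f ≠ 0` scaled by `c₁` to a unit of
`R₁.O` and by `c₂` to a unit of `R₂.O`,
`red' (c₁ c₂^q Nα f) = red₁ (c₁ f) · Φ (red₂ (c₂ f))` and
`red' (c₂ c₁^q Nβ f) = red₂ (c₂ f) · Φ (red₁ (c₁ f))`.

Conclusion (`normNew_core`): if `Nα f` and `Nβ f` are constants times `m`-th powers, then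
`u := g • g • f / f` lies in `R₁.O ∩ R₂.O` and both reductions of `u` are nonzero constants times
`m`-th powers (`IsCP`).
-/

set_option autoImplicit false

noncomputable section

namespace Fermat.Agent.S35lib

open AlgebraicCurve Fermat.Agent.GoodRed

section CP

variable {k Fk : Type*} [Field k] [Field Fk] [Algebra k Fk]

/-- `x` is a nonzero constant times an `m`-th power of a nonzero element -/
def IsCP (k : Type*) {Fk : Type*} [Field k] [Field Fk] [Algebra k Fk] (m : ℕ) (x : Fk) : Prop :=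
  ∃ (c : k) (r : Fk), c ≠ 0 ∧ r ≠ 0 ∧ x = algebraMap k Fk c * r ^ m

theorem IsCP.ne_zero {m : ℕ} {x : Fk} (h : IsCP k m x) : x ≠ 0 := by
  obtain ⟨c, r, hc, hr, rfl⟩ := h
  exact mul_ne_zero ((map_ne_zero _).mpr hc) (pow_ne_zero _ hr)

theorem IsCP.mul {m : ℕ} {x y : Fk} (hx : IsCP k m x) (hy : IsCP k m y) : IsCP k m (x * y) := by
  obtain ⟨c, r, hc, hr, rfl⟩ := hx
  obtain ⟨c', r', hc', hr', rfl⟩ := hy
  refine ⟨c * c', r * r', mul_ne_zero hc hc', mul_ne_zero hr hr', ?_⟩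
  rw [map_mul, mul_pow]
  ring

theorem IsCP.inv {m : ℕ} {x : Fk} (hx : IsCP k m x) : IsCP k m x⁻¹ := by
  obtain ⟨c, r, hc, hr, rfl⟩ := hx
  refine ⟨c⁻¹, r⁻¹, inv_ne_zero hc, inv_ne_zero hr, ?_⟩
  rw [map_inv₀, inv_pow, mul_inv]

theorem IsCP.div {m : ℕ} {x y : Fk} (hx : IsCP k m x) (hy : IsCP k m y) : IsCP k m (x / y) := by
  rw [div_eq_mul_inv]
  exact hx.mul hy.inv

theorem IsCP.const {m : ℕ} {c : k} (hc : c ≠ 0) : IsCP k m (algebraMap k Fk c) :=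
  ⟨c, 1, hc, one_ne_zero, by rw [one_pow, mul_one]⟩

theorem IsCP.map {m : ℕ} {x : Fk} (hx : IsCP k m x) (Φ : Fk →+* Fk)
    (hΦ : ∀ c : k, ∃ c' : k, Φ (algebraMap k Fk c) = algebraMap k Fk c') : IsCP k m (Φ x) := by
  obtain ⟨c, r, hc, hr, rfl⟩ := hx
  obtain ⟨c', hc'⟩ := hΦ c
  refine ⟨c', Φ r, ?_, (map_ne_zero Φ).mpr hr, ?_⟩
  · rintro rfl
    rw [map_zero] at hc'
    exact hc ((map_eq_zero _).mp ((map_eq_zero Φ).mp hc'))
  · rw [map_mul, map_pow, hc']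

end CP

variable {K F F' k Fk : Type*} [Field K] [Field F] [Algebra K F] [Field F'] [Algebra K F']
  [Field k] [Field Fk] [Algebra k Fk]
variable {A : ValuationSubring K} {π : A →+* k}

section Unit

variable (R : ConstRed A π Fk F)

/-- the reduction of a product -/
theorem nn_red_mul {x y : F} (hx : x ∈ R.O) (hy : y ∈ R.O) (hxy : x * y ∈ R.O) :
    R.red ⟨x * y, hxy⟩ = R.red ⟨x, hx⟩ * R.red ⟨y, hy⟩ := by
  rw [← map_mul]
  rfl

/-- a unit of `O` has nonzero reduction -/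
theorem nn_red_ne_zero {x : F} (hx0 : x ≠ 0) (hx : x ∈ R.O) (hx' : x⁻¹ ∈ R.O) :
    R.red ⟨x, hx⟩ ≠ 0 := by
  intro h0
  have h1 : R.red ⟨x * x⁻¹, by rw [mul_inv_cancel₀ hx0]; exact R.O.one_mem⟩ = 1 := by
    have e : (⟨x * x⁻¹, by rw [mul_inv_cancel₀ hx0]; exact R.O.one_mem⟩ : R.O) = 1 :=
      Subtype.ext (mul_inv_cancel₀ hx0)
    rw [e, map_one]
  rw [nn_red_mul R hx hx', h0, zero_mul] at h1
  exact zero_ne_one h1

/-- the reduction of the inverse of a unit -/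
theorem nn_red_inv {x : F} (hx0 : x ≠ 0) (hx : x ∈ R.O) (hx' : x⁻¹ ∈ R.O) :
    R.red ⟨x⁻¹, hx'⟩ = (R.red ⟨x, hx⟩)⁻¹ := by
  have h1 : R.red ⟨x * x⁻¹, by rw [mul_inv_cancel₀ hx0]; exact R.O.one_mem⟩ = 1 := by
    have e : (⟨x * x⁻¹, by rw [mul_inv_cancel₀ hx0]; exact R.O.one_mem⟩ : R.O) = 1 :=
      Subtype.ext (mul_inv_cancel₀ hx0)
    rw [e, map_one]
  rw [nn_red_mul R hx hx'] at h1
  exact eq_inv_of_mul_eq_one_right h1

/-- the reduction of a power -/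
theorem nn_red_pow {x : F} (hx : x ∈ R.O) (n : ℕ) (hxn : x ^ n ∈ R.O) :
    R.red ⟨x ^ n, hxn⟩ = R.red ⟨x, hx⟩ ^ n := by
  rw [← map_pow]
  rfl

/-- the reduction of a constant which is a unit of `A` -/
theorem nn_red_const {a : K} (ha : a ∈ A) (ha' : a⁻¹ ∈ A) (ha0 : a ≠ 0)
    (h : algebraMap K F a ∈ R.O) :
    ∃ c : k, c ≠ 0 ∧ R.red ⟨algebraMap K F a, h⟩ = algebraMap k Fk c := by
  refine ⟨π ⟨a, ha⟩, ?_, R.red_algebraMap ⟨a, ha⟩⟩
  intro h0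
  have hnu := (R.π_eq_zero_iff ⟨a, ha⟩).mp h0
  rw [ValuationSubring.mem_nonunits_iff_or] at hnu
  rcases hnu with h1 | h1
  · exact ha0 h1
  · exact h1 ha'

/-- if `d • y ∈ O` for a unit `y` of `O`, then `d ∈ A` -/
theorem nn_const_mem {d : K} {y : F} (hy0 : y ≠ 0) (_hy : y ∈ R.O) (hy' : y⁻¹ ∈ R.O)
    (h : algebraMap K F d * y ∈ R.O) : d ∈ A := by
  rw [← R.algebraMap_mem_iff]
  have e : algebraMap K F d = algebraMap K F d * y * y⁻¹ := by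
    rw [mul_assoc, mul_inv_cancel₀ hy0, mul_one]
  rw [e]
  exact R.O.mul_mem _ _ h hy'

end Unit

/-- **(NR)**: the reduction of the two norms (statement of piece G3a). -/
def NormRedCR (R' : ConstRed A π Fk F') (R₁ R₂ : ConstRed A π Fk F) (q : ℕ) (Nα Nβ : F → F')
    (Φ : Fk →+* Fk) : Prop :=
  ∀ (f : F), f ≠ 0 → ∀ (c₁ c₂ : K)
    (h₁ : algebraMap K F c₁ * f ∈ R₁.O) (_ : (algebraMap K F c₁ * f)⁻¹ ∈ R₁.O)
    (h₂ : algebraMap K F c₂ * f ∈ R₂.O) (_ : (algebraMap K F c₂ * f)⁻¹ ∈ R₂.O),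
    (∃ h : algebraMap K F' (c₁ * c₂ ^ q) * Nα f ∈ R'.O,
      R'.red ⟨_, h⟩ = R₁.red ⟨_, h₁⟩ * Φ (R₂.red ⟨_, h₂⟩)) ∧
    (∃ h : algebraMap K F' (c₂ * c₁ ^ q) * Nβ f ∈ R'.O,
      R'.red ⟨_, h⟩ = R₂.red ⟨_, h₂⟩ * Φ (R₁.red ⟨_, h₁⟩))

/-- **(K1F)**: `g` acts on the reduction `R` through `Φ`, and preserves the valuation of the
constants. -/
def IsFrobRed (R : ConstRed A π Fk F) (g : SemilinearAut K F) (Φ : Fk →+* Fk) : Prop :=
  (∀ c : K, c ≠ 0 → SemilinearAut.baseAut g c / c ∈ A) ∧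
    ∀ x : R.O, ∃ h : g • (x : F) ∈ R.O, R.red ⟨g • (x : F), h⟩ = Φ (R.red x)

namespace IsFrobRed

variable {R : ConstRed A π Fk F} {g : SemilinearAut K F} {Φ : Fk →+* Fk}

theorem smul_mem (hg : IsFrobRed R g Φ) {x : F} (hx : x ∈ R.O) : g • x ∈ R.O :=
  (hg.2 ⟨x, hx⟩).1

theorem red_smul (hg : IsFrobRed R g Φ) {x : F} (hx : x ∈ R.O) :
    R.red ⟨g • x, hg.smul_mem hx⟩ = Φ (R.red ⟨x, hx⟩) :=
  (hg.2 ⟨x, hx⟩).2

theorem base_ne_zero (g : SemilinearAut K F) {c : K} (hc : c ≠ 0) :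
    SemilinearAut.baseAut g c ≠ 0 := fun h0 =>
  hc ((SemilinearAut.baseAut g).injective (by rw [h0, map_zero]))

theorem div_base_mem (hg : IsFrobRed R g Φ) {c : K} (hc : c ≠ 0) :
    c / SemilinearAut.baseAut g c ∈ A := by
  have h1 := hg.1 c⁻¹ (inv_ne_zero hc)
  rw [map_inv₀] at h1
  have h2 : (SemilinearAut.baseAut g c)⁻¹ / c⁻¹ = c / SemilinearAut.baseAut g c := by
    rw [div_eq_mul_inv, inv_inv, mul_comm, div_eq_mul_inv]
  rwa [h2] at h1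

end IsFrobRed

/-- one side of `normNew_core` -/
theorem nn_side (R : ConstRed A π Fk F) (m : ℕ) (Φ : Fk →+* Fk) (g : SemilinearAut K F)
    (hg : IsFrobRed R g Φ) {f : F} (hf : f ≠ 0) {c : K} (hc : c ≠ 0)
    (h₁ : algebraMap K F c * f ∈ R.O) (h₁' : (algebraMap K F c * f)⁻¹ ∈ R.O)
    (hcp : IsCP k m (Φ (Φ (R.red ⟨_, h₁⟩)) / R.red ⟨_, h₁⟩)) :
    ∃ h : g • g • f / f ∈ R.O, IsCP k m (R.red ⟨_, h⟩) := by
  set f₁ : F := algebraMap K F c * f with hf₁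
  have hcF : algebraMap K F c ≠ 0 := (map_ne_zero _).mpr hc
  have hf₁0 : f₁ ≠ 0 := mul_ne_zero hcF hf
  set c' : K := SemilinearAut.baseAut g c with hc'
  set c'' : K := SemilinearAut.baseAut g c' with hc''
  have hc'0 : c' ≠ 0 := IsFrobRed.base_ne_zero g hc
  have hc''0 : c'' ≠ 0 := IsFrobRed.base_ne_zero g hc'0
  -- the constant `e = c / c''` is a unit of `A`
  have he : c / c'' ∈ A := by
    have e1 : c / c'' = c / c' * (c' / c'') := by field_simp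
    rw [e1]
    exact A.mul_mem _ _ (hg.div_base_mem hc) (hg.div_base_mem hc'0)
  have he' : (c / c'')⁻¹ ∈ A := by
    have e1 : (c / c'')⁻¹ = c'' / c' * (c' / c) := by field_simp
    rw [e1]
    exact A.mul_mem _ _ (hg.1 c' hc'0) (hg.1 c hc)
  have he0 : c / c'' ≠ 0 := div_ne_zero hc hc''0
  -- `g g f₁`
  have hgf : g • f₁ ∈ R.O := hg.smul_mem h₁
  have hggf : g • g • f₁ ∈ R.O := hg.smul_mem hgf
  have hred : R.red ⟨g • g • f₁, hggf⟩ = Φ (Φ (R.red ⟨f₁, h₁⟩)) := by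
    rw [hg.red_smul hgf, hg.red_smul h₁]
  have hggf₁ : g • g • f₁ = algebraMap K F c'' * g • g • f := by
    rw [hf₁, smul_mul', smul_mul', SemilinearAut.smul_algebraMap, SemilinearAut.smul_algebraMap]
  have hggf0 : g • g • f ≠ 0 := by simpa using hf
  have hu : g • g • f / f = algebraMap K F (c / c'') * (g • g • f₁ * f₁⁻¹) := by
    rw [hggf₁, hf₁, map_div₀]
    have hc''F : algebraMap K F c'' ≠ 0 := (map_ne_zero _).mpr hc''0
    field_simp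
  have hconst : algebraMap K F (c / c'') ∈ R.O := (R.algebraMap_mem_iff _).mpr he
  have hprod : g • g • f₁ * f₁⁻¹ ∈ R.O := R.O.mul_mem _ _ hggf h₁'
  have hmem : g • g • f / f ∈ R.O := by
    rw [hu]
    exact R.O.mul_mem _ _ hconst hprod
  refine ⟨hmem, ?_⟩
  have e1 : R.red ⟨g • g • f / f, hmem⟩
      = R.red ⟨algebraMap K F (c / c''), hconst⟩ * (R.red ⟨g • g • f₁, hggf⟩ * R.red ⟨f₁⁻¹, h₁'⟩) := by
    rw [← nn_red_mul R hggf h₁' hprod, ← nn_red_mul R hconst hprod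
      (R.O.mul_mem _ _ hconst hprod)]
    congr 1
    exact Subtype.ext hu
  obtain ⟨e, he0', hered⟩ := nn_red_const R he he' he0 hconst
  rw [e1, hered, hred, nn_red_inv R hf₁0 h₁ h₁', ← div_eq_mul_inv]
  exact (IsCP.const he0').mul hcp

/-- the constant-times-power property of the reduction of a scaled norm -/
theorem nn_isCP_of_norm (R' : ConstRed A π Fk F') (m : ℕ) (hm : 0 < m) {Z : F'} (hZ : Z ∈ R'.O)
    (hZred : R'.red ⟨Z, hZ⟩ ≠ 0) {d : K} {n : F'}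
    (hZn : Z = algebraMap K F' d * n)
    (hn : ∃ (c : K) (γ : F'), n = algebraMap K F' c * γ ^ m) :
    IsCP k m (R'.red ⟨Z, hZ⟩) := by
  obtain ⟨c, γ, hcγ⟩ := hn
  have hZ0 : Z ≠ 0 := by
    rintro rfl
    apply hZred
    have e : (⟨(0 : F'), hZ⟩ : R'.O) = 0 := rfl
    rw [e, map_zero]
  have hd0 : d ≠ 0 := by
    rintro rfl
    rw [map_zero, zero_mul] at hZn
    exact hZ0 hZn
  have hn0 : n ≠ 0 := by
    rintro rfl
    rw [mul_zero] at hZn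
    exact hZ0 hZn
  have hc0 : c ≠ 0 := by
    rintro rfl
    rw [map_zero, zero_mul] at hcγ
    exact hn0 hcγ
  have hγ0 : γ ≠ 0 := by
    rintro rfl
    rw [zero_pow hm.ne', mul_zero] at hcγ
    exact hn0 hcγ
  obtain ⟨cγ, hcγ0, hy, hy'⟩ := R'.exists_unit_smul γ hγ0
  set y : F' := algebraMap K F' cγ * γ with hydef
  have hy0 : y ≠ 0 := mul_ne_zero ((map_ne_zero _).mpr hcγ0) hγ0
  have hym : y ^ m ∈ R'.O := R'.O.pow_mem hy m
  have hym' : (y ^ m)⁻¹ ∈ R'.O := by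
    rw [← inv_pow]
    exact R'.O.pow_mem hy' m
  have hym0 : y ^ m ≠ 0 := pow_ne_zero _ hy0
  set e : K := d * c * (cγ ^ m)⁻¹ with hedef
  have hZe : Z = algebraMap K F' e * y ^ m := by
    rw [hZn, hcγ, hedef, hydef, mul_pow, map_mul, map_mul, map_inv₀, map_pow]
    have : algebraMap K F' cγ ≠ 0 := (map_ne_zero _).mpr hcγ0
    field_simp
  have heA : e ∈ A := nn_const_mem R' hym0 hym hym' (hZe ▸ hZ)
  have heO : algebraMap K F' e ∈ R'.O := (R'.algebraMap_mem_iff _).mpr heA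
  have e1 : R'.red ⟨Z, hZ⟩ = R'.red ⟨algebraMap K F' e, heO⟩ * R'.red ⟨y, hy⟩ ^ m := by
    rw [← nn_red_pow R' hy m hym, ← nn_red_mul R' heO hym (R'.O.mul_mem _ _ heO hym)]
    congr 1
    exact Subtype.ext hZe
  have e2 : R'.red ⟨algebraMap K F' e, heO⟩ = algebraMap k Fk (π ⟨e, heA⟩) :=
    R'.red_algebraMap ⟨e, heA⟩
  have hπ : π ⟨e, heA⟩ ≠ 0 := by
    intro h0
    apply hZred
    rw [e1, e2, h0, map_zero, zero_mul]
  exact ⟨π ⟨e, heA⟩, R'.red ⟨y, hy⟩, hπ, nn_red_ne_zero R' hy0 hy hy', by rw [e1, e2]⟩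

/-- **G3b, abstract core.**  If both norms of `f` are constants times `m`-th powers, then both
reductions of `u = g • g • f / f` are nonzero constants times `m`-th powers. -/
theorem normNew_core (R' : ConstRed A π Fk F') (R₁ R₂ : ConstRed A π Fk F) (q m : ℕ)
    (hm : 0 < m) (Nα Nβ : F → F') (Φ : Fk →+* Fk)
    (hΦ : ∀ c : k, ∃ c' : k, Φ (algebraMap k Fk c) = algebraMap k Fk c')
    (hNR : NormRedCR R' R₁ R₂ q Nα Nβ Φ)
    (g : SemilinearAut K F) (hg₁ : IsFrobRed R₁ g Φ) (hg₂ : IsFrobRed R₂ g Φ)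
    {f : F} (hf : f ≠ 0)
    (hα : ∃ (c : K) (γ : F'), Nα f = algebraMap K F' c * γ ^ m)
    (hβ : ∃ (c : K) (γ : F'), Nβ f = algebraMap K F' c * γ ^ m) :
    ∃ (h₁ : g • g • f / f ∈ R₁.O) (h₂ : g • g • f / f ∈ R₂.O),
      IsCP k m (R₁.red ⟨_, h₁⟩) ∧ IsCP k m (R₂.red ⟨_, h₂⟩) := by
  obtain ⟨c₁, hc₁, h₁, h₁'⟩ := R₁.exists_unit_smul f hf
  obtain ⟨c₂, hc₂, h₂, h₂'⟩ := R₂.exists_unit_smul f hf
  have hf₁0 : algebraMap K F c₁ * f ≠ 0 := mul_ne_zero ((map_ne_zero _).mpr hc₁) hf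
  have hf₂0 : algebraMap K F c₂ * f ≠ 0 := mul_ne_zero ((map_ne_zero _).mpr hc₂) hf
  set a : Fk := R₁.red ⟨_, h₁⟩ with ha
  set b : Fk := R₂.red ⟨_, h₂⟩ with hb
  have ha0 : a ≠ 0 := nn_red_ne_zero R₁ hf₁0 h₁ h₁'
  have hb0 : b ≠ 0 := nn_red_ne_zero R₂ hf₂0 h₂ h₂'
  obtain ⟨⟨hZα, hZαred⟩, ⟨hZβ, hZβred⟩⟩ := hNR f hf c₁ c₂ h₁ h₁' h₂ h₂'
  have hΦa0 : Φ a ≠ 0 := (map_ne_zero Φ).mpr ha0
  have hΦb0 : Φ b ≠ 0 := (map_ne_zero Φ).mpr hb0
  have hcpα : IsCP k m (a * Φ b) := by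
    rw [← hZαred]
    refine nn_isCP_of_norm R' m hm hZα ?_ rfl hα
    rw [hZαred]
    exact mul_ne_zero ha0 hΦb0
  have hcpβ : IsCP k m (b * Φ a) := by
    rw [← hZβred]
    refine nn_isCP_of_norm R' m hm hZβ ?_ rfl hβ
    rw [hZβred]
    exact mul_ne_zero hb0 hΦa0
  have hcpa : IsCP k m (Φ (Φ a) / a) := by
    have e : Φ (Φ a) / a = Φ (b * Φ a) / (a * Φ b) := by
      rw [map_mul]
      field_simp
    rw [e]
    exact (hcpβ.map Φ hΦ).div hcpα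
  have hcpb : IsCP k m (Φ (Φ b) / b) := by
    have e : Φ (Φ b) / b = Φ (a * Φ b) / (b * Φ a) := by
      rw [map_mul]
      field_simp
    rw [e]
    exact (hcpα.map Φ hΦ).div hcpβ
  obtain ⟨hu₁, hu₁cp⟩ := nn_side R₁ m Φ g hg₁ hf hc₁ h₁ h₁' hcpa
  obtain ⟨hu₂, hu₂cp⟩ := nn_side R₂ m Φ g hg₂ hf hc₂ h₂ h₂' hcpb
  exact ⟨hu₁, hu₂, hu₁cp, hu₂cp⟩

end Fermat.Agent.S35lib

end
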