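import Mathlib
import Fermat.Agent.S34lib.UnipK
import Fermat.Agent.S34lib.CruxSSBuild
import Fermat.Agent.S35lib.NormNew

/-!
# Item 82 (S35), geometry: the glue  NORM-NEW + TORIC ⟹ FROB2 (Kummer form), abstract (helper15)

* `TorK R₁ R₂ g Q m`: the output of the TWIST block (S34 blueprint §4, generic in `Q`): for every
  `u ≠ 0` in `R₁.O ∩ R₂.O` with all orders divisible by `m` and CONSTANT reductions,
  `g • u / u ^ Q` is a constant times an `m`-th power.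
* `torK_isCP`: by (SURJ) the same holds when the reductions of `u` are constants times `m`-th
  powers (`IsCP`).
* `frob2_glue`: `NormRedCR` + `IsFrobRed` + `TorK (g * g) Q` + (SURJ): for `f ≠ 0` with all orders
  divisible by `m` and both norms constants times `m`-th powers,
  `(g * g) • u / u ^ Q` with `u = g • g • f / f` is a constant times an `m`-th power.
-/

set_option autoImplicit false

noncomputable section

namespace Fermat.Agent.S35lib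

open AlgebraicCurve Fermat.Agent.GoodRed Fermat.Agent.S34lib

variable {K F F' k Fk : Type*} [Field K] [Field F] [Algebra K F] [Field F'] [Algebra K F']
  [Field k] [Field Fk] [Algebra k Fk]
variable {A : ValuationSubring K} {π : A →+* k}

/-- **TORIC, Kummer form, constant reductions** (output of the TWIST block, generic in `Q`). -/
def TorK (R₁ R₂ : ConstRed A π Fk F) (g : SemilinearAut K F) (Q m : ℕ) : Prop :=
  ∀ (u : F), u ≠ 0 → ∀ (h₁ : u ∈ R₁.O) (h₂ : u ∈ R₂.O),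
    (∀ P : Place K F, (m : ℤ) ∣ P.ord u) →
    ∀ (c₁ c₂ : k), c₁ ≠ 0 → c₂ ≠ 0 →
      R₁.red ⟨u, h₁⟩ = algebraMap k Fk c₁ → R₂.red ⟨u, h₂⟩ = algebraMap k Fk c₂ →
      ∃ (c : K) (s : F), g • u / u ^ Q = algebraMap K F c * s ^ m

/-- an element of `O` with nonzero reduction is a unit of `O` -/
theorem fg_inv_mem (R : ConstRed A π Fk F) {x : F} (hx : x ∈ R.O) (hred : R.red ⟨x, hx⟩ ≠ 0) :
    x⁻¹ ∈ R.O := by
  by_contra hcon
  apply hred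
  rw [R.red_eq_zero_iff]
  show x ∈ R.O.nonunits
  rw [ValuationSubring.mem_nonunits_iff_or]
  right
  exact hcon

/-- **TORIC for reductions which are constants times `m`-th powers**, from `TorK` and (SURJ). -/
theorem torK_isCP {R₁ R₂ : ConstRed A π Fk F} {g : SemilinearAut K F} {Q m : ℕ}
    (hT : TorK R₁ R₂ g Q m) (hsurj : Function.Surjective (ssRed R₁ R₂))
    {u : F} (hu0 : u ≠ 0) (h₁ : u ∈ R₁.O) (h₂ : u ∈ R₂.O)
    (hdiv : ∀ P : Place K F, (m : ℤ) ∣ P.ord u)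
    (hcp₁ : IsCP k m (R₁.red ⟨u, h₁⟩)) (hcp₂ : IsCP k m (R₂.red ⟨u, h₂⟩)) :
    ∃ (c : K) (s : F), g • u / u ^ Q = algebraMap K F c * s ^ m := by
  obtain ⟨c₁, r₁, hc₁, hr₁, hred₁⟩ := hcp₁
  obtain ⟨c₂, r₂, hc₂, hr₂, hred₂⟩ := hcp₂
  obtain ⟨ρ, hρ⟩ := hsurj (r₁, r₂)
  rw [ssRed_apply] at hρ
  have hρ₁ : R₁.red ⟨ρ.1, ρ.2.1⟩ = r₁ := congrArg Prod.fst hρ
  have hρ₂ : R₂.red ⟨ρ.1, ρ.2.2⟩ = r₂ := congrArg Prod.snd hρ
  set x : F := ρ.1 with hx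
  have hx₁ : x ∈ R₁.O := ρ.2.1
  have hx₂ : x ∈ R₂.O := ρ.2.2
  have hx0 : x ≠ 0 := by
    intro h0
    apply hr₁
    rw [← hρ₁]
    have e : (⟨ρ.1, ρ.2.1⟩ : R₁.O) = 0 := Subtype.ext h0
    rw [e, map_zero]
  have hxi₁ : x⁻¹ ∈ R₁.O := fg_inv_mem R₁ hx₁ (by rw [hρ₁]; exact hr₁)
  have hxi₂ : x⁻¹ ∈ R₂.O := fg_inv_mem R₂ hx₂ (by rw [hρ₂]; exact hr₂)
  -- `u' = u · (x⁻¹)^m`
  set u' : F := u * x⁻¹ ^ m with hu'
  have hxim0 : x⁻¹ ^ m ≠ 0 := pow_ne_zero _ (inv_ne_zero hx0)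
  have hu'0 : u' ≠ 0 := mul_ne_zero hu0 hxim0
  have hm₁ : x⁻¹ ^ m ∈ R₁.O := R₁.O.pow_mem hxi₁ m
  have hm₂ : x⁻¹ ^ m ∈ R₂.O := R₂.O.pow_mem hxi₂ m
  have hu'₁ : u' ∈ R₁.O := R₁.O.mul_mem _ _ h₁ hm₁
  have hu'₂ : u' ∈ R₂.O := R₂.O.mul_mem _ _ h₂ hm₂
  have hdiv' : ∀ P : Place K F, (m : ℤ) ∣ P.ord u' := by
    intro P
    rw [hu', P.ord_mul hu0 hxim0, Fermat.Agent.S18lib.ord_pow_nat]
    exact dvd_add (hdiv P) (dvd_mul_right _ _)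
  have hr'₁ : R₁.red ⟨u', hu'₁⟩ = algebraMap k Fk c₁ := by
    rw [nn_red_mul R₁ h₁ hm₁ hu'₁, nn_red_pow R₁ hxi₁ m hm₁, nn_red_inv R₁ hx0 hx₁ hxi₁, hred₁]
    have e : R₁.red ⟨x, hx₁⟩ = r₁ := hρ₁
    rw [e, inv_pow, mul_assoc, mul_inv_cancel₀ (pow_ne_zero _ hr₁), mul_one]
  have hr'₂ : R₂.red ⟨u', hu'₂⟩ = algebraMap k Fk c₂ := by
    rw [nn_red_mul R₂ h₂ hm₂ hu'₂, nn_red_pow R₂ hxi₂ m hm₂, nn_red_inv R₂ hx0 hx₂ hxi₂, hred₂]
    have e : R₂.red ⟨x, hx₂⟩ = r₂ := hρ₂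
    rw [e, inv_pow, mul_assoc, mul_inv_cancel₀ (pow_ne_zero _ hr₂), mul_one]
  obtain ⟨c, s, hcs⟩ := hT u' hu'0 hu'₁ hu'₂ hdiv' c₁ c₂ hc₁ hc₂ hr'₁ hr'₂
  refine ⟨c, s * (g • x / x ^ Q), ?_⟩
  have hu : u = u' * x ^ m := by
    rw [hu', inv_pow, mul_assoc, inv_mul_cancel₀ (pow_ne_zero _ hx0), mul_one]
  have hgx0 : g • x ≠ 0 := by simpa using hx0
  have key : g • u / u ^ Q = g • u' / u' ^ Q * (g • x / x ^ Q) ^ m := by
    rw [hu, smul_mul', smul_pow', mul_pow, div_pow, ← pow_mul, ← pow_mul, mul_comm Q m]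
    field_simp
  rw [key, hcs, mul_pow]
  ring

/-- divisibility of the orders of `g • g • f / f` -/
theorem fg_dvd_ord (g : SemilinearAut K F) {m : ℕ} {f : F} (hf : f ≠ 0)
    (hdiv : ∀ P : Place K F, (m : ℤ) ∣ P.ord f) (P : Place K F) :
    (m : ℤ) ∣ P.ord (g • g • f / f) := by
  have hgf0 : g • g • f ≠ 0 := by simpa using hf
  rw [uk_ord_div P hgf0 hf, uk_ord_smul' g P, uk_ord_smul' g (g⁻¹ • P)]
  exact dvd_sub (hdiv _) (hdiv _)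

/-- **the glue**: NORM-NEW + TORIC ⟹ FROB2 in Kummer form (abstract). -/
theorem frob2_glue (R' : ConstRed A π Fk F') (R₁ R₂ : ConstRed A π Fk F) (q m Q : ℕ)
    (hm : 0 < m) (Nα Nβ : F → F') (Φ : Fk →+* Fk)
    (hΦ : ∀ c : k, ∃ c' : k, Φ (algebraMap k Fk c) = algebraMap k Fk c')
    (hNR : NormRedCR R' R₁ R₂ q Nα Nβ Φ)
    (g : SemilinearAut K F) (hg₁ : IsFrobRed R₁ g Φ) (hg₂ : IsFrobRed R₂ g Φ)
    (hT : TorK R₁ R₂ (g * g) Q m) (hsurj : Function.Surjective (ssRed R₁ R₂))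
    {f : F} (hf : f ≠ 0) (hdiv : ∀ P : Place K F, (m : ℤ) ∣ P.ord f)
    (hα : ∃ (c : K) (γ : F'), Nα f = algebraMap K F' c * γ ^ m)
    (hβ : ∃ (c : K) (γ : F'), Nβ f = algebraMap K F' c * γ ^ m) :
    ∃ (c : K) (s : F),
      (g * g) • ((g * g) • f / f) / ((g * g) • f / f) ^ Q = algebraMap K F c * s ^ m := by
  obtain ⟨h₁, h₂, hcp₁, hcp₂⟩ :=
    normNew_core R' R₁ R₂ q m hm Nα Nβ Φ hΦ hNR g hg₁ hg₂ hf hα hβ
  have hgf0 : g • g • f ≠ 0 := by simpa using hf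
  have hu0 : g • g • f / f ≠ 0 := div_ne_zero hgf0 hf
  have := torK_isCP hT hsurj hu0 h₁ h₂ (fg_dvd_ord g hf hdiv) hcp₁ hcp₂
  rw [mul_smul]
  exact this

end Fermat.Agent.S35lib

end
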