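import Mathlib
import Fermat.Agent.S34lib.GlueInst
import Fermat.Agent.S34lib.InertiaRedFrob
import Fermat.Agent.S35lib.Frob2Glue

/-!
# Item 82 (S35), APPLY-F, abstract part (helper15)

(`TorK` itself comes from helper26's `S34lib.tw_torK`, `TwistApply.lean`.)
* `twistAut_of_equivariant`: the `TwistAut` of a semilinear automorphism `g` acting on both
  reductions through `Φ` (helper4's `IsRedEquivariant`), for the gluing `X.gluing` of helper19's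
  `GlueData`, when `Φ` preserves the spaces `L(aQ)` and the gluing points satisfy
  `e (Φ x) = (e x)^Q`.
* `red_pow_of_equivariant`: the hypothesis `hgu` of `tw_torK` when `Φ c = c ^ Q` on constants.
-/

set_option autoImplicit false
set_option synthInstance.maxHeartbeats 400000

noncomputable section

namespace Fermat.Agent.S35lib

open AlgebraicCurve Fermat.Agent.RRlib Fermat.Agent.GoodRed Fermat.Agent.S34lib

variable {K F k Fk : Type*} [Field K] [Field F] [Algebra K F] [Field k] [Field Fk] [Algebra k Fk]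
variable {A : ValuationSubring K} {π : A →+* k}

section Equivariant

variable [RRHyp K F] [RRHyp k Fk]
variable {R₁ R₂ : ConstRed A π Fk F} {P₁ P₂ : Place K F} {Q : Place k Fk}

/-- **the `TwistAut` of an automorphism acting on both reductions through `Φ`.** -/
theorem twistAut_of_equivariant (X : GlueData R₁ R₂ P₁ P₂ Q) (g : SemilinearAut K F)
    (Φ : Fk →+* Fk) (Qn : ℕ)
    (hg₁ : IsRedEquivariant R₁ g Φ) (hg₂ : IsRedEquivariant R₂ g Φ)
    (hfix : g • f3dDiv P₁ P₂ 1 1 = f3dDiv P₁ P₂ 1 1)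
    (hΦL : ∀ (a : ℕ) (x : Fk), x ∈ riemannRochSpace (K := k) (Finsupp.single Q (a : ℤ)) →
      Φ x ∈ riemannRochSpace (K := k) (Finsupp.single Q (a : ℤ)))
    (he₁ : ∀ (i : Fin X.n) (x : Fk) (hx : x ∈ X.B) (hx' : Φ x ∈ X.B),
      X.e₁ i ⟨Φ x, hx'⟩ = (X.e₁ i ⟨x, hx⟩) ^ Qn)
    (he₂ : ∀ (i : Fin X.n) (x : Fk) (hx : x ∈ X.B) (hx' : Φ x ∈ X.B),
      X.e₂ i ⟨Φ x, hx'⟩ = (X.e₂ i ⟨x, hx⟩) ^ Qn) :
    TwistAut (SSRed.ofPair R₁ R₂) X.gluing (f3dDiv P₁ P₂ 1 1) g Qn := by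
  have hmem : ∀ x : F, x ∈ (SSRed.ofPair R₁ R₂).O → g • x ∈ (SSRed.ofPair R₁ R₂).O :=
    fun x hx => ⟨hg₁.smul_mem hx.1, hg₂.smul_mem hx.2⟩
  have hred : ∀ x : (SSRed.ofPair R₁ R₂).O,
      (SSRed.ofPair R₁ R₂).red ⟨g • (x : F), hmem x x.2⟩
        = (Φ ((SSRed.ofPair R₁ R₂).red x).1, Φ ((SSRed.ofPair R₁ R₂).red x).2) := by
    intro x
    rw [SSRed.ofPair_red, SSRed.ofPair_red]
    exact Prod.ext (hg₁.red_smul x.2.1) (hg₂.red_smul x.2.2)
  refine ⟨hmem, hfix, ?_, ?_, ?_⟩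
  · intro a x hx
    rw [hred x]
    exact ⟨hΦL a _ hx.1, hΦL a _ hx.2⟩
  · intro a x hx i
    have hB : ((SSRed.ofPair R₁ R₂).red x).1 ∈ X.B := X.mem_B_of_mem hx.1
    have hB' : Φ ((SSRed.ofPair R₁ R₂).red x).1 ∈ X.B := X.mem_B_of_mem (hΦL a _ hx.1)
    rw [hred x, X.gluing_e₁ _ hB' i, X.gluing_e₁ _ hB i]
    exact he₁ i _ hB hB'
  · intro a x hx i
    have hB : ((SSRed.ofPair R₁ R₂).red x).2 ∈ X.B := X.mem_B_of_mem hx.2
    have hB' : Φ ((SSRed.ofPair R₁ R₂).red x).2 ∈ X.B := X.mem_B_of_mem (hΦL a _ hx.2)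
    rw [hred x, X.gluing_e₂ _ hB' i, X.gluing_e₂ _ hB i]
    exact he₂ i _ hB hB'

end Equivariant

/-- `red (g u) = (red u)^Q` for `u` with constant reduction, when `Φ c = c ^ Q` on constants. -/
theorem red_pow_of_equivariant {R₁ R₂ : ConstRed A π Fk F} {g : SemilinearAut K F}
    {Φ : Fk →+* Fk} {Qn : ℕ}
    (hg₁ : IsRedEquivariant R₁ g Φ) (hg₂ : IsRedEquivariant R₂ g Φ)
    (hΦc : ∀ c : k, Φ (algebraMap k Fk c) = algebraMap k Fk (c ^ Qn))
    (u : (SSRed.ofPair R₁ R₂).O) (c c' : k)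
    (hu : (SSRed.ofPair R₁ R₂).red u = (algebraMap k Fk c, algebraMap k Fk c'))
    (hm : g • (u : F) ∈ (SSRed.ofPair R₁ R₂).O) :
    (SSRed.ofPair R₁ R₂).red ⟨g • (u : F), hm⟩ = (SSRed.ofPair R₁ R₂).red u ^ Qn := by
  have h1 : R₁.red ⟨(u : F), u.2.1⟩ = algebraMap k Fk c := by
    have := congrArg Prod.fst hu
    rwa [SSRed.ofPair_red] at this
  have h2 : R₂.red ⟨(u : F), u.2.2⟩ = algebraMap k Fk c' := by
    have := congrArg Prod.snd hu
    rwa [SSRed.ofPair_red] at this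
  rw [hu, SSRed.ofPair_red]
  refine Prod.ext ?_ ?_
  · show R₁.red ⟨g • (u : F), hm.1⟩ = (algebraMap k Fk c) ^ Qn
    rw [hg₁.red_smul u.2.1, h1, hΦc, map_pow]
  · show R₂.red ⟨g • (u : F), hm.2⟩ = (algebraMap k Fk c') ^ Qn
    rw [hg₂.red_smul u.2.2, h2, hΦc, map_pow]

end Fermat.Agent.S35lib

end
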