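import Mathlib
import Fermat.Agent.S34lib.GlueConc
import Fermat.Agent.S34lib.GraphsFrob
import Fermat.Agent.S34lib.TwistApply
import Fermat.Agent.S35lib.TorKOfTwist

/-!
# Item 82 (S35), APPLY-F: the abstract top composition (helper15)

Abstract setting of S34's `GlueConc.lean` (`ExInput R' R₁ R₂ α β v P₁ P₂ Q φ q`, the affine ring
`B` with its `k`-linear Frobenius `Fr = φ`), plus the S35 data: the coefficient Frobenius
`Φ : Fk →+* Fk` (`φ (Φ r) = r ^ q`, `Φ c = c ^ q` on constants, `Φ` preserves `L(aQ)`), a semilinear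
automorphism `g` of `F` acting on both reductions through `Φ` and fixing `P₁`, `P₂`, and the norm
reduction `NormRedCR`.

* `glueConc_frob`: as `glueConc`, with in addition `X.e (Φ (Φ r)) = (X.e r) ^ (q ^ 2)`.
* `frob2_of_exInput`: for `f ≠ 0` with all orders divisible by `m` and both norms constants times
  `m`-th powers, `(g * g) • u / u ^ (q ^ 2)`, `u = (g * g) • f / f`, is a constant times an
  `m`-th power.  The `TwistCrux` instance (helper16, C13) is a hypothesis `hcrux`.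
-/

set_option autoImplicit false
set_option synthInstance.maxHeartbeats 400000

noncomputable section

namespace Fermat.Agent.S35lib

open AlgebraicCurve Fermat.Agent.RRlib Fermat.Agent.GoodRed Fermat.Agent.S34lib

variable {K F F' k Fk : Type*} [Field K] [Field F] [Field F'] [Algebra K F] [Algebra K F']
  [Field k] [Field Fk] [Algebra k Fk]
variable {A : ValuationSubring K} {π : A →+* k}
variable [RRHyp K F] [RRHyp k Fk]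
variable {R' : ConstRed A π Fk F'} {R₁ R₂ : ConstRed A π Fk F} {α β : F' →+* F}
  {v : Place K F'} {P₁ P₂ : Place K F} {Q : Place k Fk} {φ : Fk →+* Fk} {q : ℕ}

/-- **ASSEMBLY with Frobenius**: as `glueConc`, the gluing points satisfying in addition
`e (Φ (Φ r)) = (e r) ^ (q ^ 2)` for the coefficient Frobenius `Φ`. -/
theorem glueConc_frob [Infinite k] (Hex : ExInput R' R₁ R₂ α β v P₁ P₂ Q φ q)
    (hsurj : Function.Surjective (ssRed R₁ R₂)) (B : Subalgebra k Fk)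
    (hB : ∀ x : Fk, x ∈ B ↔ ∃ a : ℕ, x ∈ riemannRochSpace (K := k) (Finsupp.single Q (a : ℤ)))
    [IsDedekindDomain B]
    (hres : ∀ P : Ideal B, P.IsMaximal → Function.Surjective (algebraMap k (B ⧸ P)))
    (Fr : B →ₐ[k] B) (hFr : ∀ a : B, ((Fr a : B) : Fk) = φ (a : Fk))
    (hpow : ∀ a : B, ∃ (g : B) (n : ℕ), 2 ≤ n ∧ Fr a = g ^ n)
    (hne : ∃ f : B, Fr (Fr f) ≠ f)
    (hlift : ∀ a : B, ∃ (g : F') (hg : g ∈ R'.O),
      (∀ v' : Place K F', v' ≠ v → 0 ≤ v'.ord g) ∧ R'.red ⟨g, hg⟩ = (a : Fk))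
    (hg : 2 * genusFF k Fk ≤ genusFF K F)
    (Φ : Fk → Fk) (hΦB : ∀ x : Fk, x ∈ B → Φ x ∈ B)
    (hφΦ : ∀ r : B, φ (Φ (r : Fk)) = (r : Fk) ^ q)
    {m : ℕ} (hm : 0 < m) :
    ∃ (X : GlueData R₁ R₂ P₁ P₂ Q) (a₀ a₁ : ℕ), X.B = B ∧ F3dEX R₁ R₂ P₁ P₂ Q Q a₀ ∧
      a₀ ≤ a₁ ∧ TwistHyp (SSRed.ofPair R₁ R₂) X.gluing m (f3dDiv P₁ P₂ 1 1) a₁ ∧ 0 < X.n ∧
      (∀ i (r : X.B) (h : Φ (Φ (r : Fk)) ∈ X.B),
        X.e₁ i ⟨Φ (Φ (r : Fk)), h⟩ = (X.e₁ i r) ^ (q ^ 2)) ∧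
      (∀ i (r : X.B) (h : Φ (Φ (r : Fk)) ∈ X.B),
        X.e₂ i ⟨Φ (Φ (r : Fk)), h⟩ = (X.e₂ i r) ^ (q ^ 2)) := by
  obtain ⟨a₀, H⟩ := Hex.f3dEX hsurj
  obtain ⟨X, hXB, -, -, -, -, h5, h6⟩ :=
    graphs_glueData_frobK H B hB hres Fr hpow hne (fun x => φ x) Φ q (fun r => hFr r) hΦB hφΦ
      (Hex.hα B Fr hFr hlift) (Hex.hβ B Fr hFr hlift)
  obtain ⟨a₁, ha₁, hyp⟩ := X.twistHyp H hm
  exact ⟨X, a₀, a₁, hXB, H, ha₁, hyp, X.n_pos H hg, h5, h6⟩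

/-- **APPLY-F, abstract top composition.** -/
theorem frob2_of_exInput [Infinite k] (Hex : ExInput R' R₁ R₂ α β v P₁ P₂ Q φ q)
    (hsurj : Function.Surjective (ssRed R₁ R₂)) (B : Subalgebra k Fk)
    (hB : ∀ x : Fk, x ∈ B ↔ ∃ a : ℕ, x ∈ riemannRochSpace (K := k) (Finsupp.single Q (a : ℤ)))
    [IsDedekindDomain B]
    (hres : ∀ P : Ideal B, P.IsMaximal → Function.Surjective (algebraMap k (B ⧸ P)))
    (Fr : B →ₐ[k] B) (hFr : ∀ a : B, ((Fr a : B) : Fk) = φ (a : Fk))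
    (hpow : ∀ a : B, ∃ (g : B) (n : ℕ), 2 ≤ n ∧ Fr a = g ^ n)
    (hne : ∃ f : B, Fr (Fr f) ≠ f)
    (hlift : ∀ a : B, ∃ (g : F') (hg : g ∈ R'.O),
      (∀ v' : Place K F', v' ≠ v → 0 ≤ v'.ord g) ∧ R'.red ⟨g, hg⟩ = (a : Fk))
    (hgen : 2 * genusFF k Fk ≤ genusFF K F)
    -- the coefficient Frobenius
    (Φ : Fk →+* Fk)
    (hΦL : ∀ (a : ℕ) (x : Fk), x ∈ riemannRochSpace (K := k) (Finsupp.single Q (a : ℤ)) →
      Φ x ∈ riemannRochSpace (K := k) (Finsupp.single Q (a : ℤ)))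
    (hφΦ : ∀ r : B, φ (Φ (r : Fk)) = (r : Fk) ^ q)
    (hΦc : ∀ c : k, Φ (algebraMap k Fk c) = algebraMap k Fk (c ^ q))
    -- the Frobenius lift
    (g : SemilinearAut K F) (hg₁ : IsFrobRed R₁ g Φ) (hg₂ : IsFrobRed R₂ g Φ)
    (hfix : g • f3dDiv P₁ P₂ 1 1 = f3dDiv P₁ P₂ 1 1)
    -- the norms
    (Nα Nβ : F → F') (hNR : NormRedCR R' R₁ R₂ q Nα Nβ Φ)
    -- the exponent and the crux instance (helper16, C13)
    {m : ℕ} (hm : 0 < m)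
    (hcrux : ∀ (X : GlueData R₁ R₂ P₁ P₂ Q) (a₀ a₁ : ℕ), F3dEX R₁ R₂ P₁ P₂ Q Q a₀ → a₀ ≤ a₁ →
      TwistHyp (SSRed.ofPair R₁ R₂) X.gluing m (f3dDiv P₁ P₂ 1 1) a₁ → 0 < X.n →
      ∃ (D₂ : Divisor K F) (n₂ : ℕ) (f finv : (SSRed.ofPair R₁ R₂).O),
        TwistCrux (SSRed.ofPair R₁ R₂) X.gluing m (f3dDiv P₁ P₂ 1 1) D₂ n₂ f finv)
    {f : F} (hf : f ≠ 0) (hdiv : ∀ P : Place K F, (m : ℤ) ∣ P.ord f)
    (hα : ∃ (c : K) (γ : F'), Nα f = algebraMap K F' c * γ ^ m)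
    (hβ : ∃ (c : K) (γ : F'), Nβ f = algebraMap K F' c * γ ^ m) :
    ∃ (c : K) (s : F),
      (g * g) • ((g * g) • f / f) / ((g * g) • f / f) ^ (q ^ 2) = algebraMap K F c * s ^ m := by
  have hΦB : ∀ x : Fk, x ∈ B → Φ x ∈ B := by
    intro x hx
    obtain ⟨a, ha⟩ := (hB x).mp hx
    exact (hB _).mpr ⟨a, hΦL a x ha⟩
  obtain ⟨X, a₀, a₁, hXB, H, ha, hyp, hn, he₁, he₂⟩ :=
    glueConc_frob Hex hsurj B hB hres Fr hFr hpow hne hlift hgen (fun x => Φ x) hΦB hφΦ hm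
  obtain ⟨D₂, n₂, f₀, finv, hc⟩ := hcrux X a₀ a₁ H ha hyp hn
  -- the automorphism `g * g` acts through `Φ ∘ Φ`
  have hE₁ : IsRedEquivariant R₁ (g * g) (Φ.comp Φ) :=
    IsRedEquivariant.mul (fun x => hg₁.2 x) (fun x => hg₁.2 x)
  have hE₂ : IsRedEquivariant R₂ (g * g) (Φ.comp Φ) :=
    IsRedEquivariant.mul (fun x => hg₂.2 x) (fun x => hg₂.2 x)
  have hfix2 : (g * g) • f3dDiv P₁ P₂ 1 1 = f3dDiv P₁ P₂ 1 1 := by
    rw [mul_smul, hfix, hfix]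
  have hΦL2 : ∀ (a : ℕ) (x : Fk),
      x ∈ riemannRochSpace (K := k) (Finsupp.single Q (a : ℤ)) →
      (Φ.comp Φ) x ∈ riemannRochSpace (K := k) (Finsupp.single Q (a : ℤ)) :=
    fun a x hx => hΦL a _ (hΦL a x hx)
  have hTA : TwistAut (SSRed.ofPair R₁ R₂) X.gluing (f3dDiv P₁ P₂ 1 1) (g * g) (q ^ 2) :=
    twistAut_of_equivariant X (g * g) (Φ.comp Φ) (q ^ 2) hE₁ hE₂ hfix2 hΦL2
      (fun i x hx hx' => he₁ i ⟨x, hx⟩ hx') (fun i x hx hx' => he₂ i ⟨x, hx⟩ hx')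
  have hΦc2 : ∀ c : k, (Φ.comp Φ) (algebraMap k Fk c) = algebraMap k Fk (c ^ (q ^ 2)) := by
    intro c
    rw [RingHom.comp_apply, hΦc, hΦc, ← pow_mul, pow_two]
  have hT : TorK R₁ R₂ (g * g) (q ^ 2) m := by
    intro u hu0 h₁ h₂ hdvd c₁ c₂ hc₁ hc₂ hr₁ hr₂
    exact tw_torK hyp hc hTA (fun c c' => X.const_mem_T0 c c')
      (fun u c c' hu => red_pow_of_equivariant hE₁ hE₂ hΦc2 u c c' hu _)
      u hu0 h₁ h₂ hdvd c₁ c₂ hc₁ hc₂ hr₁ hr₂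
  exact frob2_glue R' R₁ R₂ q m (q ^ 2) hm Nα Nβ Φ (fun c => ⟨c ^ q, hΦc c⟩) hNR g hg₁ hg₂ hT
    hsurj hf hdiv hα hβ

end Fermat.Agent.S35lib

end
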