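/-
Item 82 (S35), piece C12+ (helper4): the CONCRETE Frobenius inputs of `frob2_of_exInput`
(helper15, `Frob2Top.lean`) at a level `N`, `q ‖ N`, for `R∞ = R` (`IsSeriesRed`), `R₀ = inredZero R`,
`g = galFF N σ` for a Frobenius lift `σ` (`A.IsFrobeniusAt σ ℓ`), `Φ = inredFrobC M' σ hσ`
(the coefficientwise Frobenius of `Fk = modularFunctionFieldFullC k M'`), `Q = infPlaceC k M'`.

* `tafr_coeff_mem_rr` : a coefficientwise automorphism preserves `L(a Q∞)`;
* `tafr_hΦL`  : `Φ L(a Q∞) ⊆ L(a Q∞)`;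
* `tafr_hΦc`  : `Φ c = c ^ ℓ` on constants;
* `tafr_eq_frobK` : `Φ x = frobK k ℓ M' • x`;  `tafr_hφΦ` : `affFrobFk k ℓ M' (Φ x) = x ^ ℓ`;
* `tafr_isFrobRed`, `tafr_isFrobRed_zero` : `IsFrobRed R∞ g Φ`, `IsFrobRed R₀ g Φ`;
* `tafr_hfix` : `g • f3dDiv P∞ P₀ 1 1 = f3dDiv P∞ P₀ 1 1`; `tafr_f3dDiv_eq_cuspDiv`;
* `tafr_twistAut` : `TwistAut (SSRed.ofPair R∞ R₀) X.gluing D₁ (g * g) (ℓ ^ 2)` for a `GlueData X`
  with the exports of `glueConc_frob`;  `tafr_hgu` : the hypothesis `hgu` of `tw_torK` for `g * g`.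
-/
import Mathlib
import Fermat.Agent.S34lib.AffFrob
import Fermat.Agent.S34lib.GalRR
import Fermat.Agent.S34lib.InertiaRedFrob
import Fermat.Agent.S35lib.TorKOfTwist

set_option autoImplicit false
set_option synthInstance.maxHeartbeats 400000
set_option linter.style.haveILetI false

noncomputable section

namespace Fermat.Agent.S35lib

open AlgebraicCurve Fermat.Agent.RRlib Fermat.Agent.GoodRed Fermat.Agent.S34lib
open ModularCurve HahnSeries Fermat.Agent.S37lib Fermat.Agent.S24lib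

section Coeff

variable (k : Type) [Field k] (N : ℕ) [NeZero N]

/-- a coefficientwise automorphism preserves `L(a Q∞)` -/
theorem tafr_coeff_mem_rr (e : k ≃+* k) (a : ℤ) {x : modularFunctionFieldFullC k N}
    (hx : x ∈ riemannRochSpace (K := k) (Finsupp.single (infPlaceC k N) a)) :
    coeffSemilinearC k N e • x ∈ riemannRochSpace (K := k) (Finsupp.single (infPlaceC k N) a) := by
  classical
  rw [mem_riemannRochSpace_iff] at hx ⊢
  intro v
  rcases eq_or_ne x 0 with rfl | hx0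
  · left
    simp
  right
  rw [uk_ord_smul']
  have hfix : (coeffSemilinearC k N e)⁻¹ • infPlaceC k N = infPlaceC k N := by
    conv_lhs => rw [← coeffSemilinearC_smul_infPlaceC k N e]
    rw [inv_smul_smul]
  by_cases hv : v = infPlaceC k N
  · subst hv
    rw [hfix]
    exact (hx _).resolve_left hx0
  · have hne : (coeffSemilinearC k N e)⁻¹ • v ≠ infPlaceC k N := by
      intro h
      apply hv
      have h2 : (coeffSemilinearC k N e)⁻¹ • v
          = (coeffSemilinearC k N e)⁻¹ • infPlaceC k N := by rw [h, hfix]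
      exact MulAction.injective _ h2
    have h1 := (hx ((coeffSemilinearC k N e)⁻¹ • v)).resolve_left hx0
    rw [Finsupp.single_apply, if_neg (Ne.symm hne)] at h1
    rw [Finsupp.single_apply, if_neg (Ne.symm hv)]
    exact h1

end Coeff

section Frob

variable (M' : ℕ) [NeZero M'] {A : ValuationSubring Kbar}

/-- `Φ` preserves `L(a Q∞)` -/
theorem tafr_hΦL (σ : Kbar ≃ₐ[ℚ] Kbar) {ℓ : ℕ} (hσ : A.IsFrobeniusAt σ ℓ) (a : ℕ)
    (x : modularFunctionFieldFullC (IsLocalRing.ResidueField A) M')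
    (hx : x ∈ riemannRochSpace (K := IsLocalRing.ResidueField A)
      (Finsupp.single (infPlaceC (IsLocalRing.ResidueField A) M') (a : ℤ))) :
    inredFrobC M' σ hσ x ∈ riemannRochSpace (K := IsLocalRing.ResidueField A)
      (Finsupp.single (infPlaceC (IsLocalRing.ResidueField A) M') (a : ℤ)) :=
  tafr_coeff_mem_rr (IsLocalRing.ResidueField A) M' (inredFrobAut A σ hσ) (a : ℤ) hx

/-- `Φ c = c ^ ℓ` on constants -/
theorem tafr_hΦc (σ : Kbar ≃ₐ[ℚ] Kbar) {ℓ : ℕ} (hσ : A.IsFrobeniusAt σ ℓ)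
    (c : IsLocalRing.ResidueField A) :
    inredFrobC M' σ hσ (algebraMap (IsLocalRing.ResidueField A)
        (modularFunctionFieldFullC (IsLocalRing.ResidueField A) M') c)
      = algebraMap (IsLocalRing.ResidueField A)
        (modularFunctionFieldFullC (IsLocalRing.ResidueField A) M') (c ^ ℓ) := by
  apply Subtype.ext
  rw [coe_inredFrobC]
  show coeffMap _ (algebraMap (IsLocalRing.ResidueField A)
      (LaurentSeries (IsLocalRing.ResidueField A)) c)
    = algebraMap (IsLocalRing.ResidueField A) (LaurentSeries (IsLocalRing.ResidueField A)) (c ^ ℓ)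
  rw [← inredFrobAut_apply σ hσ c]
  exact coeffMap_algebraMap _ c

end Frob

section FrobChar

variable (M' : ℕ) [NeZero M'] {A : ValuationSubring Kbar}
variable (ℓ : ℕ) [Fact ℓ.Prime] [CharP (IsLocalRing.ResidueField A) ℓ]
  [PerfectRing (IsLocalRing.ResidueField A) ℓ] [NeZero ℓ]

/-- `Φ` is the coefficientwise Frobenius `frobK` -/
theorem tafr_eq_frobK (σ : Kbar ≃ₐ[ℚ] Kbar) (hσ : A.IsFrobeniusAt σ ℓ)
    (x : modularFunctionFieldFullC (IsLocalRing.ResidueField A) M') :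
    inredFrobC M' σ hσ x = frobK (IsLocalRing.ResidueField A) ℓ M' • x := by
  apply Subtype.ext
  rw [coe_inredFrobC_frobenius, coe_frobK_smul]

/-- the `k`-linear Frobenius and the coefficientwise Frobenius commute -/
theorem tafr_affFrobFk_frobK (x : modularFunctionFieldFullC (IsLocalRing.ResidueField A) M') :
    affFrobFk (IsLocalRing.ResidueField A) ℓ M' (frobK (IsLocalRing.ResidueField A) ℓ M' • x)
      = frobK (IsLocalRing.ResidueField A) ℓ M'
          • affFrobFk (IsLocalRing.ResidueField A) ℓ M' x := by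
  apply Subtype.ext
  show qExpand _ ℓ (coeffMap (frobenius _ ℓ) _) = coeffMap (frobenius _ ℓ) (qExpand _ ℓ _)
  rw [coeffMap_qExpand]

/-- **(hφΦ)**: `φ (Φ x) = x ^ ℓ`, `φ = affFrobFk` the `k`-linear Frobenius -/
theorem tafr_hφΦ (σ : Kbar ≃ₐ[ℚ] Kbar) (hσ : A.IsFrobeniusAt σ ℓ)
    (x : modularFunctionFieldFullC (IsLocalRing.ResidueField A) M') :
    affFrobFk (IsLocalRing.ResidueField A) ℓ M' (inredFrobC M' σ hσ x) = x ^ ℓ := by
  rw [tafr_eq_frobK, tafr_affFrobFk_frobK, frobK_smul_affFrobFk]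

end FrobChar

section FrobRed

variable (F₀ : IntermediateField ℚ (LaurentSeries ℚ)) (M' : ℕ)
variable {A : ValuationSubring Kbar}
variable {R : ConstRed A (IsLocalRing.residue A)
  (↥(modularFunctionFieldFullC (IsLocalRing.ResidueField A) M'))
  (↥(laurentBaseChange Kbar F₀))}

/-- **(b)** `IsFrobRed R∞ g Φ` for a Frobenius lift -/
theorem tafr_isFrobRed (hR : IsSeriesRed R)
    (hfrac : HasPrimFrac A (laurentBaseChange Kbar F₀))
    (σ : Kbar ≃ₐ[ℚ] Kbar) {ℓ : ℕ} (hσ : A.IsFrobeniusAt σ ℓ) :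
    IsFrobRed R (arithmeticGalois F₀ σ) (inredFrobC M' σ hσ) := by
  haveI : Algebra.IsAlgebraic ℚ Kbar := AlgebraicClosure.isAlgebraic ℚ
  refine ⟨fun c hc => ?_, inred_isRedEquivariant_frob F₀ M' hR hfrac σ hσ⟩
  rw [baseAut_arithmeticGalois]
  exact inred_decomp_div_mem A ⟨σ, hσ.mem_decompositionSubgroup⟩ hc

end FrobRed

section AtkinLehner

variable (N : ℕ) [NeZero N] (q : ℕ) (hq : q.Prime) (hqN : q ∣ N) (hq2 : ¬ q ^ 2 ∣ N) (M' : ℕ)
variable {A : ValuationSubring Kbar}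
variable {R : ConstRed A (IsLocalRing.residue A)
  (↥(modularFunctionFieldFullC (IsLocalRing.ResidueField A) M')) (FF N)}

/-- **(b)** `IsFrobRed R₀ g Φ` for a Frobenius lift -/
theorem tafr_isFrobRed_zero (hR : IsSeriesRed R)
    (hfrac : HasPrimFrac A (modularFunctionFieldBar N))
    (σ : Kbar ≃ₐ[ℚ] Kbar) {ℓ : ℕ} (hσ : A.IsFrobeniusAt σ ℓ) :
    IsFrobRed (inredZero N q hq hqN hq2 R) (galFF N σ) (inredFrobC M' σ hσ) := by
  haveI : Algebra.IsAlgebraic ℚ Kbar := AlgebraicClosure.isAlgebraic ℚ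
  refine ⟨fun c hc => ?_, inred_isRedEquivariant_frob_zero N q hq hqN hq2 M' hR hfrac σ hσ⟩
  rw [baseAut_arithmeticGalois]
  exact inred_decomp_div_mem A ⟨σ, hσ.mem_decompositionSubgroup⟩ hc

/-- `f3dDiv P∞ P₀ a b = cuspDiv a b` -/
theorem tafr_f3dDiv_eq_cuspDiv (a b : ℕ) :
    f3dDiv (infPlaceBar N) (cuspZero N q hq hqN hq2) a b
      = cuspDiv N q hq hqN hq2 (a : ℤ) (b : ℤ) := rfl

/-- **(hfix)**: the Galois action fixes `D₁ = P∞ + P₀` -/
theorem tafr_hfix (σ : Kbar ≃ₐ[ℚ] Kbar) (a b : ℕ) :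
    galFF N σ • f3dDiv (infPlaceBar N) (cuspZero N q hq hqN hq2) a b
      = f3dDiv (infPlaceBar N) (cuspZero N q hq hqN hq2) a b := by
  rw [tafr_f3dDiv_eq_cuspDiv, galFF_smul_cuspDiv]

/-- `g * g` acts on `R∞` through `Φ ∘ Φ` -/
theorem tafr_equivariant_sq (hR : IsSeriesRed R)
    (hfrac : HasPrimFrac A (modularFunctionFieldBar N))
    (σ : Kbar ≃ₐ[ℚ] Kbar) {ℓ : ℕ} (hσ : A.IsFrobeniusAt σ ℓ) :
    IsRedEquivariant R (galFF N σ * galFF N σ)
      ((inredFrobC M' σ hσ).comp (inredFrobC M' σ hσ)) :=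
  (inred_isRedEquivariant_frob (modularFunctionFieldFull N) M' hR hfrac σ hσ).mul
    (inred_isRedEquivariant_frob (modularFunctionFieldFull N) M' hR hfrac σ hσ)

/-- `g * g` acts on `R₀` through `Φ ∘ Φ` -/
theorem tafr_equivariant_sq_zero (hR : IsSeriesRed R)
    (hfrac : HasPrimFrac A (modularFunctionFieldBar N))
    (σ : Kbar ≃ₐ[ℚ] Kbar) {ℓ : ℕ} (hσ : A.IsFrobeniusAt σ ℓ) :
    IsRedEquivariant (inredZero N q hq hqN hq2 R) (galFF N σ * galFF N σ)
      ((inredFrobC M' σ hσ).comp (inredFrobC M' σ hσ)) :=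
  (inred_isRedEquivariant_frob_zero N q hq hqN hq2 M' hR hfrac σ hσ).mul
    (inred_isRedEquivariant_frob_zero N q hq hqN hq2 M' hR hfrac σ hσ)

/-- `galFF N (σ * σ) = galFF N σ * galFF N σ` -/
theorem tafr_galFF_sq (σ : Kbar ≃ₐ[ℚ] Kbar) : galFF N (σ * σ) = galFF N σ * galFF N σ :=
  map_mul _ σ σ

section Twist

variable [NeZero M']
variable [RRHyp Kbar (FF N)]
  [RRHyp (IsLocalRing.ResidueField A) (modularFunctionFieldFullC (IsLocalRing.ResidueField A) M')]

/-- **C12+**: the `TwistAut` of the square of a Frobenius lift, for a `GlueData` with the exports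
of `glueConc_frob` (`Φ = inredFrobC M' σ hσ`). -/
theorem tafr_twistAut (hR : IsSeriesRed R)
    (hfrac : HasPrimFrac A (modularFunctionFieldBar N))
    (σ : Kbar ≃ₐ[ℚ] Kbar) {ℓ : ℕ} (hσ : A.IsFrobeniusAt σ ℓ)
    (X : GlueData R (inredZero N q hq hqN hq2 R) (infPlaceBar N) (cuspZero N q hq hqN hq2)
      (infPlaceC (IsLocalRing.ResidueField A) M'))
    (he₁ : ∀ i (r : X.B) (h : inredFrobC M' σ hσ (inredFrobC M' σ hσ
        (r : modularFunctionFieldFullC (IsLocalRing.ResidueField A) M')) ∈ X.B),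
      X.e₁ i ⟨_, h⟩ = (X.e₁ i r) ^ (ℓ ^ 2))
    (he₂ : ∀ i (r : X.B) (h : inredFrobC M' σ hσ (inredFrobC M' σ hσ
        (r : modularFunctionFieldFullC (IsLocalRing.ResidueField A) M')) ∈ X.B),
      X.e₂ i ⟨_, h⟩ = (X.e₂ i r) ^ (ℓ ^ 2)) :
    TwistAut (SSRed.ofPair R (inredZero N q hq hqN hq2 R)) X.gluing
      (f3dDiv (infPlaceBar N) (cuspZero N q hq hqN hq2) 1 1)
      (galFF N σ * galFF N σ) (ℓ ^ 2) :=
  twistAut_of_equivariant X (galFF N σ * galFF N σ)
    ((inredFrobC M' σ hσ).comp (inredFrobC M' σ hσ)) (ℓ ^ 2)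
    (tafr_equivariant_sq N M' hR hfrac σ hσ)
    (tafr_equivariant_sq_zero N q hq hqN hq2 M' hR hfrac σ hσ)
    (by rw [mul_smul, tafr_hfix, tafr_hfix])
    (fun a x hx => tafr_hΦL M' σ hσ a _ (tafr_hΦL M' σ hσ a x hx))
    (fun i x hx hx' => he₁ i ⟨x, hx⟩ hx')
    (fun i x hx hx' => he₂ i ⟨x, hx⟩ hx')

end Twist

/-- `Φ (Φ c) = c ^ (ℓ ^ 2)` on constants -/
theorem tafr_hΦc_sq [NeZero M'] (σ : Kbar ≃ₐ[ℚ] Kbar) {ℓ : ℕ} (hσ : A.IsFrobeniusAt σ ℓ)
    (c : IsLocalRing.ResidueField A) :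
    ((inredFrobC M' σ hσ).comp (inredFrobC M' σ hσ))
        (algebraMap (IsLocalRing.ResidueField A)
          (modularFunctionFieldFullC (IsLocalRing.ResidueField A) M') c)
      = algebraMap (IsLocalRing.ResidueField A)
          (modularFunctionFieldFullC (IsLocalRing.ResidueField A) M') (c ^ (ℓ ^ 2)) := by
  rw [RingHom.comp_apply, tafr_hΦc, tafr_hΦc, ← pow_mul, pow_two]

/-- **(hgu)** of `tw_torK` for the square of a Frobenius lift: on elements with constant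
reductions, `red (σ² u) = (red u) ^ (ℓ ^ 2)`. -/
theorem tafr_hgu [NeZero M'] (hR : IsSeriesRed R)
    (hfrac : HasPrimFrac A (modularFunctionFieldBar N))
    (σ : Kbar ≃ₐ[ℚ] Kbar) {ℓ : ℕ} (hσ : A.IsFrobeniusAt σ ℓ)
    (u : (SSRed.ofPair R (inredZero N q hq hqN hq2 R)).O) (c c' : IsLocalRing.ResidueField A)
    (hu : (SSRed.ofPair R (inredZero N q hq hqN hq2 R)).red u
      = (algebraMap (IsLocalRing.ResidueField A)
          (modularFunctionFieldFullC (IsLocalRing.ResidueField A) M') c,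
        algebraMap (IsLocalRing.ResidueField A)
          (modularFunctionFieldFullC (IsLocalRing.ResidueField A) M') c'))
    (hm : (galFF N σ * galFF N σ) • (u : FF N)
      ∈ (SSRed.ofPair R (inredZero N q hq hqN hq2 R)).O) :
    (SSRed.ofPair R (inredZero N q hq hqN hq2 R)).red ⟨_, hm⟩
      = (SSRed.ofPair R (inredZero N q hq hqN hq2 R)).red u ^ (ℓ ^ 2) :=
  red_pow_of_equivariant (tafr_equivariant_sq N M' hR hfrac σ hσ)
    (tafr_equivariant_sq_zero N q hq hqN hq2 M' hR hfrac σ hσ)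
    (tafr_hΦc_sq M' σ hσ) u c c' hu hm

end AtkinLehner

end Fermat.Agent.S35lib

end
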