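/-
Item 82 (S35), piece `frob2K_of_package` (helper4): `Frob2K M' q m A` from the gluing package at
the level `M' q` (the inputs of helper19's `glueMod`), the norm reduction `NormRedCR` (G3a) and the
crux instance (C13).

Proof: helper15's `frob2_of_exInput` (`Frob2Top.lean`) with `B = affRing Q`, `Fr = affFrob`,
`Φ = inredFrobC M' σ hσ`, `g = galFF (M' q) σ` and the concrete Frobenius inputs `tafr_*`
(`TwistAutFrob.lean`).  Conventions of `GlueMod.lean` (`glmZero`, `cuspZero`, instance arguments).
(complete proofs)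
-/
import Mathlib
import Fermat.Agent.S34lib.GlueMod
import Fermat.Agent.S34lib.CruxInst
import Fermat.Agent.RRlib.Modular
import Fermat.Agent.GoodRed.ModRR
import Fermat.Agent.GoodRed.Echelon
import Fermat.Agent.S35lib.Frob2K
import Fermat.Agent.S35lib.Frob2Top
import Fermat.Agent.S35lib.TwistAutFrob

set_option autoImplicit false
set_option synthInstance.maxHeartbeats 400000
set_option linter.style.haveILetI false

noncomputable section

namespace Fermat.Agent.S35lib

open AlgebraicCurve Fermat.Agent.GoodRed ModularCurve HahnSeries Fermat.Agent.S24lib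
  Fermat.Agent.RRlib Fermat.Agent.S34lib Fermat.Agent.HeckeBar Fermat.Agent.S37lib

section Main

variable (M' q : ℕ) [NeZero M'] [NeZero q] [NeZero (M' * q)] (hq : q.Prime) (hqM : ¬ q ∣ M')
variable {A : ValuationSubring Kbar}

/-- `φ (Φ x) = x ^ q` for any `φ` with `q`-expansion `x ↦ x(X^q)` -/
theorem f2p_hφΦ [Fact q.Prime] [CharP (IsLocalRing.ResidueField A) q]
    [PerfectRing (IsLocalRing.ResidueField A) q]
    {φ : ↥(modularFunctionFieldFullC (IsLocalRing.ResidueField A) M') →+*
      ↥(modularFunctionFieldFullC (IsLocalRing.ResidueField A) M')}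
    (hφ : ∀ x : ↥(modularFunctionFieldFullC (IsLocalRing.ResidueField A) M'),
      ((φ x : ↥(modularFunctionFieldFullC (IsLocalRing.ResidueField A) M')) :
        LaurentSeries (IsLocalRing.ResidueField A)) =
        qExpand (IsLocalRing.ResidueField A) q
          (x : LaurentSeries (IsLocalRing.ResidueField A)))
    (σ : Kbar ≃ₐ[ℚ] Kbar) (hσ : A.IsFrobeniusAt σ q)
    (x : ↥(modularFunctionFieldFullC (IsLocalRing.ResidueField A) M')) :
    φ (inredFrobC M' σ hσ x) = x ^ q := by
  rw [← tafr_hφΦ M' q σ hσ x]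
  apply Subtype.ext
  rw [hφ]
  rfl

set_option maxHeartbeats 1000000 in
/-- **`Frob2K` from the package** (instance arguments as in `glueMod`). -/
theorem frob2K_of_package [Fact q.Prime] [CharP (IsLocalRing.ResidueField A) q]
    [IsAlgClosed (IsLocalRing.ResidueField A)]
    [RRHyp Kbar (FF (M' * q))]
    [RRHyp (IsLocalRing.ResidueField A)
      (↥(modularFunctionFieldFullC (IsLocalRing.ResidueField A) M'))]
    (hA : A.LiesOverPrime q)
    {R' : ConstRed A (IsLocalRing.residue A)
      (↥(modularFunctionFieldFullC (IsLocalRing.ResidueField A) M')) (FF M')}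
    {R : ConstRed A (IsLocalRing.residue A)
      (↥(modularFunctionFieldFullC (IsLocalRing.ResidueField A) M')) (FF (M' * q))}
    (hR : IsSeriesRed R) (hfrac : HasPrimFrac A (modularFunctionFieldBar (M' * q)))
    {α β : FF M' →+* FF (M' * q)}
    {φ : ↥(modularFunctionFieldFullC (IsLocalRing.ResidueField A) M') →+*
      ↥(modularFunctionFieldFullC (IsLocalRing.ResidueField A) M')}
    (hφ : ∀ x : ↥(modularFunctionFieldFullC (IsLocalRing.ResidueField A) M'),
      ((φ x : ↥(modularFunctionFieldFullC (IsLocalRing.ResidueField A) M')) :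
        LaurentSeries (IsLocalRing.ResidueField A)) =
        qExpand (IsLocalRing.ResidueField A) q
          (x : LaurentSeries (IsLocalRing.ResidueField A)))
    (Hex : ExInput R' R (glmZero M' q hq hqM R) α β (infPlaceBar M') (infPlaceBar (M' * q))
      (cuspZero (M' * q) q hq (dvd_mul_left q M') (inf_not_sq_dvd M' q hq hqM))
      (infPlaceC (IsLocalRing.ResidueField A) M') φ q)
    (hO : R.O ≠ (glmZero M' q hq hqM R).O)
    [IsDedekindDomain (affRing (infPlaceC (IsLocalRing.ResidueField A) M'))]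
    (hres : ∀ P : Ideal (affRing (infPlaceC (IsLocalRing.ResidueField A) M')), P.IsMaximal →
      Function.Surjective (algebraMap (IsLocalRing.ResidueField A)
        (affRing (infPlaceC (IsLocalRing.ResidueField A) M') ⧸ P)))
    (hlift : ∀ a : affRing (infPlaceC (IsLocalRing.ResidueField A) M'),
      ∃ (g : FF M') (hg : g ∈ R'.O),
        (∀ v' : Place Kbar (FF M'), v' ≠ infPlaceBar M' → 0 ≤ v'.ord g) ∧
          R'.red ⟨g, hg⟩ = (a : ↥(modularFunctionFieldFullC (IsLocalRing.ResidueField A) M')))
    (hgen : genusFF (IsLocalRing.ResidueField A)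
        (↥(modularFunctionFieldFullC (IsLocalRing.ResidueField A) M'))
      ≤ genusFF Kbar (FF M'))
    (hNR : ∀ (σ : Kbar ≃ₐ[ℚ] Kbar) (hσ : A.IsFrobeniusAt σ q),
      NormRedCR R' R (glmZero M' q hq hqM R) q
        (normAlong (heckeAlphaBar Kbar M' q)) (normAlong (heckeBetaBar Kbar M' q))
        (inredFrobC M' σ hσ))
    {m : ℕ} (hm : 0 < m)
    (hcrux : ∀ (X : GlueData R (glmZero M' q hq hqM R) (infPlaceBar (M' * q))
        (cuspZero (M' * q) q hq (dvd_mul_left q M') (inf_not_sq_dvd M' q hq hqM))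
        (infPlaceC (IsLocalRing.ResidueField A) M')) (a₀ a₁ : ℕ),
      F3dEX R (glmZero M' q hq hqM R) (infPlaceBar (M' * q))
        (cuspZero (M' * q) q hq (dvd_mul_left q M') (inf_not_sq_dvd M' q hq hqM))
        (infPlaceC (IsLocalRing.ResidueField A) M')
        (infPlaceC (IsLocalRing.ResidueField A) M') a₀ → a₀ ≤ a₁ →
      TwistHyp (SSRed.ofPair R (glmZero M' q hq hqM R)) X.gluing m
        (f3dDiv (infPlaceBar (M' * q))
          (cuspZero (M' * q) q hq (dvd_mul_left q M') (inf_not_sq_dvd M' q hq hqM)) 1 1) a₁ →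
      0 < X.n →
      ∃ (D₂ : Divisor Kbar (FF (M' * q))) (n₂ : ℕ)
        (f finv : (SSRed.ofPair R (glmZero M' q hq hqM R)).O),
        TwistCrux (SSRed.ofPair R (glmZero M' q hq hqM R)) X.gluing m
          (f3dDiv (infPlaceBar (M' * q))
            (cuspZero (M' * q) q hq (dvd_mul_left q M') (inf_not_sq_dvd M' q hq hqM)) 1 1)
          D₂ n₂ f finv) :
    Frob2K M' q m A := by
  classical
  intro σ hσ f hf hdiv hnew
  have key := frob2_of_exInput Hex (glm_surj M' q hq hqM hA hO)
    (affRing (infPlaceC (IsLocalRing.ResidueField A) M')) (glm_hB M') hres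
    (affFrob (IsLocalRing.ResidueField A) q M'
      (affRing (infPlaceC (IsLocalRing.ResidueField A) M')) (glm_hB M'))
    (glm_hFr M' q hφ)
    (affFrob_hpow (IsLocalRing.ResidueField A) q M' _ (glm_hB M'))
    (affFrob_hne (IsLocalRing.ResidueField A) q M' _ (glm_hB M'))
    hlift (glm_genus M' q hq hqM hgen)
    (inredFrobC M' σ hσ) (tafr_hΦL M' σ hσ)
    (fun r => f2p_hφΦ M' q hφ σ hσ r) (tafr_hΦc M' σ hσ)
    (galFF (M' * q) σ)
    (tafr_isFrobRed (modularFunctionFieldFull (M' * q)) M' hR hfrac σ hσ)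
    (tafr_isFrobRed_zero (M' * q) q hq (dvd_mul_left q M') (inf_not_sq_dvd M' q hq hqM) M'
      hR hfrac σ hσ)
    (tafr_hfix (M' * q) q hq (dvd_mul_left q M') (inf_not_sq_dvd M' q hq hqM) σ 1 1)
    (normAlong (heckeAlphaBar Kbar M' q)) (normAlong (heckeBetaBar Kbar M' q)) (hNR σ hσ)
    hm hcrux hf hdiv hnew.1 hnew.2
  unfold kummerFrob2 kummerSq
  rw [tafr_galFF_sq]
  exact key

include hq in
/-- the residue field of a place over `q` has characteristic `q` -/
theorem f2p_charP (hA : A.LiesOverPrime q) : CharP (IsLocalRing.ResidueField A) q := by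
  rw [CharP.charP_iff_prime_eq_zero hq]
  have hmem : (q : Kbar) ∈ A := A.nonunits_le hA
  have h1 : ((⟨(q : Kbar), hmem⟩ : A)) ∈ IsLocalRing.maximalIdeal A := by
    rw [IsLocalRing.mem_maximalIdeal, mem_nonunits_iff]
    intro hu
    have hA' : (q : Kbar) ∈ A.nonunits := hA
    rw [ValuationSubring.mem_nonunits_iff_exists_mem_maximalIdeal] at hA'
    obtain ⟨ha, hm⟩ := hA'
    rw [IsLocalRing.mem_maximalIdeal, mem_nonunits_iff] at hm
    exact hm hu
  have h2 : IsLocalRing.residue A (⟨(q : Kbar), hmem⟩ : A) = 0 :=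
    (IsLocalRing.residue_eq_zero_iff _).2 h1
  have h3 : ((⟨(q : Kbar), hmem⟩ : A)) = ((q : ℕ) : A) := by
    apply Subtype.ext
    simp
  rw [h3, map_natCast] at h2
  exact h2

set_option maxHeartbeats 1000000 in
/-- **`Frob2K` from the concrete inputs**: all instances, the Dedekind property and the rational
points of the affine ring (helper12) and the crux instance (helper16) are discharged; what remains
is `Hex` (C5), `R∞.O ≠ R₀.O` (C3b), lifting with pole control (C6), the genus inequality and
`NormRedCR` (G3a). -/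
theorem frob2K_of_inputs (hA : A.LiesOverPrime q)
    {R' : ConstRed A (IsLocalRing.residue A)
      (↥(modularFunctionFieldFullC (IsLocalRing.ResidueField A) M')) (FF M')}
    {R : ConstRed A (IsLocalRing.residue A)
      (↥(modularFunctionFieldFullC (IsLocalRing.ResidueField A) M')) (FF (M' * q))}
    (hR : IsSeriesRed R) (hfrac : HasPrimFrac A (modularFunctionFieldBar (M' * q)))
    {α β : FF M' →+* FF (M' * q)}
    {φ : ↥(modularFunctionFieldFullC (IsLocalRing.ResidueField A) M') →+*
      ↥(modularFunctionFieldFullC (IsLocalRing.ResidueField A) M')}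
    (hφ : ∀ x : ↥(modularFunctionFieldFullC (IsLocalRing.ResidueField A) M'),
      ((φ x : ↥(modularFunctionFieldFullC (IsLocalRing.ResidueField A) M')) :
        LaurentSeries (IsLocalRing.ResidueField A)) =
        qExpand (IsLocalRing.ResidueField A) q
          (x : LaurentSeries (IsLocalRing.ResidueField A)))
    (Hex : ExInput R' R (glmZero M' q hq hqM R) α β (infPlaceBar M') (infPlaceBar (M' * q))
      (cuspZero (M' * q) q hq (dvd_mul_left q M') (inf_not_sq_dvd M' q hq hqM))
      (infPlaceC (IsLocalRing.ResidueField A) M') φ q)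
    (hO : R.O ≠ (glmZero M' q hq hqM R).O)
    (hlift : ∀ a : affRing (infPlaceC (IsLocalRing.ResidueField A) M'),
      ∃ (g : FF M') (hg : g ∈ R'.O),
        (∀ v' : Place Kbar (FF M'), v' ≠ infPlaceBar M' → 0 ≤ v'.ord g) ∧
          R'.red ⟨g, hg⟩ = (a : ↥(modularFunctionFieldFullC (IsLocalRing.ResidueField A) M')))
    (hgen : genusFF (IsLocalRing.ResidueField A)
        (↥(modularFunctionFieldFullC (IsLocalRing.ResidueField A) M'))
      ≤ genusFF Kbar (FF M'))
    (hNR : ∀ (σ : Kbar ≃ₐ[ℚ] Kbar) (hσ : A.IsFrobeniusAt σ q),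
      NormRedCR R' R (glmZero M' q hq hqM R) q
        (normAlong (heckeAlphaBar Kbar M' q)) (normAlong (heckeBetaBar Kbar M' q))
        (inredFrobC M' σ hσ))
    {m : ℕ} (hm : 0 < m) (hmk : (m : IsLocalRing.ResidueField A) ≠ 0) :
    Frob2K M' q m A := by
  haveI : Fact q.Prime := ⟨hq⟩
  haveI : CharP (IsLocalRing.ResidueField A) q := f2p_charP q hq hA
  haveI : IsAlgClosed (IsLocalRing.ResidueField A) := isAlgClosed_residueField A
  haveI : RRHyp Kbar (FF (M' * q)) := mod_rrHyp (M' * q)
  haveI : RRHyp (IsLocalRing.ResidueField A)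
      (↥(modularFunctionFieldFullC (IsLocalRing.ResidueField A) M')) :=
    mr_rrHyp (IsLocalRing.ResidueField A) M'
  exact frob2K_of_package M' q hq hqM hA hR hfrac hφ Hex hO
    (fun P hP => affRing_residue_surjective _ P hP) hlift hgen hNR hm
    (fun X a₀ a₁ H ha hyp hn => X.twistCrux H ha hyp hmk
      (infPlaceBar_ne_cuspZero (M' * q) q hq (dvd_mul_left q M') (inf_not_sq_dvd M' q hq hqM)) hn)

end Main

end Fermat.Agent.S35lib

end
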