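import Mathlib
import Fermat.Agent.S35lib.DescK
import Fermat.Agent.S35lib.DegJKFinal

/-!
# Item 82 (S35): `FrobNewAt` at every level from APPLY-F

`ApplyFStatement` is the statement of piece G5 (APPLY-F): the Kummer form `Frob2K` of FROB2 at the
auxiliary levels.  `frobNewAt_of_applyF`: `FrobNewAt (M' * q) M' S p q 1 1` for all `M'` prime to
`q`, from `ApplyFStatement`, by the descent G2 (`frob2K_of_frob2K_aux`) and the bridge G1
(`frobNewAt_of_frob2K_all`).
-/

set_option autoImplicit false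

namespace Fermat.Agent.S35lib

open AlgebraicCurve ModularCurve
open Fermat.Agent.S24lib Fermat.Agent.GM

/-- the statement of piece G5 (APPLY-F): the Kummer form of FROB2 at the auxiliary levels. -/
def ApplyFStatement : Prop :=
  ∀ (q M' p n : ℕ) [NeZero M'] [NeZero q], q.Prime → p.Prime → q ≠ p → IsAuxLevel q M' →
    ∀ A : ValuationSubring Kbar, A.LiesOverPrime q → Frob2K M' q (p ^ n) A

/-- `Frob2K` at every level prime to `q`, from APPLY-F. -/
theorem frob2K_of_applyF (hE : ApplyFStatement) (M' q p n : ℕ) [NeZero M'] [NeZero q]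
    (hq : q.Prime) (hp : p.Prime) (hqp : q ≠ p) (hqM : ¬ q ∣ M')
    (A : ValuationSubring Kbar) (hA : A.LiesOverPrime q) : Frob2K M' q (p ^ n) A :=
  frob2K_of_frob2K_aux q hq (p ^ n) A (fun M'' _ haux => hE q M'' p n hq hp hqp haux A hA) M' hqM

/-- `FrobNewAt` with exponents `1, 1` at every level `M' q`, `q ∤ M'`, from APPLY-F. -/
theorem frobNewAt_of_applyF (hE : ApplyFStatement) (M' q p : ℕ) [NeZero M'] [NeZero q]
    [NeZero (M' * q)] (hq : q.Prime) (hp : p.Prime) (hqp : q ≠ p) (hqM : ¬ q ∣ M')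
    (S : Finset ℕ) : FrobNewAt (M' * q) M' S p q 1 1 :=
  frobNewAt_of_frob2K_all M' hq hqM p hp.ne_zero S
    (fun A hA n => frob2K_of_applyF hE M' q p n hq hp hqp hqM A hA)

end Fermat.Agent.S35lib
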