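import Mathlib
import Fermat.Agent.S35lib.NormRedBiNF
import Fermat.Agent.S35lib.NormNew
import Fermat.Agent.GoodRed.DescTower
import Fermat.Agent.S34lib.InertiaRed
import Fermat.Agent.S34lib.InertiaRedAL
import Fermat.Agent.S34lib.InertiaRedFrob
import Fermat.Agent.S34lib.InfPlaceAL

/-!
# Item 82 (S35), piece G3a (NORM-RED-CR): the reduction of the two norms (helper29)

`normRedCR` proves `NormRedCR R' R (inredZero R) q (normAlong α) (normAlong β) (inredFrobC M' σ hσ)`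
(`def NormRedCR` of `NormNew.lean`): for `f ≠ 0` in `F_{M'q}`, scaled by `c₁` to a unit of `R.O`
(the valuation `v_∞`) and by `c₂` to a unit of `R₀.O` (the valuation `v_0 = v_∞ ∘ w_q`),

  `red' (c₁ c₂^q · Nm_α f) = red (c₁ f) · Φ (red₀ (c₂ f))`,
  `red' (c₂ c₁^q · Nm_β f) = red₀ (c₂ f) · Φ (red (c₁ f))`.

Proof: `f = x / x'` with `x`, `x'` bi-`NFInt` (`nrc_exists_frac`); for such `x` both expansions are
constants times primitive series and the two norms are the corresponding constants times integral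
series with reductions `ȳ₁ · Fr ȳ₂`, `ȳ₂ · Fr ȳ₁` (`nrc_norm_prim`, from N1 `normProd` and N2
`normRed_core`); the constants of the quotient are units of `A` (`nrc_unit_quot`), and the
reductions are glued by `nrc_glue`.

* `normRedCR_of_al`: general form (`w` any `K`-automorphism exchanging `α` and `β`, `Φ` any ring
  endomorphism of `Fk` acting as the coefficient Frobenius);
* `normRedCR`: concrete form; `nrc_expChar`: `ExpChar (ResidueField A) q` from `A.LiesOverPrime q`;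
* `nrc_inredFrobC_algebraMap`: `Φ` maps constants to constants.
-/

set_option autoImplicit false
set_option linter.style.haveILetI false
set_option linter.unusedSectionVars false

noncomputable section

namespace Fermat.Agent.S35lib

open ModularCurve AlgebraicCurve HahnSeries
open Fermat.Agent.S24lib Fermat.Agent.HeckeBar Fermat.Agent.S37lib Fermat.Agent.GoodRed

section Abstract

variable {K k F Fk : Type*} [Field K] [Field k] [Field F] [Field Fk] [Algebra K F] [Algebra k Fk]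
variable {A : ValuationSubring K} {π : A →+* k} (R : ConstRed A π Fk F)

/-- the reduction of zero -/
theorem nrc_red_of_eq_zero {x : F} (hx : x ∈ R.O) (h0 : x = 0) : R.red ⟨x, hx⟩ = 0 := by
  subst h0
  exact map_zero R.red

/-- a constant of `A` times a quotient of an element of `O` by a unit of `O` lies in `O` -/
theorem nrc_mem_of_quot {G z z' : F} {d : K} (hd : d ∈ A) (hz0' : z' ≠ 0) (hz : z ∈ R.O)
    (hz' : z' ∈ R.O) (hzi' : z'⁻¹ ∈ R.O) (h : G * z' = algebraMap K F d * z) :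
    ∃ hG : G ∈ R.O,
      R.red ⟨G, hG⟩ * R.red ⟨z', hz'⟩ = algebraMap k Fk (π ⟨d, hd⟩) * R.red ⟨z, hz⟩ := by
  have hdO : algebraMap K F d ∈ R.O := (R.algebraMap_mem_iff d).mpr hd
  have hG : G ∈ R.O := by
    have e : G = algebraMap K F d * z * z'⁻¹ := by
      rw [← h, mul_assoc, mul_inv_cancel₀ hz0', mul_one]
    rw [e]
    exact R.O.mul_mem _ _ (R.O.mul_mem _ _ hdO hz) hzi'
  refine ⟨hG, ?_⟩
  have e : (⟨G, hG⟩ : R.O) * ⟨z', hz'⟩ = ⟨algebraMap K F d, hdO⟩ * ⟨z, hz⟩ := Subtype.ext h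
  have h1 := congrArg R.red e
  rw [map_mul, map_mul] at h1
  rw [h1]
  congr 1
  exact R.red_algebraMap ⟨d, hd⟩

/-- a unit of `O` which is a constant times a quotient of two units of `O`: the constant is a
unit of `A` -/
theorem nrc_unit_quot {g y y' : F} {d : K} (hg0 : g ≠ 0) (hg : g ∈ R.O) (hg' : g⁻¹ ∈ R.O)
    (hy0 : y ≠ 0) (hy : y ∈ R.O) (hyi : y⁻¹ ∈ R.O) (hz0 : y' ≠ 0) (hz : y' ∈ R.O)
    (hzi : y'⁻¹ ∈ R.O) (h : g * y' = algebraMap K F d * y) :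
    ∃ hd : d ∈ A, d⁻¹ ∈ A ∧ d ≠ 0 ∧
      R.red ⟨g, hg⟩ * R.red ⟨y', hz⟩ = algebraMap k Fk (π ⟨d, hd⟩) * R.red ⟨y, hy⟩ := by
  have hd0 : d ≠ 0 := by
    rintro rfl
    rw [map_zero, zero_mul] at h
    exact mul_ne_zero hg0 hz0 h
  have hdF : algebraMap K F d ≠ 0 := (map_ne_zero _).mpr hd0
  have hd : d ∈ A := by
    rw [← R.algebraMap_mem_iff]
    have e : algebraMap K F d = g * y' * y⁻¹ := by
      rw [h, mul_assoc, mul_inv_cancel₀ hy0, mul_one]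
    rw [e]
    exact R.O.mul_mem _ _ (R.O.mul_mem _ _ hg hz) hyi
  have hd' : d⁻¹ ∈ A := by
    rw [← R.algebraMap_mem_iff]
    have e : algebraMap K F d⁻¹ = g⁻¹ * y'⁻¹ * y := by
      rw [map_inv₀]
      have e2 : algebraMap K F d = g * y' * y⁻¹ := by
        rw [h, mul_assoc, mul_inv_cancel₀ hy0, mul_one]
      rw [e2]
      field_simp
    rw [e]
    exact R.O.mul_mem _ _ (R.O.mul_mem _ _ hg' hzi) hy
  refine ⟨hd, hd', hd0, ?_⟩
  obtain ⟨_, hred⟩ := nrc_mem_of_quot R hd hz0 hy hz hzi h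
  exact hred

/-- the gluing step: from the two scalings and the reduction of the norms of numerator and
denominator to the reduction of the norm of the quotient -/
theorem nrc_glue {F' : Type*} [Field F'] [Algebra K F'] (R' : ConstRed A π Fk F') (q : ℕ)
    (Φ : Fk →+* Fk) (hΦc : ∀ c : k, Φ (algebraMap k Fk c) = algebraMap k Fk (c ^ q))
    {a b r₁ r₁' r₂ r₂' : Fk} {u₁ u₂ : K} (hu₁ : u₁ ∈ A) (hu₂ : u₂ ∈ A)
    (ha : a * r₁' = algebraMap k Fk (π ⟨u₁, hu₁⟩) * r₁)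
    (hb : b * r₂' = algebraMap k Fk (π ⟨u₂, hu₂⟩) * r₂)
    (hr₁' : r₁' ≠ 0) (hr₂' : r₂' ≠ 0)
    {G Z Z' : F'} (hZ : Z ∈ R'.O) (hZ' : Z' ∈ R'.O) (hZ'0 : Z' ≠ 0) (hZi' : Z'⁻¹ ∈ R'.O)
    (hG : G * Z' = algebraMap K F' (u₁ * u₂ ^ q) * Z)
    (hrZ : R'.red ⟨Z, hZ⟩ = r₁ * Φ r₂) (hrZ' : R'.red ⟨Z', hZ'⟩ = r₁' * Φ r₂') :
    ∃ h : G ∈ R'.O, R'.red ⟨G, h⟩ = a * Φ b := by
  have hd : u₁ * u₂ ^ q ∈ A := A.mul_mem _ _ hu₁ (pow_mem hu₂ q)
  obtain ⟨h, hred⟩ := nrc_mem_of_quot R' hd hZ'0 hZ hZ' hZi' hG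
  refine ⟨h, ?_⟩
  have hπ : π ⟨u₁ * u₂ ^ q, hd⟩ = π ⟨u₁, hu₁⟩ * π ⟨u₂, hu₂⟩ ^ q := by
    rw [← map_pow, ← map_mul]
    rfl
  have hΦb : Φ b * Φ r₂' = algebraMap k Fk (π ⟨u₂, hu₂⟩ ^ q) * Φ r₂ := by
    rw [← map_mul, hb, map_mul, hΦc]
  have hne : r₁' * Φ r₂' ≠ 0 :=
    mul_ne_zero hr₁' ((map_ne_zero Φ).mpr hr₂')
  apply mul_right_cancel₀ hne
  have e : a * Φ b * (r₁' * Φ r₂') = (a * r₁') * (Φ b * Φ r₂') := by ring
  have h2 : R'.red ⟨G, h⟩ * (r₁' * Φ r₂')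
      = algebraMap k Fk (π ⟨u₁, hu₁⟩ * π ⟨u₂, hu₂⟩ ^ q) * (r₁ * Φ r₂) := by
    rw [← hrZ', hred, hrZ, hπ]
  rw [e, ha, hΦb, h2, map_mul]
  ring

end Abstract

section Series

variable {K : Type*} [Field K] {F : IntermediateField K (LaurentSeries K)}

/-- if `g = C e · Y ∈ F` with `e ≠ 0` then `Y ∈ F` -/
theorem nrc_mem_of_C_mul {e : K} (he : e ≠ 0) {g Y : LaurentSeries K} (hg : g ∈ F)
    (h : g = HahnSeries.C e * Y) : Y ∈ F := by
  have : Y = HahnSeries.C e⁻¹ * g := by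
    rw [h, ← mul_assoc, ← map_mul, inv_mul_cancel₀ he, map_one, one_mul]
  rw [this]
  exact mul_mem (C_mem_intermediateField F _) hg

end Series


section Norm

variable (N ℓ : ℕ) [NeZero N] [NeZero ℓ] (A : ValuationSubring Kbar)
variable [ExpChar (IsLocalRing.ResidueField A) ℓ]

/-- the product over the twists of a constant multiple -/
theorem nrc_prod_twq (ζ : Kbarˣ) (e : Kbar) (Y : LaurentSeries Kbar) :
    ∏ b ∈ Finset.range ℓ, twq (ζ ^ b) (HahnSeries.C e * Y)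
      = HahnSeries.C (e ^ ℓ) * ∏ b ∈ Finset.range ℓ, twq (ζ ^ b) Y := by
  rw [Finset.prod_congr rfl (fun b _ => by rw [map_mul, nrc_twq_C] :
    ∀ b ∈ Finset.range ℓ, twq (ζ ^ b) (HahnSeries.C e * Y)
      = HahnSeries.C e * twq (ζ ^ b) Y), Finset.prod_mul_distrib, Finset.prod_const,
    Finset.card_range, map_pow]

variable {N ℓ A}

/-- **the norms of a bi-`NFInt` element**: both expansions are constants times primitive series
`y₁`, `y₂`, and the two norms are the corresponding constants times integral series reducing to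
`ȳ₁ · Fr ȳ₂` and `ȳ₂ · Fr ȳ₁`. -/
theorem nrc_norm_prim (hℓ : ℓ.Prime) (hℓN : ¬ ℓ ∣ N) (hlt : A.valuation (ℓ : Kbar) < 1)
    (E₀ : FF (N * ℓ) →+* LaurentSeries Kbar)
    (hc : ∀ c : Kbar, E₀ (algebraMap Kbar (FF (N * ℓ)) c) = algebraMap Kbar (LaurentSeries Kbar) c)
    (hα : ∀ Y : FF N, E₀ (heckeAlphaBar Kbar N ℓ Y) = qExpand Kbar ℓ (Y : LaurentSeries Kbar))
    (hβ : ∀ Y : FF N, E₀ (heckeBetaBar Kbar N ℓ Y) = (Y : LaurentSeries Kbar))
    (x : FF (N * ℓ)) (hx0 : x ≠ 0) (hx : BiNF N ℓ A E₀ x) :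
    ∃ (e₁ e₂ : Kbar) (y₁ y₂ zα zβ : LaurentSeries A), e₁ ≠ 0 ∧ e₂ ≠ 0 ∧
      coeffMap (IsLocalRing.residue A) y₁ ≠ 0 ∧ coeffMap (IsLocalRing.residue A) y₂ ≠ 0 ∧
      (x : LaurentSeries Kbar) = HahnSeries.C e₁ * coeffMap A.subtype y₁ ∧
      E₀ x = HahnSeries.C e₂ * coeffMap A.subtype y₂ ∧
      ((normAlong (heckeAlphaBar Kbar N ℓ) x : FF N) : LaurentSeries Kbar)
        = HahnSeries.C (e₁ * e₂ ^ ℓ) * coeffMap A.subtype zα ∧
      coeffMap (IsLocalRing.residue A) zα = coeffMap (IsLocalRing.residue A) y₁ *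
        coeffMap (frobenius (IsLocalRing.ResidueField A) ℓ)
          (coeffMap (IsLocalRing.residue A) y₂) ∧
      ((normAlong (heckeBetaBar Kbar N ℓ) x : FF N) : LaurentSeries Kbar)
        = HahnSeries.C (e₂ * e₁ ^ ℓ) * coeffMap A.subtype zβ ∧
      coeffMap (IsLocalRing.residue A) zβ = coeffMap (IsLocalRing.residue A) y₂ *
        coeffMap (frobenius (IsLocalRing.ResidueField A) ℓ)
          (coeffMap (IsLocalRing.residue A) y₁) := by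
  have hx1 : (x : LaurentSeries Kbar) ≠ 0 := fun h => hx0 (Subtype.ext h)
  have hx2 : E₀ x ≠ 0 := fun h => hx0 (E₀.injective (h.trans (map_zero E₀).symm))
  obtain ⟨e₁, y₁, he₁, -, hp₁, -, heq₁⟩ := hx.1.exists_primitive hℓ hlt hx1
  obtain ⟨e₂, y₂, he₂, -, hp₂, -, heq₂⟩ := hx.2.exists_primitive hℓ hlt hx2
  obtain ⟨E₁, hc₁, hα₁, hβ₁, hA, hB⟩ := normProd N ℓ hℓ hℓN
  have hE : E₁ = E₀ := fe0_unique N ℓ hℓ E₁ E₀ hc₁ hα₁ hβ₁ hc hα hβ
  subst hE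
  have : NeZero ((ℓ : ℕ) : ℚ) := ⟨by exact_mod_cast NeZero.ne ℓ⟩
  obtain ⟨ζ0, hζ0⟩ := HasEnoughRootsOfUnity.exists_primitiveRoot (AlgebraicClosure ℚ) ℓ
  have hunit : IsUnit ζ0 := hζ0.isUnit (NeZero.ne ℓ)
  obtain ⟨ζ, rfl⟩ := hunit
  have hd1 : e₁ * e₂ ^ ℓ ≠ 0 := mul_ne_zero he₁ (pow_ne_zero _ he₂)
  have hd2 : e₂ * e₁ ^ ℓ ≠ 0 := mul_ne_zero he₂ (pow_ne_zero _ he₁)
  -- the `α`-norm
  have keyA : qExpand Kbar ℓ
        ((normAlong (heckeAlphaBar Kbar N ℓ) x : FF N) : LaurentSeries Kbar)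
      = qExpand Kbar ℓ (x : LaurentSeries Kbar) * ∏ b ∈ Finset.range ℓ, twq (ζ ^ b) (E₁ x) :=
    hA ζ hζ0 x
  rw [heq₁, heq₂, map_mul, qExpand_C, nrc_prod_twq] at keyA
  have hZA : qExpand Kbar ℓ (HahnSeries.C (e₁ * e₂ ^ ℓ)⁻¹ *
        ((normAlong (heckeAlphaBar Kbar N ℓ) x : FF N) : LaurentSeries Kbar))
      = qExpand Kbar ℓ (coeffMap A.subtype y₁)
        * ∏ b ∈ Finset.range ℓ, twq (ζ ^ b) (coeffMap A.subtype y₂) := by
    rw [map_mul, qExpand_C]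
    rw [keyA]
    have e : HahnSeries.C (e₁ * e₂ ^ ℓ)⁻¹ * (HahnSeries.C e₁ * qExpand Kbar ℓ (coeffMap A.subtype y₁) *
        (HahnSeries.C (e₂ ^ ℓ) * ∏ b ∈ Finset.range ℓ, twq (ζ ^ b) (coeffMap A.subtype y₂)))
        = HahnSeries.C ((e₁ * e₂ ^ ℓ)⁻¹ * (e₁ * e₂ ^ ℓ)) * (qExpand Kbar ℓ (coeffMap A.subtype y₁) *
          ∏ b ∈ Finset.range ℓ, twq (ζ ^ b) (coeffMap A.subtype y₂)) := by
      rw [map_mul, map_mul]
      ring
    rw [e, inv_mul_cancel₀ hd1, map_one, one_mul]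
  obtain ⟨zα, hzα, hrα⟩ := normRed_core A ℓ hℓ ζ hζ0.pow_eq_one y₁ y₂ _ hZA
  -- the `β`-norm
  have keyB : qExpand Kbar ℓ
        ((normAlong (heckeBetaBar Kbar N ℓ) x : FF N) : LaurentSeries Kbar)
      = qExpand Kbar ℓ (E₁ x) * ∏ b ∈ Finset.range ℓ, twq (ζ ^ b) (x : LaurentSeries Kbar) :=
    hB ζ hζ0 x
  rw [heq₁, heq₂, map_mul, qExpand_C, nrc_prod_twq] at keyB
  have hZB : qExpand Kbar ℓ (HahnSeries.C (e₂ * e₁ ^ ℓ)⁻¹ *
        ((normAlong (heckeBetaBar Kbar N ℓ) x : FF N) : LaurentSeries Kbar))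
      = qExpand Kbar ℓ (coeffMap A.subtype y₂)
        * ∏ b ∈ Finset.range ℓ, twq (ζ ^ b) (coeffMap A.subtype y₁) := by
    rw [map_mul, qExpand_C]
    rw [keyB]
    have e : HahnSeries.C (e₂ * e₁ ^ ℓ)⁻¹ * (HahnSeries.C e₂ * qExpand Kbar ℓ (coeffMap A.subtype y₂) *
        (HahnSeries.C (e₁ ^ ℓ) * ∏ b ∈ Finset.range ℓ, twq (ζ ^ b) (coeffMap A.subtype y₁)))
        = HahnSeries.C ((e₂ * e₁ ^ ℓ)⁻¹ * (e₂ * e₁ ^ ℓ)) * (qExpand Kbar ℓ (coeffMap A.subtype y₂) *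
          ∏ b ∈ Finset.range ℓ, twq (ζ ^ b) (coeffMap A.subtype y₁)) := by
      rw [map_mul, map_mul]
      ring
    rw [e, inv_mul_cancel₀ hd2, map_one, one_mul]
  obtain ⟨zβ, hzβ, hrβ⟩ := normRed_core A ℓ hℓ ζ hζ0.pow_eq_one y₂ y₁ _ hZB
  refine ⟨e₁, e₂, y₁, y₂, zα, zβ, he₁, he₂, hp₁, hp₂, heq₁, heq₂, ?_, hrα, ?_, hrβ⟩
  · rw [hzα, ← mul_assoc, ← map_mul, mul_inv_cancel₀ hd1, map_one, one_mul]
  · rw [hzβ, ← mul_assoc, ← map_mul, mul_inv_cancel₀ hd2, map_one, one_mul]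

end Norm


section Main

variable (N ℓ : ℕ) [NeZero N] [NeZero ℓ] {A : ValuationSubring Kbar}
variable [ExpChar (IsLocalRing.ResidueField A) ℓ]
variable {Fk : IntermediateField (IsLocalRing.ResidueField A)
  (LaurentSeries (IsLocalRing.ResidueField A))}

/-- a primitive integral series of `F` is a unit of `O`, with the coefficientwise reduction -/
theorem nrc_unit_data {F : IntermediateField Kbar (LaurentSeries Kbar)}
    {R : ConstRed A (IsLocalRing.residue A) (↥Fk) (↥F)} (hR : IsSeriesRed R)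
    (y : LaurentSeries A) (hy : coeffMap A.subtype y ∈ F)
    (hp : coeffMap (IsLocalRing.residue A) y ≠ 0) :
    (⟨coeffMap A.subtype y, hy⟩ : ↥F) ≠ 0 ∧
    ∃ h : (⟨coeffMap A.subtype y, hy⟩ : ↥F) ∈ R.O, (⟨coeffMap A.subtype y, hy⟩ : ↥F)⁻¹ ∈ R.O ∧
      ((R.red ⟨_, h⟩ : ↥Fk) : LaurentSeries (IsLocalRing.ResidueField A))
        = coeffMap (IsLocalRing.residue A) y ∧ R.red ⟨_, h⟩ ≠ 0 := by
  refine ⟨?_, hR.mem y hy, hR.inv_mem y hy hp, hR.red y hy, ?_⟩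
  · intro h0
    have h1 : coeffMap A.subtype y = 0 := congrArg Subtype.val h0
    have h2 : y = 0 := coeffMap_valSubtype_injective A (by rw [h1, map_zero])
    exact hp (by rw [h2, map_zero])
  · intro h0
    apply hp
    rw [← hR.red y hy, h0]
    rfl

/-- field bookkeeping: `f = x / x'`, `x = E Y`, `x' = E' Y'` -/
theorem nrc_quot_eq {F : Type*} [Field F] {f x x' Y Y' C E E' : F} (hE' : E' ≠ 0)
    (hfx : f * x' = x) (hx : x = E * Y) (hx' : x' = E' * Y') :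
    C * f * Y' = (C * E / E') * Y := by
  rw [div_mul_eq_mul_div, eq_div_iff hE']
  have h1 : f * (E' * Y') = E * Y := by rw [← hx', hfx, hx]
  linear_combination C * h1

/-- **(NR)**, piece G3a of item 82: the reduction of the two norms, for the pair
`(R, inredComap R w)` where `w` exchanges the two degeneracy maps. -/
theorem normRedCR_of_al (hℓ : ℓ.Prime) (hℓN : ¬ ℓ ∣ N) (hlt : A.valuation (ℓ : Kbar) < 1)
    (R' : ConstRed A (IsLocalRing.residue A) (↥Fk) (FF N)) (hR' : IsSeriesRed R')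
    (R : ConstRed A (IsLocalRing.residue A) (↥Fk) (FF (N * ℓ))) (hR : IsSeriesRed R)
    (w : FF (N * ℓ) ≃ₐ[Kbar] FF (N * ℓ))
    (hwα : ∀ Y : FF N, w (heckeAlphaBar Kbar N ℓ Y) = heckeBetaBar Kbar N ℓ Y)
    (hwβ : ∀ Y : FF N, w (heckeBetaBar Kbar N ℓ Y) = heckeAlphaBar Kbar N ℓ Y)
    (Φ : Fk →+* Fk)
    (hΦ : ∀ y : Fk, ((Φ y : Fk) : LaurentSeries (IsLocalRing.ResidueField A))
      = coeffMap (frobenius (IsLocalRing.ResidueField A) ℓ)
          (y : LaurentSeries (IsLocalRing.ResidueField A))) :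
    NormRedCR R' R (Fermat.Agent.S34lib.inredComap R w) ℓ (normAlong (heckeAlphaBar Kbar N ℓ))
      (normAlong (heckeBetaBar Kbar N ℓ)) Φ := by
  classical
  -- the second expansion
  let E₀ : FF (N * ℓ) →+* LaurentSeries Kbar :=
    ((modularFunctionFieldBar (N * ℓ)).val : FF (N * ℓ) →+* LaurentSeries Kbar).comp
      ((w : FF (N * ℓ) →ₐ[Kbar] FF (N * ℓ)) : FF (N * ℓ) →+* FF (N * ℓ))
  have hE₀ : ∀ x, E₀ x = ((w x : FF (N * ℓ)) : LaurentSeries Kbar) := fun x => rfl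
  have hc : ∀ c : Kbar, E₀ (algebraMap Kbar (FF (N * ℓ)) c)
      = algebraMap Kbar (LaurentSeries Kbar) c := by
    intro c
    rw [hE₀, AlgEquiv.commutes]
    rfl
  have hα : ∀ Y : FF N, E₀ (heckeAlphaBar Kbar N ℓ Y)
      = qExpand Kbar ℓ (Y : LaurentSeries Kbar) := by
    intro Y
    rw [hE₀, hwα, coe_heckeBetaBar]
  have hβ : ∀ Y : FF N, E₀ (heckeBetaBar Kbar N ℓ Y) = (Y : LaurentSeries Kbar) := by
    intro Y
    rw [hE₀, hwβ, coe_heckeAlphaBar]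
  -- `Φ` on constants
  have hΦc : ∀ c : IsLocalRing.ResidueField A,
      Φ (algebraMap (IsLocalRing.ResidueField A) Fk c)
        = algebraMap (IsLocalRing.ResidueField A) Fk (c ^ ℓ) := by
    intro c
    apply Subtype.ext
    rw [hΦ, coe_algebraMap_eq_C, coe_algebraMap_eq_C, coeffMap_C, frobenius_def]
  have hFr : ∀ s : LaurentSeries (IsLocalRing.ResidueField A), s ≠ 0 →
      coeffMap (frobenius (IsLocalRing.ResidueField A) ℓ) s ≠ 0 := fun s hs =>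
    (map_ne_zero (coeffMap (frobenius (IsLocalRing.ResidueField A) ℓ))).mpr hs
  intro f hf c₁ c₂ h₁ h₁' h₂ h₂'
  have hℓ0 : ℓ ≠ 0 := NeZero.ne ℓ
  -- the degenerate cases
  by_cases hc₁ : c₁ = 0
  · have e1 : R.red ⟨algebraMap Kbar (FF (N * ℓ)) c₁ * f, h₁⟩ = 0 :=
      nrc_red_of_eq_zero R h₁ (by rw [hc₁, map_zero, zero_mul])
    have hG : algebraMap Kbar (FF N) (c₁ * c₂ ^ ℓ) * normAlong (heckeAlphaBar Kbar N ℓ) f = 0 := by
      rw [hc₁, zero_mul, map_zero, zero_mul]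
    have hG' : algebraMap Kbar (FF N) (c₂ * c₁ ^ ℓ) * normAlong (heckeBetaBar Kbar N ℓ) f = 0 := by
      rw [hc₁, zero_pow hℓ0, mul_zero, map_zero, zero_mul]
    have hm : algebraMap Kbar (FF N) (c₁ * c₂ ^ ℓ) * normAlong (heckeAlphaBar Kbar N ℓ) f
        ∈ R'.O := by rw [hG]; exact R'.O.zero_mem
    have hm' : algebraMap Kbar (FF N) (c₂ * c₁ ^ ℓ) * normAlong (heckeBetaBar Kbar N ℓ) f
        ∈ R'.O := by rw [hG']; exact R'.O.zero_mem
    refine ⟨⟨hm, ?_⟩, ⟨hm', ?_⟩⟩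
    · rw [nrc_red_of_eq_zero R' hm hG, e1, zero_mul]
    · rw [nrc_red_of_eq_zero R' hm' hG', e1, map_zero, mul_zero]
  by_cases hc₂ : c₂ = 0
  · have e2 : (Fermat.Agent.S34lib.inredComap R w).red
        ⟨algebraMap Kbar (FF (N * ℓ)) c₂ * f, h₂⟩ = 0 :=
      nrc_red_of_eq_zero _ h₂ (by rw [hc₂, map_zero, zero_mul])
    have hG : algebraMap Kbar (FF N) (c₁ * c₂ ^ ℓ) * normAlong (heckeAlphaBar Kbar N ℓ) f = 0 := by
      rw [hc₂, zero_pow hℓ0, mul_zero, map_zero, zero_mul]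
    have hG' : algebraMap Kbar (FF N) (c₂ * c₁ ^ ℓ) * normAlong (heckeBetaBar Kbar N ℓ) f = 0 := by
      rw [hc₂, zero_mul, map_zero, zero_mul]
    have hm : algebraMap Kbar (FF N) (c₁ * c₂ ^ ℓ) * normAlong (heckeAlphaBar Kbar N ℓ) f
        ∈ R'.O := by rw [hG]; exact R'.O.zero_mem
    have hm' : algebraMap Kbar (FF N) (c₂ * c₁ ^ ℓ) * normAlong (heckeBetaBar Kbar N ℓ) f
        ∈ R'.O := by rw [hG']; exact R'.O.zero_mem
    refine ⟨⟨hm, ?_⟩, ⟨hm', ?_⟩⟩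
    · rw [nrc_red_of_eq_zero R' hm hG, e2, map_zero, mul_zero]
    · rw [nrc_red_of_eq_zero R' hm' hG', e2, zero_mul]
  obtain ⟨x, x', hx'0, hx, hxx', hfx⟩ := nrc_exists_frac N ℓ A E₀ hℓ hα hβ f
  have hx0 : x ≠ 0 := by rw [← hfx]; exact mul_ne_zero hf hx'0
  obtain ⟨e₁, e₂, y₁, y₂, zα, zβ, he₁, he₂, hp₁, hp₂, heq₁, heq₂, hNα, hrα, hNβ, hrβ⟩ :=
    nrc_norm_prim hℓ hℓN hlt E₀ hc hα hβ x hx0 hx
  obtain ⟨e₁', e₂', y₁', y₂', zα', zβ', he₁', he₂', hp₁', hp₂', heq₁', heq₂', hNα', hrα',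
    hNβ', hrβ'⟩ := nrc_norm_prim hℓ hℓN hlt E₀ hc hα hβ x' hx'0 hxx'
  have hdα : e₁ * e₂ ^ ℓ ≠ 0 := mul_ne_zero he₁ (pow_ne_zero _ he₂)
  have hdβ : e₂ * e₁ ^ ℓ ≠ 0 := mul_ne_zero he₂ (pow_ne_zero _ he₁)
  have hdα' : e₁' * e₂' ^ ℓ ≠ 0 := mul_ne_zero he₁' (pow_ne_zero _ he₂')
  have hdβ' : e₂' * e₁' ^ ℓ ≠ 0 := mul_ne_zero he₂' (pow_ne_zero _ he₁')
  -- membership in the function fields
  have hY₁ : coeffMap A.subtype y₁ ∈ modularFunctionFieldBar (N * ℓ) :=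
    nrc_mem_of_C_mul he₁ x.2 heq₁
  have hY₂ : coeffMap A.subtype y₂ ∈ modularFunctionFieldBar (N * ℓ) :=
    nrc_mem_of_C_mul he₂ (w x).2 heq₂
  have hY₁' : coeffMap A.subtype y₁' ∈ modularFunctionFieldBar (N * ℓ) :=
    nrc_mem_of_C_mul he₁' x'.2 heq₁'
  have hY₂' : coeffMap A.subtype y₂' ∈ modularFunctionFieldBar (N * ℓ) :=
    nrc_mem_of_C_mul he₂' (w x').2 heq₂'
  have hZα : coeffMap A.subtype zα ∈ modularFunctionFieldBar N :=
    nrc_mem_of_C_mul hdα (normAlong (heckeAlphaBar Kbar N ℓ) x).2 hNα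
  have hZβ : coeffMap A.subtype zβ ∈ modularFunctionFieldBar N :=
    nrc_mem_of_C_mul hdβ (normAlong (heckeBetaBar Kbar N ℓ) x).2 hNβ
  have hZα' : coeffMap A.subtype zα' ∈ modularFunctionFieldBar N :=
    nrc_mem_of_C_mul hdα' (normAlong (heckeAlphaBar Kbar N ℓ) x').2 hNα'
  have hZβ' : coeffMap A.subtype zβ' ∈ modularFunctionFieldBar N :=
    nrc_mem_of_C_mul hdβ' (normAlong (heckeBetaBar Kbar N ℓ) x').2 hNβ'
  -- reductions of the norms are nonzero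
  have hpα' : coeffMap (IsLocalRing.residue A) zα' ≠ 0 := by
    rw [hrα']; exact mul_ne_zero hp₁' (hFr _ hp₂')
  have hpβ' : coeffMap (IsLocalRing.residue A) zβ' ≠ 0 := by
    rw [hrβ']; exact mul_ne_zero hp₂' (hFr _ hp₁')
  -- unit data
  obtain ⟨hY₁0, hY₁O, hY₁i, hY₁r, hY₁n⟩ := nrc_unit_data hR y₁ hY₁ hp₁
  obtain ⟨hY₂0, hY₂O, hY₂i, hY₂r, hY₂n⟩ := nrc_unit_data hR y₂ hY₂ hp₂
  obtain ⟨hY₁0', hY₁O', hY₁i', hY₁r', hY₁n'⟩ := nrc_unit_data hR y₁' hY₁' hp₁'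
  obtain ⟨hY₂0', hY₂O', hY₂i', hY₂r', hY₂n'⟩ := nrc_unit_data hR y₂' hY₂' hp₂'
  obtain ⟨hZα0', hZαO', hZαi', hZαr', -⟩ := nrc_unit_data hR' zα' hZα' hpα'
  obtain ⟨hZβ0', hZβO', hZβi', hZβr', -⟩ := nrc_unit_data hR' zβ' hZβ' hpβ'
  have hZαO := hR'.mem zα hZα
  have hZαr := hR'.red zα hZα
  have hZβO := hR'.mem zβ hZβ
  have hZβr := hR'.red zβ hZβ
  -- equations in the fields
  have hxF : x = algebraMap Kbar (FF (N * ℓ)) e₁ * ⟨coeffMap A.subtype y₁, hY₁⟩ := by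
    apply Subtype.ext
    rw [MulMemClass.coe_mul, coe_algebraMap_eq_C]
    exact heq₁
  have hxF' : x' = algebraMap Kbar (FF (N * ℓ)) e₁' * ⟨coeffMap A.subtype y₁', hY₁'⟩ := by
    apply Subtype.ext
    rw [MulMemClass.coe_mul, coe_algebraMap_eq_C]
    exact heq₁'
  have hwxF : w x = algebraMap Kbar (FF (N * ℓ)) e₂ * ⟨coeffMap A.subtype y₂, hY₂⟩ := by
    apply Subtype.ext
    rw [MulMemClass.coe_mul, coe_algebraMap_eq_C]
    exact heq₂
  have hwxF' : w x' = algebraMap Kbar (FF (N * ℓ)) e₂' * ⟨coeffMap A.subtype y₂', hY₂'⟩ := by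
    apply Subtype.ext
    rw [MulMemClass.coe_mul, coe_algebraMap_eq_C]
    exact heq₂'
  have hNαF : normAlong (heckeAlphaBar Kbar N ℓ) x
      = algebraMap Kbar (FF N) (e₁ * e₂ ^ ℓ) * ⟨coeffMap A.subtype zα, hZα⟩ := by
    apply Subtype.ext
    rw [MulMemClass.coe_mul, coe_algebraMap_eq_C]
    exact hNα
  have hNαF' : normAlong (heckeAlphaBar Kbar N ℓ) x'
      = algebraMap Kbar (FF N) (e₁' * e₂' ^ ℓ) * ⟨coeffMap A.subtype zα', hZα'⟩ := by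
    apply Subtype.ext
    rw [MulMemClass.coe_mul, coe_algebraMap_eq_C]
    exact hNα'
  have hNβF : normAlong (heckeBetaBar Kbar N ℓ) x
      = algebraMap Kbar (FF N) (e₂ * e₁ ^ ℓ) * ⟨coeffMap A.subtype zβ, hZβ⟩ := by
    apply Subtype.ext
    rw [MulMemClass.coe_mul, coe_algebraMap_eq_C]
    exact hNβ
  have hNβF' : normAlong (heckeBetaBar Kbar N ℓ) x'
      = algebraMap Kbar (FF N) (e₂' * e₁' ^ ℓ) * ⟨coeffMap A.subtype zβ', hZβ'⟩ := by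
    apply Subtype.ext
    rw [MulMemClass.coe_mul, coe_algebraMap_eq_C]
    exact hNβ'
  -- the two scalings
  have hg₁0 : algebraMap Kbar (FF (N * ℓ)) c₁ * f ≠ 0 :=
    mul_ne_zero ((map_ne_zero _).mpr hc₁) hf
  have hg₂0 : w (algebraMap Kbar (FF (N * ℓ)) c₂ * f) ≠ 0 :=
    (map_ne_zero w).mpr (mul_ne_zero ((map_ne_zero _).mpr hc₂) hf)
  have hg₂i : (w (algebraMap Kbar (FF (N * ℓ)) c₂ * f))⁻¹ ∈ R.O := by
    rw [← map_inv₀]
    exact h₂'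
  have he₁F' : algebraMap Kbar (FF (N * ℓ)) e₁' ≠ 0 := (map_ne_zero _).mpr he₁'
  have he₂F' : algebraMap Kbar (FF (N * ℓ)) e₂' ≠ 0 := (map_ne_zero _).mpr he₂'
  have eq₁ : algebraMap Kbar (FF (N * ℓ)) c₁ * f * ⟨coeffMap A.subtype y₁', hY₁'⟩
      = algebraMap Kbar (FF (N * ℓ)) (c₁ * e₁ / e₁') * ⟨coeffMap A.subtype y₁, hY₁⟩ := by
    rw [map_div₀, map_mul]
    exact nrc_quot_eq he₁F' hfx hxF hxF'
  have hwfx : w f * w x' = w x := by rw [← map_mul, hfx]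
  have eq₂ : w (algebraMap Kbar (FF (N * ℓ)) c₂ * f) * ⟨coeffMap A.subtype y₂', hY₂'⟩
      = algebraMap Kbar (FF (N * ℓ)) (c₂ * e₂ / e₂') * ⟨coeffMap A.subtype y₂, hY₂⟩ := by
    rw [map_mul w, AlgEquiv.commutes, map_div₀, map_mul]
    exact nrc_quot_eq he₂F' hwfx hwxF hwxF'
  obtain ⟨hu₁, -, -, ha⟩ := nrc_unit_quot R hg₁0 h₁ h₁' hY₁0 hY₁O hY₁i hY₁0' hY₁O' hY₁i' eq₁
  obtain ⟨hu₂, -, -, hb⟩ := nrc_unit_quot R hg₂0 h₂ hg₂i hY₂0 hY₂O hY₂i hY₂0' hY₂O' hY₂i' eq₂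
  -- reductions of the norms of numerator and denominator
  have hrZα : R'.red ⟨⟨coeffMap A.subtype zα, hZα⟩, hZαO⟩
      = R.red ⟨⟨coeffMap A.subtype y₁, hY₁⟩, hY₁O⟩
        * Φ (R.red ⟨⟨coeffMap A.subtype y₂, hY₂⟩, hY₂O⟩) := by
    apply Subtype.ext
    rw [hZαr, hrα, MulMemClass.coe_mul, hΦ, hY₁r, hY₂r]
  have hrZα' : R'.red ⟨⟨coeffMap A.subtype zα', hZα'⟩, hZαO'⟩
      = R.red ⟨⟨coeffMap A.subtype y₁', hY₁'⟩, hY₁O'⟩
        * Φ (R.red ⟨⟨coeffMap A.subtype y₂', hY₂'⟩, hY₂O'⟩) := by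
    apply Subtype.ext
    rw [hZαr', hrα', MulMemClass.coe_mul, hΦ, hY₁r', hY₂r']
  have hrZβ : R'.red ⟨⟨coeffMap A.subtype zβ, hZβ⟩, hZβO⟩
      = R.red ⟨⟨coeffMap A.subtype y₂, hY₂⟩, hY₂O⟩
        * Φ (R.red ⟨⟨coeffMap A.subtype y₁, hY₁⟩, hY₁O⟩) := by
    apply Subtype.ext
    rw [hZβr, hrβ, MulMemClass.coe_mul, hΦ, hY₁r, hY₂r]
  have hrZβ' : R'.red ⟨⟨coeffMap A.subtype zβ', hZβ'⟩, hZβO'⟩
      = R.red ⟨⟨coeffMap A.subtype y₂', hY₂'⟩, hY₂O'⟩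
        * Φ (R.red ⟨⟨coeffMap A.subtype y₁', hY₁'⟩, hY₁O'⟩) := by
    apply Subtype.ext
    rw [hZβr', hrβ', MulMemClass.coe_mul, hΦ, hY₁r', hY₂r']
  -- the norms of `f`
  have hdαF' : algebraMap Kbar (FF N) (e₁' * e₂' ^ ℓ) ≠ 0 := (map_ne_zero _).mpr hdα'
  have hdβF' : algebraMap Kbar (FF N) (e₂' * e₁' ^ ℓ) ≠ 0 := (map_ne_zero _).mpr hdβ'
  have hNα_f : normAlong (heckeAlphaBar Kbar N ℓ) f * normAlong (heckeAlphaBar Kbar N ℓ) x'
      = normAlong (heckeAlphaBar Kbar N ℓ) x := by rw [← map_mul, hfx]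
  have hNβ_f : normAlong (heckeBetaBar Kbar N ℓ) f * normAlong (heckeBetaBar Kbar N ℓ) x'
      = normAlong (heckeBetaBar Kbar N ℓ) x := by rw [← map_mul, hfx]
  have eqα : algebraMap Kbar (FF N) (c₁ * c₂ ^ ℓ) * normAlong (heckeAlphaBar Kbar N ℓ) f
        * ⟨coeffMap A.subtype zα', hZα'⟩
      = algebraMap Kbar (FF N) ((c₁ * e₁ / e₁') * (c₂ * e₂ / e₂') ^ ℓ)
        * ⟨coeffMap A.subtype zα, hZα⟩ := by
    rw [nrc_quot_eq hdαF' hNα_f hNαF hNαF', ← map_mul, ← map_div₀]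
    congr 2
    rw [div_pow, mul_pow]
    field_simp
  have eqβ : algebraMap Kbar (FF N) (c₂ * c₁ ^ ℓ) * normAlong (heckeBetaBar Kbar N ℓ) f
        * ⟨coeffMap A.subtype zβ', hZβ'⟩
      = algebraMap Kbar (FF N) ((c₂ * e₂ / e₂') * (c₁ * e₁ / e₁') ^ ℓ)
        * ⟨coeffMap A.subtype zβ, hZβ⟩ := by
    rw [nrc_quot_eq hdβF' hNβ_f hNβF hNβF', ← map_mul, ← map_div₀]
    congr 2
    rw [div_pow, mul_pow]
    field_simp
  exact ⟨nrc_glue R' ℓ Φ hΦc hu₁ hu₂ ha hb hY₁n' hY₂n' hZαO hZαO' hZα0' hZαi' eqα hrZα hrZα',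
    nrc_glue R' ℓ Φ hΦc hu₂ hu₁ hb ha hY₂n' hY₁n' hZβO hZβO' hZβ0' hZβi' eqβ hrZβ hrZβ'⟩

end Main

section Concrete

open Fermat.Agent.S34lib

/-- the residue field of a valuation ring over `q` has characteristic `q` -/
theorem nrc_expChar (q : ℕ) (hq : q.Prime) (A : ValuationSubring Kbar)
    (hlt : A.valuation (q : Kbar) < 1) : ExpChar (IsLocalRing.ResidueField A) q := by
  have h0 : ((q : ℕ) : IsLocalRing.ResidueField A) = 0 := by
    have hmem : (q : Kbar) ∈ A := (A.valuation_le_one_iff _).mp hlt.le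
    have h1 : IsLocalRing.residue A ⟨(q : Kbar), hmem⟩ = 0 := by
      rw [IsLocalRing.residue_eq_zero_iff, ValuationSubring.valuation_lt_one_iff]
      exact hlt
    have e : (⟨(q : Kbar), hmem⟩ : A) = ((q : ℕ) : A) := Subtype.ext (by simp)
    rw [e, map_natCast] at h1
    exact h1
  have hcp : CharP (IsLocalRing.ResidueField A) q := (CharP.charP_iff_prime_eq_zero hq).mpr h0
  exact ExpChar.prime hq

variable (M' q : ℕ) [NeZero M'] [NeZero q] (hq : q.Prime) (hqM : ¬ q ∣ M')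
variable {A : ValuationSubring Kbar} [ExpChar (IsLocalRing.ResidueField A) q]

/-- **(NR)**, piece G3a of item 82, concrete form: `R'` at level `M'`, `R` (`= R_∞`) at level
`M' q`, `R₀ = inredZero R`, `Φ` the coefficient Frobenius. -/
theorem normRedCR (hlt : A.valuation (q : Kbar) < 1)
    (R' : ConstRed A (IsLocalRing.residue A)
      (modularFunctionFieldFullC (IsLocalRing.ResidueField A) M') (FF M'))
    (hR' : IsSeriesRed R')
    (R : ConstRed A (IsLocalRing.residue A)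
      (modularFunctionFieldFullC (IsLocalRing.ResidueField A) M') (FF (M' * q)))
    (hR : IsSeriesRed R)
    (σ : Kbar ≃ₐ[ℚ] Kbar) (hσ : A.IsFrobeniusAt σ q) :
    NormRedCR R' R
      (inredZero (M' * q) q hq (dvd_mul_left q M') (inf_not_sq_dvd M' q hq hqM) R) q
      (normAlong (heckeAlphaBar Kbar M' q)) (normAlong (heckeBetaBar Kbar M' q))
      (inredFrobC M' σ hσ) :=
  normRedCR_of_al M' q hq hqM hlt R' hR' R hR
    (atkinLehnerFF (M' * q) q hq (dvd_mul_left q M') (inf_not_sq_dvd M' q hq hqM))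
    (atkinLehnerFF_alpha M' q hq hqM) (atkinLehnerFF_beta M' q hq hqM)
    (inredFrobC M' σ hσ) (fun y => coe_inredFrobC_frobenius M' σ hσ y)

/-- the coefficient Frobenius maps constants to constants (hypothesis `hΦ` of `frob2_glue`) -/
theorem nrc_inredFrobC_algebraMap (σ : Kbar ≃ₐ[ℚ] Kbar) (hσ : A.IsFrobeniusAt σ q)
    (c : IsLocalRing.ResidueField A) :
    inredFrobC M' σ hσ (algebraMap (IsLocalRing.ResidueField A)
        (modularFunctionFieldFullC (IsLocalRing.ResidueField A) M') c)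
      = algebraMap (IsLocalRing.ResidueField A)
        (modularFunctionFieldFullC (IsLocalRing.ResidueField A) M') (c ^ q) := by
  apply Subtype.ext
  rw [coe_inredFrobC_frobenius, coe_algebraMap_eq_C, coe_algebraMap_eq_C, coeffMap_C,
    frobenius_def]

end Concrete

end Fermat.Agent.S35lib
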