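/-
Item 82 (S35), piece G5 = APPLY-F (helper15): **the Kummer form of FROB2 at the auxiliary levels**,
`applyFStatement : ApplyFStatement`, i.e. `Frob2K M' q (p ^ n) A` for `q ∤ M'` an auxiliary level,
`p ≠ q` and `A` over `q`.

Assembly (the S35 twin of helper26's `applyCore`): `exists_constRedInf_aux` (R∞), `liftInf_exists_red`
/ `liftInf_lift` (level `M'`, helper18), `am_exInput` (helper26/helper17/helper9), `vk_O_ne`
(helper9), `normRedCR` (G3a, helper29) and `frob2K_of_inputs` (helper4, on top of
`frob2_of_exInput`).  Complete proofs.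
-/
import Mathlib
import Fermat.Agent.S34lib.ApplyMain
import Fermat.Agent.S35lib.Frob2KPkg
import Fermat.Agent.S35lib.NormRedCR
import Fermat.Agent.S35lib.FrobNewOfApply

set_option autoImplicit false
set_option linter.style.haveILetI false
set_option synthInstance.maxHeartbeats 400000

noncomputable section

namespace Fermat.Agent.S35lib

open AlgebraicCurve Fermat.Agent.GoodRed ModularCurve HahnSeries Fermat.Agent.S24lib
  Fermat.Agent.RRlib Fermat.Agent.GM Fermat.Agent.S34lib Fermat.Agent.HeckeBar

set_option maxHeartbeats 2000000 in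
/-- **APPLY-F**, unfolded: the Kummer form of FROB2 at the auxiliary levels `M' q`. -/
theorem applyF_core (q M' p n : ℕ) [NeZero M'] [NeZero q] (hq : q.Prime) (hp : p.Prime)
    (hqp : q ≠ p) (haux : IsAuxLevel q M') (A : ValuationSubring Kbar)
    (hA : A.LiesOverPrime q) : Frob2K M' q (p ^ n) A := by
  haveI : NeZero (M' * q) := ⟨Nat.mul_ne_zero (NeZero.ne M') hq.ne_zero⟩
  haveI : Fact q.Prime := ⟨hq⟩
  haveI : CharP (IsLocalRing.ResidueField A) q := charP_residueField hA
  haveI : IsAlgClosed (IsLocalRing.ResidueField A) := isAlgClosed_residueField A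
  haveI : Infinite (IsLocalRing.ResidueField A) := IsAlgClosed.instInfinite
  haveI : RRHyp Kbar (FF M') := mod_rrHyp M'
  haveI : RRHyp Kbar (FF (M' * q)) := mod_rrHyp (M' * q)
  haveI : RRHyp (IsLocalRing.ResidueField A)
      (↥(modularFunctionFieldFullC (IsLocalRing.ResidueField A) M')) :=
    mr_rrHyp (IsLocalRing.ResidueField A) M'
  haveI : ExpChar (IsLocalRing.ResidueField A) q := nrc_expChar q hq A hA
  have hqM : ¬ q ∣ M' := haux.1
  have hfrac' : HasPrimFrac A (modularFunctionFieldBar M') := vri_hfrac M' q hq A hA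
  have hfrac : HasPrimFrac A (modularFunctionFieldBar (M' * q)) := vri_hfrac (M' * q) q hq A hA
  obtain ⟨R, hR⟩ := exists_constRedInf_aux M' q hq hqM A hA
  obtain ⟨R', r, hR', -, -, hgen⟩ := liftInf_exists_red M' A q haux hA
  have Hex := am_exInput M' q hq hqM haux hA hR' hR hfrac'
  have hO := vk_O_ne M' q hq hqM hR hA
  have hlift : ∀ a : affRing (infPlaceC (IsLocalRing.ResidueField A) M'),
      ∃ (g : FF M') (hg : g ∈ R'.O),
        (∀ v' : Place Kbar (FF M'), v' ≠ infPlaceBar M' → 0 ≤ v'.ord g) ∧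
          R'.red ⟨g, hg⟩ =
            (a : ↥(modularFunctionFieldFullC (IsLocalRing.ResidueField A) M')) := by
    intro a
    obtain ⟨c, hc⟩ := (glm_hB M' _).mp a.2
    obtain ⟨x, hx, hred⟩ := liftInf_lift q haux hA hR' (c : ℤ) _ hc
    exact ⟨x, x.2, mem_affRing_iff.mp (affRing_of_mem_rr hx), hred⟩
  have hpn : 0 < p ^ n := pow_pos hp.pos n
  have hmk : ((p ^ n : ℕ) : IsLocalRing.ResidueField A) ≠ 0 := by
    rw [Nat.cast_pow]
    apply pow_ne_zero
    intro h0
    have h1 := (CharP.cast_eq_zero_iff (IsLocalRing.ResidueField A) q p).mp h0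
    exact hqp ((Nat.prime_dvd_prime_iff_eq hq hp).mp h1)
  exact frob2K_of_inputs M' q hq hqM hA hR hfrac
    (φ := (affFrobFk (IsLocalRing.ResidueField A) q M').toRingHom) (fun x => rfl) Hex hO hlift
    hgen.le (fun σ hσ => normRedCR M' q hq hqM hA R' hR' R hR σ hσ) hpn hmk

/-- **APPLY-F** (piece G5 of item 82): the Kummer form of FROB2 at the auxiliary levels. -/
theorem applyFStatement : ApplyFStatement :=
  fun q M' p n _ _ hq hp hqp haux A hA => applyF_core q M' p n hq hp hqp haux A hA

end Fermat.Agent.S35lib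

end
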