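import Mathlib
import Fermat.Agent.S35lib.AlgLat

/-!
# Item 82 (S35), algebra: the characteristic polynomial at a Frobenius lift at `q ‖ M`

`s35_charpoly_of_frobNew`: let `ρ` be a `2`-dimensional representation over a local Noetherian
domain `O` (residue characteristic `p`) with `charpoly ρ(Frob_ℓ) = X² - Θ(T_ℓ) X + ℓ` for
`ℓ ∉ S ∪ S'`, where `Θ` is a character of the Hecke algebra of level `N` away from `S` (two finite
sets: `S` for the Hecke algebra, `S'` the exceptional set of `ρ`).  Let `σ` be a Frobenius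
lift at `q ≠ p`, and `h` a Hecke polynomial with `Θ(h) ≠ 0` such that
`(σ² - q²)^a (σ² - 1)^b` kills `h • J₀(N)[p^∞]`.  Then
`charpoly ρ(σ) = X² ∓ (q + 1) X + q`.

Proof: weak Chebotarev + Eichler–Shimura + the resultant identity turn the hypothesis into a
relation between Hecke operators on the lattice; faithfulness and saturation (S31lib) transport it
to `Θ`: `Θ(h) q^(2a) (q² + 1 - tr ρ(σ²))^(a+b) = 0`.  The determinant is `q` by the cyclotomic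
character.
-/

set_option autoImplicit false

open scoped TensorProduct
open Polynomial

namespace Fermat.Agent.S35lib

open Fermat.Agent.GalRep ModularCurve Fermat.Agent.S31lib Fermat.Agent.S34lib IsLocalRing

section

variable {p : ℕ} {N : ℕ} [NeZero N] {S : Finset ℕ}
  {O : Type} [CommRing O] [IsLocalRing O]

/-- the trace of `ρ` at a power of a Frobenius is the image of `P_k(T_ℓ, ℓ)`. -/
theorem am_trace_frob_pow (ρ : GaloisRepAdic O) (S' : Finset ℕ)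
    (Θ : CuspForm.heckeAlgebra N 2 (↑S : Set ℕ) →+* O)
    (hρ : ∀ (ℓ : ℕ) (hℓ : ℓ.Prime) (hℓN : ¬ ℓ ∣ N) (hℓS : ℓ ∉ (↑S : Set ℕ)), ℓ ∉ S' →
      ∀ A : ValuationSubring (AlgebraicClosure ℚ), A.LiesOverPrime ℓ →
        ∀ σ : GQ, A.IsFrobeniusAt σ ℓ →
          LinearMap.charpoly (ρ.ρ σ) =
            X ^ 2 - C (Θ (CuspForm.heckeAlgebra.T hℓ hℓN hℓS)) * X + C ((ℓ : O)))
    (ℓ : GoodPrime N S) (hℓS' : (ℓ.1 : ℕ) ∉ S') (A : ValuationSubring (AlgebraicClosure ℚ))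
    (hA : A.LiesOverPrime (ℓ.1 : ℕ)) (σ : GQ) (hσ : A.IsFrobeniusAt σ (ℓ.1 : ℕ)) (k : ℕ) :
    ρ.trace (σ ^ k) = Θ (evalForms N S (frobPoly N S ℓ k)) := by
  have hch := hρ (ℓ.1 : ℕ) ℓ.1.2 ℓ.2.1 ℓ.2.2 hℓS' A hA σ hσ
  have h1 := trace_pow_eq_powTr ρ.finrank_eq (ρ.ρ σ) _ _ hch k
  have h2 := map_powTr Θ
    (CuspForm.heckeAlgebra.T ℓ.1.2 ℓ.2.1 ℓ.2.2 : CuspForm.heckeAlgebra N 2 (↑S : Set ℕ))
    ((((ℓ.1 : ℕ)) : ℤ) • (1 : CuspForm.heckeAlgebra N 2 (↑S : Set ℕ))) k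
  rw [evalForms_frobPoly, h2, GaloisRepAdic.trace, map_pow, h1]
  congr 1
  rw [map_zsmul, map_one, zsmul_one, Int.cast_natCast]

omit [NeZero N] in
/-- a prime `q ≠ p` is nonzero in a local ring of residue characteristic `p`. -/
theorem am_natCast_ne_zero [Nontrivial O] {q : ℕ} (hp : p.Prime) (hq : q.Prime) (hqp : q ≠ p)
    (hpO : (p : O) ∈ maximalIdeal O) : (q : O) ≠ 0 := by
  intro h0
  have hcop : Nat.Coprime q p := (Nat.coprime_primes hq hp).mpr hqp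
  have h1 : ((Nat.gcdA q p * q + Nat.gcdB q p * p : ℤ) : O) = 1 := by
    have := Nat.gcd_eq_gcd_ab q p
    rw [hcop.gcd_eq_one] at this
    have e : (Nat.gcdA q p * q + Nat.gcdB q p * p : ℤ) = 1 := by
      rw [mul_comm (Nat.gcdA q p), mul_comm (Nat.gcdB q p)]
      exact_mod_cast this.symm
    rw [e, Int.cast_one]
  have h2 : (1 : O) ∈ maximalIdeal O := by
    rw [← h1]
    push_cast
    rw [h0, mul_zero, zero_add]
    exact Ideal.mul_mem_left _ _ hpO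
  exact (Ideal.ne_top_iff_one (maximalIdeal O)).mp (maximalIdeal.isMaximal O).ne_top h2

end

section Final

variable {p : ℕ} {N : ℕ} [NeZero N] {S : Finset ℕ}
  {O : Type} [CommRing O] [IsDomain O] [IsLocalRing O] [IsNoetherianRing O]

omit [IsDomain O] [IsNoetherianRing O] in
theorem am_natCast_pow_mem (hpO : (p : O) ∈ maximalIdeal O) (n : ℕ) :
    ((p ^ n : ℕ) : O) ∈ maximalIdeal O ^ n := by
  push_cast
  exact Ideal.pow_mem_pow hpO n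

/-- the congruences for the determinant of `ρ(σ)` and the trace of `ρ(σ²)`. -/
theorem am_congr
    (hcheb : WeakCheb) (J : JacInput N p) (hF : Faith J S)
    (hp : p.Prime) (hpO : (p : O) ∈ maximalIdeal O) (S' : Finset ℕ)
    (ρ : GaloisRepAdic O) (Θ : CuspForm.heckeAlgebra N 2 (↑S : Set ℕ) →+* O)
    (hρ : ∀ (ℓ : ℕ) (hℓ : ℓ.Prime) (hℓN : ¬ ℓ ∣ N) (hℓS : ℓ ∉ (↑S : Set ℕ)), ℓ ∉ S' →
      ∀ A : ValuationSubring (AlgebraicClosure ℚ), A.LiesOverPrime ℓ →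
        ∀ σ : GQ, A.IsFrobeniusAt σ ℓ →
          LinearMap.charpoly (ρ.ρ σ) =
            X ^ 2 - C (Θ (CuspForm.heckeAlgebra.T hℓ hℓN hℓS)) * X + C ((ℓ : O)))
    (q : ℕ) (hq : q.Prime) (hqp : q ≠ p)
    (B : ValuationSubring (AlgebraicClosure ℚ)) (hB : B.LiesOverPrime q)
    (σ : GQ) (hσ : B.IsFrobeniusAt σ q) (e : ℕ) (s : GQ) (hs : s = σ ^ e)
    (a b : ℕ) (h : HPoly N S)
    (hfrob : ∀ x : JZero N, (∃ m : ℕ, p ^ m • x = 0) →
      ((galEnd N s - (((q : ℤ) ^ e : ℤ) : Module.End ℤ (JZero N))) ^ a * (galEnd N s - 1) ^ b)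
        (evalJac N S N h x) = 0) (n₀ : ℕ) :
    LinearMap.det (ρ.ρ s) - (q : O) ^ e ∈ maximalIdeal O ^ n₀ ∧
      Θ (evalForms N S h) * ((q : O) ^ e) ^ a * ((q : O) ^ e + 1 - ρ.trace s) ^ (a + b)
        ∈ maximalIdeal O ^ n₀ := by
  obtain ⟨c, hc⟩ := exists_sat_const hp S J hF
  obtain ⟨Lρ, hLρfin, hLρ⟩ := trcong ρ (n₀ + c)
  obtain ⟨Ld, hLdfin, hLd⟩ := detcong ρ (n₀ + c)
  obtain ⟨LJ, hLJfin, hLJ⟩ := exists_level_torsion J (n₀ + c)
  obtain ⟨χ, ⟨Lχ, hLχfin, hLχ⟩, hχfrob, -⟩ := exists_cycloMod p hp (n₀ + c)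
  have hLfin : FiniteDimensional ℚ
      (Lρ ⊔ Ld ⊔ LJ ⊔ Lχ : IntermediateField ℚ (AlgebraicClosure ℚ)) := inferInstance
  have hLρle : Lρ ≤ Lρ ⊔ Ld ⊔ LJ ⊔ Lχ := le_sup_of_le_left (le_sup_of_le_left le_sup_left)
  have hLdle : Ld ≤ Lρ ⊔ Ld ⊔ LJ ⊔ Lχ := le_sup_of_le_left (le_sup_of_le_left le_sup_right)
  have hLJle : LJ ≤ Lρ ⊔ Ld ⊔ LJ ⊔ Lχ := le_sup_of_le_left le_sup_right
  have hLχle : Lχ ≤ Lρ ⊔ Ld ⊔ LJ ⊔ Lχ := le_sup_right
  obtain ⟨ℓ, A, τ, -, k, hℓ, hℓS₀, hA, hτ, -, hgτ⟩ :=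
    hcheb _ hLfin (S ∪ S' ∪ insert p N.primeFactors) s
  -- the prime is good
  have hℓS : ℓ ∉ S := fun h =>
    hℓS₀ (Finset.mem_union_left _ (Finset.mem_union_left _ h))
  have hℓS' : ℓ ∉ S' := fun h =>
    hℓS₀ (Finset.mem_union_left _ (Finset.mem_union_right _ h))
  have hℓN : ¬ ℓ ∣ N := fun h =>
    hℓS₀ (Finset.mem_union_right _ (Finset.mem_insert_of_mem
      (Nat.mem_primeFactors.mpr ⟨hℓ, h, NeZero.ne N⟩)))
  have hℓp : ℓ ≠ p := fun h =>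
    hℓS₀ (Finset.mem_union_right _ (h ▸ Finset.mem_insert_self _ _))
  have hℓNp : ¬ ℓ ∣ N * p := fun h =>
    (hℓ.dvd_mul.mp h).elim hℓN fun h' => hℓp ((Nat.prime_dvd_prime_iff_eq hℓ hp).mp h')
  -- the element `u`
  have hu : ∀ x ∈ (Lρ ⊔ Ld ⊔ LJ ⊔ Lχ : IntermediateField ℚ (AlgebraicClosure ℚ)),
      ((τ ^ k)⁻¹ * s) x = x := asm_fix _ s (τ ^ k) hgτ
  have hgu : τ ^ k * ((τ ^ k)⁻¹ * s) = s := mul_inv_cancel_left _ _
  -- trace and determinant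
  have t1 : ρ.trace (τ ^ k) - ρ.trace s ∈ maximalIdeal O ^ (n₀ + c) :=
    hLρ s (τ ^ k) fun x hx => hgτ x (hLρle hx)
  have d1 : LinearMap.det (ρ.ρ (τ ^ k)) - LinearMap.det (ρ.ρ s) ∈ maximalIdeal O ^ (n₀ + c) :=
    hLd s (τ ^ k) fun x hx => hgτ x (hLdle hx)
  -- the cyclotomic congruence
  have hχσ : ((χ σ : (ZMod (p ^ (n₀ + c)))ˣ) : ZMod (p ^ (n₀ + c))) = (q : ZMod (p ^ (n₀ + c))) :=
    hχfrob q hq hqp B hB σ hσ
  have hχu : χ ((τ ^ k)⁻¹ * s) = 1 := hLχ _ fun a ha => hu a (hLχle ha)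
  have hχ1 : χ τ ^ k = χ σ ^ e := by
    have : χ s = χ τ ^ k := by
      conv_lhs => rw [← hgu]
      rw [map_mul, hχu, mul_one, map_pow]
    rw [← this, hs, map_pow]
  have hcong : ((ℓ : ZMod (p ^ (n₀ + c))) ^ k) = (q : ZMod (p ^ (n₀ + c))) ^ e := by
    rw [← hχfrob ℓ hℓ hℓp A hA τ hτ, ← hχσ, ← Units.val_pow_eq_pow_val,
      ← Units.val_pow_eq_pow_val, hχ1]
  have hdvd : ((p ^ (n₀ + c) : ℕ) : ℤ) ∣ ((ℓ : ℕ) : ℤ) ^ k - (q : ℤ) ^ e := by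
    rw [← ZMod.intCast_zmod_eq_zero_iff_dvd]
    push_cast
    rw [hcong, sub_self]
  have hle : maximalIdeal O ^ (n₀ + c) ≤ maximalIdeal O ^ n₀ :=
    Ideal.pow_le_pow_right (Nat.le_add_right _ _)
  have hpmem : ((p ^ (n₀ + c) : ℕ) : O) ∈ maximalIdeal O ^ (n₀ + c) := am_natCast_pow_mem hpO _
  have d3 : (ℓ : O) ^ k - (q : O) ^ e ∈ maximalIdeal O ^ (n₀ + c) := by
    obtain ⟨z, hz⟩ := hdvd
    have e' : ((ℓ : O) ^ k - (q : O) ^ e) = ((p ^ (n₀ + c) : ℕ) : O) * (z : O) := by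
      have := congrArg (Int.cast : ℤ → O) hz
      push_cast at this ⊢
      exact this
    rw [e']
    exact Ideal.mul_mem_right _ _ hpmem
  constructor
  · -- the determinant
    have hch := hρ ℓ hℓ hℓN (by simpa using hℓS) hℓS' A hA τ hτ
    have hdetτ : LinearMap.det (ρ.ρ τ) = (ℓ : O) := det_of_charpoly ρ.finrank_eq _ _ _ hch
    have hdetk : LinearMap.det (ρ.ρ (τ ^ k)) = (ℓ : O) ^ k := by
      rw [map_pow, map_pow, hdetτ]
    have : LinearMap.det (ρ.ρ s) - (q : O) ^ e =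
        ((ℓ : O) ^ k - (q : O) ^ e) - (LinearMap.det (ρ.ρ (τ ^ k)) - LinearMap.det (ρ.ρ s)) := by
      rw [hdetk]; ring
    rw [this]
    exact hle (Ideal.sub_mem _ d3 d1)
  · -- the lattice
    have hJu := hLJ _ fun a ha => hu a (hLJle ha)
    have hlat := al_evalLat (S := S) J (n₀ + c) ⟨⟨ℓ, hℓ⟩, hℓN, hℓS⟩ hℓNp A hA τ hτ k s
      (fun x hx => by
        have := asm_smul_eq (N := N) (n₀ + c) _ (τ ^ k) hJu x hx
        rw [hgu] at this
        exact ⟨this.1.symm, this.2.symm⟩)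
      ((q : ℤ) ^ e) hdvd a b h hfrob
    obtain ⟨t, ht⟩ := hc (n₀ + c) _ hlat
    rw [Nat.add_sub_cancel] at ht
    have htr := am_trace_frob_pow ρ S' Θ hρ ⟨⟨ℓ, hℓ⟩, hℓN, hℓS⟩ hℓS' A hA τ hτ k
    -- apply `Θ`
    have e1 : Θ (evalForms N S h) * ((q : O) ^ e) ^ a *
        ((q : O) ^ e + 1 - ρ.trace (τ ^ k)) ^ (a + b) ∈ maximalIdeal O ^ n₀ := by
      have e2 := congrArg Θ ht
      rw [map_mul, map_zsmul, map_pow, map_sub, map_zsmul, map_one, map_mul, map_zsmul, map_pow,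
        map_sub, map_zsmul, map_one, ← htr, map_zsmul] at e2
      have e3 : Θ (evalForms N S h) * ((q : O) ^ e) ^ a *
          ((q : O) ^ e + 1 - ρ.trace (τ ^ k)) ^ (a + b) = ((p ^ n₀ : ℕ) : O) * Θ t := by
        rw [zsmul_eq_mul, zsmul_eq_mul, zsmul_eq_mul] at e2
        push_cast at e2 ⊢
        rw [← e2]
        ring
      rw [e3]
      exact Ideal.mul_mem_right _ _ (am_natCast_pow_mem hpO n₀)
    -- replace the trace
    have e4 : ((q : O) ^ e + 1 - ρ.trace s) ^ (a + b) -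
        ((q : O) ^ e + 1 - ρ.trace (τ ^ k)) ^ (a + b) ∈ maximalIdeal O ^ n₀ := by
      have hd : ((q : O) ^ e + 1 - ρ.trace s) - ((q : O) ^ e + 1 - ρ.trace (τ ^ k))
          ∈ maximalIdeal O ^ n₀ := by
        have : ((q : O) ^ e + 1 - ρ.trace s) - ((q : O) ^ e + 1 - ρ.trace (τ ^ k))
            = ρ.trace (τ ^ k) - ρ.trace s := by ring
        rw [this]
        exact hle t1
      obtain ⟨w, hw⟩ := sub_dvd_pow_sub_pow ((q : O) ^ e + 1 - ρ.trace s)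
        ((q : O) ^ e + 1 - ρ.trace (τ ^ k)) (a + b)
      rw [hw]
      exact Ideal.mul_mem_right _ _ hd
    have e5 : Θ (evalForms N S h) * ((q : O) ^ e) ^ a * ((q : O) ^ e + 1 - ρ.trace s) ^ (a + b)
        = Θ (evalForms N S h) * ((q : O) ^ e) ^ a *
            ((q : O) ^ e + 1 - ρ.trace (τ ^ k)) ^ (a + b)
          + Θ (evalForms N S h) * ((q : O) ^ e) ^ a *
            (((q : O) ^ e + 1 - ρ.trace s) ^ (a + b) -
              ((q : O) ^ e + 1 - ρ.trace (τ ^ k)) ^ (a + b)) := by ring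
    rw [e5]
    exact Ideal.add_mem _ e1 (Ideal.mul_mem_left _ _ e4)

end Final

end Fermat.Agent.S35lib
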