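import Mathlib
import Fermat.Agent.S35lib.AlgMain

/-!
# Item 82 (S35), algebra: final form

`s35_charpoly_of_frobNew`: `charpoly ρ(σ) = X² ∓ (q + 1) X + q` for a Frobenius lift `σ` at
`q ≠ p`, if `(σ² - q²)^a (σ² - 1)^b` kills `h • J₀(N)[p^∞]` for a Hecke polynomial `h` with
`Θ(h) ≠ 0`.  Two finite sets of primes: `S` (the Hecke polynomials and `Θ` live away from `S`)
and `S'` (the characteristic polynomials of `ρ` are known away from `S ∪ S'`).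
-/

set_option autoImplicit false

open scoped TensorProduct
open Polynomial

namespace Fermat.Agent.S35lib

open Fermat.Agent.GalRep ModularCurve Fermat.Agent.S31lib Fermat.Agent.S34lib IsLocalRing

variable {p : ℕ} {N : ℕ} [NeZero N] {S : Finset ℕ}
  {O : Type} [CommRing O] [IsDomain O] [IsLocalRing O] [IsNoetherianRing O]

/-- **S35, algebra**: trace and determinant of `ρ(σ)`. -/
theorem s35_trace_det_of_frobNew
    (hcheb : WeakCheb) (J : JacInput N p) (hF : Faith J S)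
    (hp : p.Prime) (hpO : (p : O) ∈ maximalIdeal O) (S' : Finset ℕ)
    (ρ : GaloisRepAdic O) (Θ : CuspForm.heckeAlgebra N 2 (↑S : Set ℕ) →+* O)
    (hρ : ∀ (ℓ : ℕ) (hℓ : ℓ.Prime) (hℓN : ¬ ℓ ∣ N) (hℓS : ℓ ∉ (↑S : Set ℕ)), ℓ ∉ S' →
      ∀ A : ValuationSubring (AlgebraicClosure ℚ), A.LiesOverPrime ℓ →
        ∀ σ : GQ, A.IsFrobeniusAt σ ℓ →
          LinearMap.charpoly (ρ.ρ σ) =
            X ^ 2 - C (Θ (CuspForm.heckeAlgebra.T hℓ hℓN hℓS)) * X + C ((ℓ : O)))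
    (q : ℕ) (hq : q.Prime) (hqp : q ≠ p)
    (B : ValuationSubring (AlgebraicClosure ℚ)) (hB : B.LiesOverPrime q)
    (σ : GQ) (hσ : B.IsFrobeniusAt σ q)
    (a b : ℕ) (h : HPoly N S) (hh : Θ (evalForms N S h) ≠ 0)
    (hfrob : ∀ x : JZero N, (∃ m : ℕ, p ^ m • x = 0) →
      frobNewOp N q a b σ (evalJac N S N h x) = 0) :
    LinearMap.det (ρ.ρ σ) = (q : O) ∧
      (LinearMap.trace O ρ.V (ρ.ρ σ) = (q : O) + 1 ∨
        LinearMap.trace O ρ.V (ρ.ρ σ) = -((q : O) + 1)) := by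
  -- the determinant
  have hdet : LinearMap.det (ρ.ρ σ) = (q : O) := by
    apply trcong_eq_of_forall_mem
    intro n
    have := (am_congr hcheb J hF hp hpO S' ρ Θ hρ q hq hqp B hB σ hσ 1 σ (pow_one σ).symm
      0 0 (0 : HPoly N S) (fun x _ => by rw [map_zero, LinearMap.zero_apply, map_zero]) n).1
    rwa [pow_one] at this
  refine ⟨hdet, ?_⟩
  -- the trace of `σ²`
  have hfrob' : ∀ x : JZero N, (∃ m : ℕ, p ^ m • x = 0) →
      ((galEnd N (σ ^ 2) - (((q : ℤ) ^ 2 : ℤ) : Module.End ℤ (JZero N))) ^ a *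
        (galEnd N (σ ^ 2) - 1) ^ b) (evalJac N S N h x) = 0 := by
    intro x hx
    have := hfrob x hx
    rw [frobNewOp, zsmul_one, ← pow_two] at this
    exact this
  have htr0 : Θ (evalForms N S h) * ((q : O) ^ 2) ^ a *
      ((q : O) ^ 2 + 1 - ρ.trace (σ ^ 2)) ^ (a + b) = 0 := by
    apply trcong_eq_of_forall_mem
    intro n
    rw [sub_zero]
    exact (am_congr hcheb J hF hp hpO S' ρ Θ hρ q hq hqp B hB σ hσ 2 (σ ^ 2) rfl
      a b h hfrob' n).2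
  have hq0 : (q : O) ≠ 0 := am_natCast_ne_zero hp hq hqp hpO
  have hq2 : ((q : O) ^ 2) ^ a ≠ 0 := pow_ne_zero a (pow_ne_zero 2 hq0)
  have htr1 : ((q : O) ^ 2 + 1 - ρ.trace (σ ^ 2)) ^ (a + b) = 0 := by
    rcases mul_eq_zero.mp htr0 with h1 | h1
    · rcases mul_eq_zero.mp h1 with h2 | h2
      · exact absurd h2 hh
      · exact absurd h2 hq2
    · exact h1
  have htr2 : (q : O) ^ 2 + 1 - ρ.trace (σ ^ 2) = 0 := by
    by_cases hab : a + b = 0
    · rw [hab, pow_zero] at htr1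
      exact absurd htr1 one_ne_zero
    · exact (pow_eq_zero_iff hab).mp htr1
  -- the trace of `σ`
  have hsq : ρ.trace (σ ^ 2) =
      LinearMap.trace O ρ.V (ρ.ρ σ) ^ 2 - 2 * LinearMap.det (ρ.ρ σ) := by
    rw [GaloisRepAdic.trace, pow_two, map_mul]
    exact ar_trace_sq ρ.finrank_eq (ρ.ρ σ)
  rw [hsq, hdet] at htr2
  have hfac : (LinearMap.trace O ρ.V (ρ.ρ σ) - ((q : O) + 1)) *
      (LinearMap.trace O ρ.V (ρ.ρ σ) + ((q : O) + 1)) = 0 := by
    linear_combination -htr2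
  rcases mul_eq_zero.mp hfac with h1 | h1
  · exact Or.inl (sub_eq_zero.mp h1)
  · exact Or.inr (eq_neg_of_add_eq_zero_left h1)

/-- **S35, algebra (ALG-MAIN).** -/
theorem s35_charpoly_of_frobNew
    (hcheb : WeakCheb) (J : JacInput N p) (hF : Faith J S)
    (hp : p.Prime) (hpO : (p : O) ∈ maximalIdeal O) (S' : Finset ℕ)
    (ρ : GaloisRepAdic O) (Θ : CuspForm.heckeAlgebra N 2 (↑S : Set ℕ) →+* O)
    (hρ : ∀ (ℓ : ℕ) (hℓ : ℓ.Prime) (hℓN : ¬ ℓ ∣ N) (hℓS : ℓ ∉ (↑S : Set ℕ)), ℓ ∉ S' →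
      ∀ A : ValuationSubring (AlgebraicClosure ℚ), A.LiesOverPrime ℓ →
        ∀ σ : GQ, A.IsFrobeniusAt σ ℓ →
          LinearMap.charpoly (ρ.ρ σ) =
            X ^ 2 - C (Θ (CuspForm.heckeAlgebra.T hℓ hℓN hℓS)) * X + C ((ℓ : O)))
    (q : ℕ) (hq : q.Prime) (hqp : q ≠ p)
    (B : ValuationSubring (AlgebraicClosure ℚ)) (hB : B.LiesOverPrime q)
    (σ : GQ) (hσ : B.IsFrobeniusAt σ q)
    (a b : ℕ) (h : HPoly N S) (hh : Θ (evalForms N S h) ≠ 0)
    (hfrob : ∀ x : JZero N, (∃ m : ℕ, p ^ m • x = 0) →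
      frobNewOp N q a b σ (evalJac N S N h x) = 0) :
    LinearMap.charpoly (ρ.ρ σ) = X ^ 2 - C ((q : O) + 1) * X + C ((q : O)) ∨
      LinearMap.charpoly (ρ.ρ σ) = X ^ 2 + C ((q : O) + 1) * X + C ((q : O)) := by
  obtain ⟨hdet, htr⟩ := s35_trace_det_of_frobNew hcheb J hF hp hpO S' ρ Θ hρ q hq hqp B hB σ hσ
    a b h hh hfrob
  have hch := ar_charpoly ρ.finrank_eq (ρ.ρ σ)
  rcases htr with h1 | h1
  · left
    rw [hch, h1, hdet]
  · right
    rw [hch, h1, hdet, map_neg]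
    ring

end Fermat.Agent.S35lib
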