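import Mathlib
import Fermat.Agent.S35lib.AlgFinal
import Fermat.Agent.S35lib.Front
import Fermat.Agent.S35lib.EigenDownNew
import Fermat.Agent.S35lib.ConvFaith
import Fermat.Agent.S31lib.Wiring

/-!
# Item 82 (S35), final wiring: S35 from `FrobNewStatement`

`s35_of_frobNew`: the statement S35 (with exactly the hypotheses of the frozen statement) from

* `FrobNewStatement` (geometry + bridge): for `q ∤ M'`, `p ≠ q`, some `(σ² - q²)^a (σ² - 1)^b`
  kills `h • J₀(M'q)[p^∞]` for every Frobenius lift `σ` at `q` and every Hecke polynomial `h`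
  which kills `J₀(M')[p^∞]`.

Everything else (S30, weak Chebotarev, the Hecke lattice, faithfulness and its converse at level
`M'`, the character of `g`, the Hecke polynomial `h` with `χ_g(h) ≠ 0`) is discharged.
-/

set_option autoImplicit false

open Polynomial IsLocalRing CongruenceSubgroup ModularFormClass

namespace Fermat.Agent.S35lib

open Fermat.Agent.GalRep ModularCurve Fermat.Agent.S31lib

/-- **FrobNew** (the geometric input of S35, with the bridge): for `q ∤ M'` and `p ≠ q` there are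
exponents `a`, `b` such that `(σ² - q²)^a (σ² - 1)^b` kills `h • J₀(M'q)[p^∞]` for every Frobenius
lift `σ` at `q` and every Hecke polynomial `h` (in the `T_ℓ`, `ℓ ∤ M'q`) killing
`J₀(M')[p^∞]`. -/
def FrobNewStatement : Prop :=
  ∀ (M' q p : ℕ) [NeZero M'] [NeZero (M' * q)], q.Prime → p.Prime → q ≠ p → ¬ q ∣ M' →
    ∃ a b : ℕ, FrobNewAt (M' * q) M' (M' * q).primeFactors p q a b

section

variable {M' q : ℕ} [NeZero M'] [NeZero (M' * q)] {g : CuspForm (Gamma0 (M' * q)) 2}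

/-- the second half of S35 at one prime `q ‖ M = M' q`. -/
theorem s35_charpoly_at (hfrob : FrobNewStatement)
    (hg : g.IsNewform) (hq : q.Prime) (hqM' : ¬ q ∣ M')
    (lam : ℕ) [Fact lam.Prime] (hqlam : q ≠ lam) (S : Finset ℕ)
    {O : Type} [CommRing O] [IsDomain O] [IsDiscreteValuationRing O]
    (hlamO : (lam : O) ∈ maximalIdeal O)
    (ρ : GaloisRepAdic O)
    (Θ : CuspForm.heckeAlgebra (M' * q) 2 (↑(M' * q).primeFactors : Set ℕ) →+* O)
    (hρ : ∀ (ℓ : ℕ) (hℓ : ℓ.Prime) (hℓN : ¬ ℓ ∣ M' * q)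
      (hℓS : ℓ ∉ (↑(M' * q).primeFactors : Set ℕ)), ℓ ∉ S →
      ∀ A : ValuationSubring (AlgebraicClosure ℚ), A.LiesOverPrime ℓ →
        ∀ σ : GQ, A.IsFrobeniusAt σ ℓ →
          LinearMap.charpoly (ρ.ρ σ) =
            X ^ 2 - C (Θ (CuspForm.heckeAlgebra.T hℓ hℓN hℓS)) * X + C ((ℓ : O)))
    (hΘ : ∀ t : CuspForm.heckeAlgebra (M' * q) 2 (↑(M' * q).primeFactors : Set ℕ),
      Θ t = 0 ↔ ecChar hg.1 (↑(M' * q).primeFactors) t = 0)
    (B : ValuationSubring (AlgebraicClosure ℚ)) (hB : B.LiesOverPrime q)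
    (σ : GQ) (hσ : B.IsFrobeniusAt σ q) :
    LinearMap.charpoly (ρ.ρ σ) = X ^ 2 - C ((q : O) + 1) * X + C ((q : O)) ∨
      LinearMap.charpoly (ρ.ρ σ) = X ^ 2 + C ((q : O) + 1) * X + C ((q : O)) := by
  have hlam : lam.Prime := Fact.out
  -- the Hecke polynomial
  have hM' : M' ∣ M' * q := Dvd.intro _ rfl
  have hne : M' ≠ M' * q := by
    intro h
    have h1 : M' * 1 = M' * q := by rw [mul_one]; exact h
    have h2 : 1 = q := Nat.eq_of_mul_eq_mul_left (Nat.pos_of_ne_zero (NeZero.ne M')) h1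
    exact hq.one_lt.ne h2
  obtain ⟨P, hP0, hPχ⟩ := exists_poly_of_isNewform_primeFactors hM' hne hg
    (ecChar hg.1 (↑(M' * q).primeFactors))
    (fun ℓ hℓ hℓM hℓS => ecChar_T hg.1 _ hℓ hℓM hℓS)
  have hh : Θ (evalForms (M' * q) (M' * q).primeFactors P) ≠ 0 := fun h0 =>
    hPχ ((hΘ _).mp h0)
  have hkill : KillsLevel (M' * q) (M' * q).primeFactors M' lam P :=
    killsLevel_of_evalFormsAt (M' * q) (M' * q).primeFactors M' lam hlam.pos P hP0
  -- the geometric input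
  obtain ⟨a, b, hab⟩ := hfrob M' q lam hq hlam hqlam hqM'
  -- the lattice
  obtain ⟨J, hJ⟩ := exists_jacInput_faithEmb s37Statement (M' * q) lam
  exact s35_charpoly_of_frobNew weakCheb J (faith_of_faithEmb J _ hJ) hlam hlamO S ρ Θ hρ
    q hq hqlam B hB σ hσ a b P hh (fun x hx => hab B hB σ hσ P hkill x hx)

end

/-- **S35 from FrobNew.** -/
theorem s35_of_frobNew (hfrob : FrobNewStatement)
    {M : ℕ} [NeZero M] {g : CuspForm (CongruenceSubgroup.Gamma0 M) 2} (hg : g.IsNewform)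
    (lam : ℕ) [Fact lam.Prime]
    (S : Finset ℕ)
    (O' : Type) [CommRing O'] [IsDomain O'] [IsDiscreteValuationRing O']
    [IsAdicComplete (IsLocalRing.maximalIdeal O') O'] [Finite (IsLocalRing.ResidueField O')]
    [CharZero O'] (hlamO' : (lam : O') ∈ IsLocalRing.maximalIdeal O')
    (chig : CuspForm.heckeAlgebra M 2 (↑S : Set ℕ) →+* ℂ)
    (hchig : ∀ (ℓ : ℕ) (hℓ : ℓ.Prime) (hℓM : ¬ ℓ ∣ M) (hℓS : ℓ ∉ (↑S : Set ℕ)),
      chig (CuspForm.heckeAlgebra.T hℓ hℓM hℓS) = ModularFormClass.qCoeff g ℓ)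
    (iota : chig.range →+* O')
    (hlamS : lam ∈ S) (hMS : ∀ q : ℕ, q.Prime → q ∣ M → q ∈ S) :
    ∃ (O'' : Type) (_ : CommRing O'') (_ : IsDomain O'') (_ : IsDiscreteValuationRing O'')
      (_ : IsAdicComplete (IsLocalRing.maximalIdeal O'') O'')
      (_ : Finite (IsLocalRing.ResidueField O''))
      (_ : CharZero O'') (_ : Algebra O' O'') (_ : Module.Finite O' O'')
      (_ : IsLocalHom (algebraMap O' O'')),
      Function.Injective (algebraMap O' O'') ∧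
      ∃ ρ : GaloisRepAdic O'',
        (∀ (ℓ : ℕ) (hℓ : ℓ.Prime) (hℓM : ¬ ℓ ∣ M) (hℓS : ℓ ∉ (↑S : Set ℕ)),
          ∀ A : ValuationSubring (AlgebraicClosure ℚ), A.LiesOverPrime ℓ →
            ∀ σ : AlgebraicClosure ℚ ≃ₐ[ℚ] AlgebraicClosure ℚ, A.IsFrobeniusAt σ ℓ →
              LinearMap.charpoly (ρ.ρ σ) =
                X ^ 2 - C (algebraMap O' O'' ((iota.comp chig.rangeRestrict)
                  (CuspForm.heckeAlgebra.T hℓ hℓM hℓS))) * X + C ((ℓ : O''))) ∧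
        (∀ q : ℕ, q.Prime → q ≠ lam → q ∣ M → ¬ q ^ 2 ∣ M →
          ∀ A : ValuationSubring (AlgebraicClosure ℚ), A.LiesOverPrime q →
            ∀ σ : AlgebraicClosure ℚ ≃ₐ[ℚ] AlgebraicClosure ℚ, A.IsFrobeniusAt σ q →
              LinearMap.charpoly (ρ.ρ σ) = X ^ 2 - C ((q : O'') + 1) * X + C ((q : O'')) ∨
              LinearMap.charpoly (ρ.ρ σ) = X ^ 2 + C ((q : O'') + 1) * X + C ((q : O''))) := by
  classical
  have hS0S : M.primeFactors ⊆ S := fun q hq =>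
    hMS q (Nat.prime_of_mem_primeFactors hq) (Nat.dvd_of_mem_primeFactors hq)
  have hMS0 : ∀ q : ℕ, q.Prime → q ∣ M → q ∈ M.primeFactors := fun q hq hqM =>
    Nat.mem_primeFactors.mpr ⟨hq, hqM, NeZero.ne M⟩
  obtain ⟨O'', i1, i2, i3, i4, i5, i6, i7, i8, i9, hinj, ρ, Θ, hρ, hΘT, hΘ0, -⟩ :=
    front_exists hg.1 lam S M.primeFactors hS0S hMS0 O' hlamO' chig hchig iota hlamS
  refine ⟨O'', i1, i2, i3, i4, i5, i6, i7, i8, i9, hinj, ρ, hρ, ?_⟩
  intro q hq hqlam hqM hq2 B hB σ hσ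
  have hlamO'' : (lam : O'') ∈ maximalIdeal O'' := by
    have e : (lam : O'') = algebraMap O' O'' (lam : O') := (map_natCast _ lam).symm
    rw [e]
    exact (IsLocalRing.mem_maximalIdeal _).mpr
      (map_mem_nonunits_iff (algebraMap O' O'') _ |>.mpr
        ((IsLocalRing.mem_maximalIdeal _).mp hlamO'))
  have hρ' : ∀ (ℓ : ℕ) (hℓ : ℓ.Prime) (hℓN : ¬ ℓ ∣ M)
      (hℓS0 : ℓ ∉ (↑M.primeFactors : Set ℕ)), ℓ ∉ S →
      ∀ A : ValuationSubring (AlgebraicClosure ℚ), A.LiesOverPrime ℓ →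
        ∀ σ : GQ, A.IsFrobeniusAt σ ℓ →
          LinearMap.charpoly (ρ.ρ σ) =
            X ^ 2 - C (Θ (CuspForm.heckeAlgebra.T hℓ hℓN hℓS0)) * X + C ((ℓ : O'')) := by
    intro ℓ hℓ hℓN hℓS0 hℓS A hA τ hτ
    have hℓS' : ℓ ∉ (↑S : Set ℕ) := by simpa using hℓS
    rw [hρ ℓ hℓ hℓN hℓS' A hA τ hτ, hΘT ℓ hℓ hℓN hℓS' hℓS0]
  -- `M = M' q`
  obtain ⟨M', hM'⟩ := hqM
  rw [mul_comm] at hM'
  subst hM'
  have hM'0 : NeZero M' := ⟨fun h => NeZero.ne (M' * q) (by rw [h, zero_mul])⟩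
  have hqM' : ¬ q ∣ M' := fun h => hq2 (by rw [pow_two]; exact mul_dvd_mul_right h q)
  exact s35_charpoly_at hfrob hg hq hqM' lam hqlam S hlamO'' ρ Θ hρ' hΘ0 B hB σ hσ

end Fermat.Agent.S35lib
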