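import Mathlib
import Fermat.Agent.S35lib.Wiring
import Fermat.Agent.S35lib.DegJKFinal

/-!
# Item 82 (S35), final wiring, Kummer form: S35 from `Frob2KStatement`

`s35_of_frob2K`: the statement S35 (with exactly the hypotheses of the frozen statement) from the
Kummer form `Frob2K M' q (p ^ n) A` of the geometric input (for all `q ∤ M'`, `p ≠ q`, `A ∣ q`,
`n`), via the bridge `frobNewAt_of_frob2K_all` (pieces G1 (a), (b)).
-/

set_option autoImplicit false

open Polynomial IsLocalRing CongruenceSubgroup ModularFormClass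

namespace Fermat.Agent.S35lib

open Fermat.Agent.GalRep ModularCurve Fermat.Agent.S31lib Fermat.Agent.S24lib

/-- **FROB2, Kummer form**, at all levels `M' q` with `q ∤ M'` and all primes `p ≠ q`. -/
def Frob2KStatement : Prop :=
  ∀ (M' q p : ℕ) [NeZero M'] [NeZero q], q.Prime → p.Prime → q ≠ p → ¬ q ∣ M' →
    ∀ A : ValuationSubring Kbar, A.LiesOverPrime q → ∀ n : ℕ, Frob2K M' q (p ^ n) A

theorem frobNewStatement_of_frob2K (h : Frob2KStatement) : FrobNewStatement := by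
  intro M' q p _ _ hq hp hqp hqM'
  have : NeZero q := ⟨hq.ne_zero⟩
  exact ⟨1, 1, frobNewAt_of_frob2K_all M' hq hqM' p hp.ne_zero _
    (fun A hA n => h M' q p hq hp hqp hqM' A hA n)⟩

/-- **S35 from the Kummer form of FROB2.** -/
theorem s35_of_frob2K (hfrob : Frob2KStatement)
    {M : ℕ} [NeZero M] {g : CuspForm (CongruenceSubgroup.Gamma0 M) 2} (hg : g.IsNewform)
    (lam : ℕ) [Fact lam.Prime]
    (S : Finset ℕ)
    (O' : Type) [CommRing O'] [IsDomain O'] [IsDiscreteValuationRing O']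
    [IsAdicComplete (IsLocalRing.maximalIdeal O') O'] [Finite (IsLocalRing.ResidueField O')]
    [CharZero O'] (hlamO' : (lam : O') ∈ IsLocalRing.maximalIdeal O')
    (chig : CuspForm.heckeAlgebra M 2 (↑S : Set ℕ) →+* ℂ)
    (hchig : ∀ (ℓ : ℕ) (hℓ : ℓ.Prime) (hℓM : ¬ ℓ ∣ M) (hℓS : ℓ ∉ (↑S : Set ℕ)),
      chig (CuspForm.heckeAlgebra.T hℓ hℓM hℓS) = ModularFormClass.qCoeff g ℓ)
    (iota : chig.range →+* O')
    (hlamS : lam ∈ S) (hMS : ∀ q : ℕ, q.Prime → q ∣ M → q ∈ S) :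
    ∃ (O'' : Type) (_ : CommRing O'') (_ : IsDomain O'') (_ : IsDiscreteValuationRing O'')
      (_ : IsAdicComplete (IsLocalRing.maximalIdeal O'') O'')
      (_ : Finite (IsLocalRing.ResidueField O''))
      (_ : CharZero O'') (_ : Algebra O' O'') (_ : Module.Finite O' O'')
      (_ : IsLocalHom (algebraMap O' O'')),
      Function.Injective (algebraMap O' O'') ∧
      ∃ ρ : GaloisRepAdic O'',
        (∀ (ℓ : ℕ) (hℓ : ℓ.Prime) (hℓM : ¬ ℓ ∣ M) (hℓS : ℓ ∉ (↑S : Set ℕ)),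
          ∀ A : ValuationSubring (AlgebraicClosure ℚ), A.LiesOverPrime ℓ →
            ∀ σ : AlgebraicClosure ℚ ≃ₐ[ℚ] AlgebraicClosure ℚ, A.IsFrobeniusAt σ ℓ →
              LinearMap.charpoly (ρ.ρ σ) =
                X ^ 2 - C (algebraMap O' O'' ((iota.comp chig.rangeRestrict)
                  (CuspForm.heckeAlgebra.T hℓ hℓM hℓS))) * X + C ((ℓ : O''))) ∧
        (∀ q : ℕ, q.Prime → q ≠ lam → q ∣ M → ¬ q ^ 2 ∣ M →
          ∀ A : ValuationSubring (AlgebraicClosure ℚ), A.LiesOverPrime q →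
            ∀ σ : AlgebraicClosure ℚ ≃ₐ[ℚ] AlgebraicClosure ℚ, A.IsFrobeniusAt σ q →
              LinearMap.charpoly (ρ.ρ σ) = X ^ 2 - C ((q : O'') + 1) * X + C ((q : O'')) ∨
              LinearMap.charpoly (ρ.ρ σ) = X ^ 2 + C ((q : O'') + 1) * X + C ((q : O''))) :=
  s35_of_frobNew (frobNewStatement_of_frob2K hfrob) hg lam S O' hlamO' chig hchig iota hlamS hMS

end Fermat.Agent.S35lib
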