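import Mathlib
import Fermat.Agent.S34lib.GalRR
import Fermat.Agent.S34lib.InfPlaceAL
import Fermat.Agent.S34lib.F3Dim

/-!
# Item 82/79: bridge between the two names of the cusp `0_q` and of the divisor `a P∞ + b P₀`
(helper15)

`zeroPlaceBar` (helper8, `InfPlaceAL.lean`) and `cuspZero` (helper4, `GalRR.lean`) are the same
place; `f3dDiv P∞ P₀ a b` (helper19, `F3Dim.lean`) is `cuspDiv a b` (helper4); hence the divisors
`f3dDiv P∞ P₀ a b` are fixed by the arithmetic Galois action.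
-/

set_option autoImplicit false

noncomputable section

namespace Fermat.Agent.S35lib

open AlgebraicCurve ModularCurve Fermat.Agent.S24lib Fermat.Agent.S34lib

variable (N : ℕ) [NeZero N] (q : ℕ) (hq : q.Prime) (hqN : q ∣ N) (hq2 : ¬ q ^ 2 ∣ N)

theorem cb_zeroPlaceBar_eq_cuspZero :
    zeroPlaceBar N q hq hqN hq2 = cuspZero N q hq hqN hq2 :=
  zeroPlaceBar_eq_ofAlgAut_smul N q hq hqN hq2

theorem cb_f3dDiv_eq_cuspDiv (a b : ℕ) :
    f3dDiv (infPlaceBar N) (zeroPlaceBar N q hq hqN hq2) a b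
      = cuspDiv N q hq hqN hq2 (a : ℤ) (b : ℤ) := by
  rw [f3dDiv, cuspDiv, cb_zeroPlaceBar_eq_cuspZero]

/-- the divisors `a P∞ + b P₀` are fixed by the arithmetic Galois action -/
theorem cb_galFF_smul_f3dDiv (σ : Kbar ≃ₐ[ℚ] Kbar) (a b : ℕ) :
    galFF N σ • f3dDiv (infPlaceBar N) (zeroPlaceBar N q hq hqN hq2) a b
      = f3dDiv (infPlaceBar N) (zeroPlaceBar N q hq hqN hq2) a b := by
  rw [cb_f3dDiv_eq_cuspDiv, galFF_smul_cuspDiv]

theorem cb_infPlaceBar_ne_zeroPlaceBar :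
    infPlaceBar N ≠ zeroPlaceBar N q hq hqN hq2 := by
  rw [cb_zeroPlaceBar_eq_cuspZero]
  exact infPlaceBar_ne_cuspZero N q hq hqN hq2

end Fermat.Agent.S35lib

end
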