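import Mathlib
import Fermat.Agent.S35lib.NormRed
import Fermat.Agent.S35lib.NormProd

/-!
# Item 82 (S35), piece N2 (NORM-RED), unconditional form

`normRed : ℓ.Prime → ¬ ℓ ∣ N → NormRedStatement N ℓ A` from `normProd` (N1, helper14) and
`normRed_of_normProd` (N2, helper29).
-/

set_option autoImplicit false

noncomputable section

namespace Fermat.Agent.S35lib

open ModularCurve AlgebraicCurve HahnSeries
open Fermat.Agent.S24lib Fermat.Agent.HeckeBar Fermat.Agent.S37lib

/-- **N2 (NORM-RED)**, unconditional. -/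
theorem normRed (N ℓ : ℕ) [NeZero N] [NeZero ℓ] (A : ValuationSubring Kbar)
    [ExpChar (IsLocalRing.ResidueField A) ℓ] (hℓ : ℓ.Prime) (hℓN : ¬ ℓ ∣ N) :
    NormRedStatement N ℓ A :=
  normRed_of_normProd N ℓ A hℓ (normProd N ℓ hℓ hℓN)

end Fermat.Agent.S35lib
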