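/-
Item 82 (S35), add-on to G3a (helper23): THE `β` HALF OF `NormRedCR` FROM THE `α` HALF.

If `R₂ = R₁ ∘ w` for an involution `w` of `F` (Atkin–Lehner) and `Nβ f = Nα (w f)`, then the
`α`-statement `red' (c₁ c₂^q Nα f) = red₁ (c₁ f) · Φ (red₂ (c₂ f))` for all `f` implies the
`β`-statement, hence `NormRedCR`.
* `NormRedAlpha` : the `α` half of `NormRedCR`;
* `normRedCR_of_alpha` : abstract;
No sorry.
-/
import Mathlib
import Fermat.Agent.S35lib.NormNew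

set_option autoImplicit false

noncomputable section

namespace Fermat.Agent.S35lib

open AlgebraicCurve Fermat.Agent.GoodRed

variable {K F F' k Fk : Type*} [Field K] [Field F] [Algebra K F] [Field F'] [Algebra K F']
  [Field k] [Field Fk] [Algebra k Fk]
variable {A : ValuationSubring K} {π : A →+* k}

/-- the `α` half of `NormRedCR` -/
def NormRedAlpha (R' : ConstRed A π Fk F') (R₁ R₂ : ConstRed A π Fk F) (q : ℕ) (Nα : F → F')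
    (Φ : Fk →+* Fk) : Prop :=
  ∀ (f : F), f ≠ 0 → ∀ (c₁ c₂ : K)
    (h₁ : algebraMap K F c₁ * f ∈ R₁.O) (_ : (algebraMap K F c₁ * f)⁻¹ ∈ R₁.O)
    (h₂ : algebraMap K F c₂ * f ∈ R₂.O) (_ : (algebraMap K F c₂ * f)⁻¹ ∈ R₂.O),
    ∃ h : algebraMap K F' (c₁ * c₂ ^ q) * Nα f ∈ R'.O,
      R'.red ⟨_, h⟩ = R₁.red ⟨_, h₁⟩ * Φ (R₂.red ⟨_, h₂⟩)

/-- **`NormRedCR` from its `α` half**, when `R₂ = R₁ ∘ w` and `Nβ = Nα ∘ w` for an involution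
`w`. -/
theorem normRedCR_of_alpha (R' : ConstRed A π Fk F') (R₁ R₂ : ConstRed A π Fk F) (q : ℕ)
    (Nα Nβ : F → F') (Φ : Fk →+* Fk) (w : F ≃ₐ[K] F) (hw : ∀ x, w (w x) = x)
    (hO : ∀ x : F, x ∈ R₂.O ↔ w x ∈ R₁.O)
    (hred : ∀ (x : F) (hx : x ∈ R₂.O) (hx' : w x ∈ R₁.O), R₂.red ⟨x, hx⟩ = R₁.red ⟨w x, hx'⟩)
    (hN : ∀ f : F, Nβ f = Nα (w f))
    (hα : NormRedAlpha R' R₁ R₂ q Nα Φ) : NormRedCR R' R₁ R₂ q Nα Nβ Φ := by
  intro f hf c₁ c₂ h₁ h₁' h₂ h₂'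
  refine ⟨hα f hf c₁ c₂ h₁ h₁' h₂ h₂', ?_⟩
  have hwf : w f ≠ 0 := (map_ne_zero w).mpr hf
  have e₂ : w (algebraMap K F c₂ * f) = algebraMap K F c₂ * w f := by
    rw [map_mul, AlgEquiv.commutes]
  have e₁ : w (algebraMap K F c₁ * w f) = algebraMap K F c₁ * f := by
    rw [map_mul, AlgEquiv.commutes, hw]
  have k₁ : algebraMap K F c₂ * w f ∈ R₁.O := by
    rw [← e₂]
    exact (hO _).1 h₂
  have k₁' : (algebraMap K F c₂ * w f)⁻¹ ∈ R₁.O := by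
    rw [← e₂, ← map_inv₀]
    exact (hO _).1 h₂'
  have k₂ : algebraMap K F c₁ * w f ∈ R₂.O := by
    rw [hO, e₁]
    exact h₁
  have k₂' : (algebraMap K F c₁ * w f)⁻¹ ∈ R₂.O := by
    rw [hO, map_inv₀, e₁]
    exact h₁'
  obtain ⟨h, hh⟩ := hα (w f) hwf c₂ c₁ k₁ k₁' k₂ k₂'
  have hmem : algebraMap K F' (c₂ * c₁ ^ q) * Nβ f ∈ R'.O := by
    rw [hN]
    exact h
  refine ⟨hmem, ?_⟩
  have r₁ : R₁.red ⟨_, k₁⟩ = R₂.red ⟨_, h₂⟩ := by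
    rw [hred _ h₂ ((hO _).1 h₂)]
    congr 1
    exact Subtype.ext e₂.symm
  have r₂ : R₂.red ⟨_, k₂⟩ = R₁.red ⟨_, h₁⟩ := by
    rw [hred _ k₂ ((hO _).1 k₂)]
    congr 1
    exact Subtype.ext e₁
  rw [← r₁, ← r₂, ← hh]
  congr 1
  exact Subtype.ext (congrArg (fun t => algebraMap K F' (c₂ * c₁ ^ q) * t) (hN f))

end Fermat.Agent.S35lib

end
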