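/-
Item 82 (S35), add-on to G3a (helper23): `NormRedCR` at level `Nq` FROM ITS `α` HALF, for the pair
`(R∞, R0 = inredZero R∞)` and the two norms along `α = heckeAlphaBar`, `β = heckeBetaBar`.
Uses `normRedCR_of_alpha` (NormRedSym.lean) with `w = atkinLehnerFF` and
`dgj_normAlong_beta_eq` (`N_β f = N_α (w f)`).
No sorry.
-/
import Mathlib
import Fermat.Agent.S34lib.InertiaRedAL
import Fermat.Agent.S35lib.NormRedSym
import Fermat.Agent.S35lib.DegJNormAL

set_option autoImplicit false
set_option synthInstance.maxHeartbeats 400000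

noncomputable section

namespace Fermat.Agent.S35lib

open AlgebraicCurve ModularCurve Fermat.Agent.GoodRed
open Fermat.Agent.S24lib Fermat.Agent.HeckeBar Fermat.Agent.S34lib

variable (N : ℕ) [NeZero N] {q : ℕ} [NeZero q] [NeZero (N * q)]
variable (hq : q.Prime) (hqN : ¬ q ∣ N)
variable {A : ValuationSubring Kbar}
variable {Fk : IntermediateField (IsLocalRing.ResidueField A)
  (LaurentSeries (IsLocalRing.ResidueField A))}

/-- **`NormRedCR` from its `α` half** for `(R∞, R0)`. -/
theorem normRedCR_of_alpha_al (R' : ConstRed A (IsLocalRing.residue A) (↥Fk) (FF N))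
    (R : ConstRed A (IsLocalRing.residue A) (↥Fk) (FF (N * q))) (Φ : ↥Fk →+* ↥Fk)
    (hα : NormRedAlpha R' R
      (inredZero (N * q) q hq (dvd_mul_left q N) (dgj_not_sq_dvd_mul_self hq hqN) R) q
      (normAlong (heckeAlphaBar Kbar N q)) Φ) :
    NormRedCR R' R
      (inredZero (N * q) q hq (dvd_mul_left q N) (dgj_not_sq_dvd_mul_self hq hqN) R) q
      (normAlong (heckeAlphaBar Kbar N q)) (normAlong (heckeBetaBar Kbar N q)) Φ :=
  normRedCR_of_alpha R' R _ q _ _ Φ
    (atkinLehnerFF (N * q) q hq (dvd_mul_left q N) (dgj_not_sq_dvd_mul_self hq hqN))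
    (atkinLehnerFF_involutive (N * q) q hq _ _)
    (fun _ => Iff.rfl) (fun _ _ _ => rfl)
    (dgj_normAlong_beta_eq N hq hqN) hα

end Fermat.Agent.S35lib

end
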