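import Mathlib

/-!
# Item 82 (S35), piece P3c (SMO-LITE), algebra lemmas

* `smo_val`: for an injective homomorphism of discrete valuation rings `O → O''` the
  `𝔪''`-adic topology induces the `𝔪`-adic one: `x ∈ 𝔪''^(e m) ⇒ x ∈ 𝔪^m`.
* `smo_injective_of_integral`: a ring homomorphism from a domain integral over `ℤ` to a ring of
  characteristic zero which is a domain is injective.
-/

set_option autoImplicit false

namespace Fermat.Agent.S35lib

open IsLocalRing

/-- In a discrete valuation ring, `u ϖ^a ∈ 𝔪^n` forces `n ≤ a`. -/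
lemma smo_le_of_unit_mul_pow_mem {O : Type*} [CommRing O] [IsDomain O]
    [IsDiscreteValuationRing O] {ϖ : O} (hϖ : Irreducible ϖ) (u : Oˣ) (a n : ℕ)
    (h : (u : O) * ϖ ^ a ∈ maximalIdeal O ^ n) : n ≤ a := by
  rw [hϖ.maximalIdeal_eq, Ideal.span_singleton_pow, Ideal.mem_span_singleton] at h
  have h2 : ϖ ^ n ∣ ϖ ^ a := by
    have := (Units.dvd_mul_left (u := u) (a := ϖ ^ n) (b := ϖ ^ a)).mp h
    exact this
  exact (pow_dvd_pow_iff hϖ.ne_zero hϖ.not_isUnit).mp h2

/-- In a discrete valuation ring, `u ϖ^a ∈ 𝔪^n` when `n ≤ a`. -/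
lemma smo_unit_mul_pow_mem {O : Type*} [CommRing O] [IsDomain O]
    [IsDiscreteValuationRing O] {ϖ : O} (hϖ : Irreducible ϖ) (u : O) (a n : ℕ) (h : n ≤ a) :
    u * ϖ ^ a ∈ maximalIdeal O ^ n := by
  rw [hϖ.maximalIdeal_eq, Ideal.span_singleton_pow, Ideal.mem_span_singleton]
  exact Dvd.dvd.mul_left (pow_dvd_pow ϖ h) u

/-- **Valuation comparison** for an injective homomorphism of discrete valuation rings. -/
theorem smo_val {O O'' : Type*} [CommRing O] [IsDomain O] [IsDiscreteValuationRing O]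
    [CommRing O''] [IsDomain O''] [IsDiscreteValuationRing O''] (f : O →+* O'')
    (hinj : Function.Injective f) :
    ∃ e : ℕ, ∀ (x : O) (m : ℕ), f x ∈ maximalIdeal O'' ^ (e * m) → x ∈ maximalIdeal O ^ m := by
  obtain ⟨π, hπ⟩ := IsDiscreteValuationRing.exists_irreducible O
  obtain ⟨ϖ, hϖ⟩ := IsDiscreteValuationRing.exists_irreducible O''
  have hfπ : f π ≠ 0 := by
    intro h
    exact hπ.ne_zero (hinj (by rw [h, map_zero]))
  obtain ⟨e0, u, hu⟩ := IsDiscreteValuationRing.eq_unit_mul_pow_irreducible hfπ hϖ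
  refine ⟨e0 + 1, fun x m hx => ?_⟩
  rcases eq_or_ne x 0 with rfl | hx0
  · exact Ideal.zero_mem _
  obtain ⟨a, v, hv⟩ := IsDiscreteValuationRing.eq_unit_mul_pow_irreducible hx0 hπ
  rw [hv]
  apply smo_unit_mul_pow_mem hπ
  -- `f x = unit * ϖ ^ (e0 * a)`
  have hfx : f x = ((Units.map (f : O →* O'') v * u ^ a : O''ˣ) : O'') * ϖ ^ (e0 * a) := by
    rw [hv, map_mul, map_pow, hu, mul_pow, ← pow_mul]
    push_cast
    rw [Units.coe_map]
    simp only [MonoidHom.coe_coe]
    ring
  rw [hfx] at hx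
  have hle := smo_le_of_unit_mul_pow_mem hϖ _ _ _ hx
  by_contra hlt
  rw [not_le] at hlt
  have h1 : e0 * a < (e0 + 1) * m := by
    calc e0 * a ≤ e0 * m := Nat.mul_le_mul_left _ hlt.le
      _ < (e0 + 1) * m := by
          have hm : 0 < m := lt_of_le_of_lt (Nat.zero_le _) hlt
          nlinarith
  omega

/-- A ring homomorphism from a domain integral over `ℤ` to a domain of characteristic zero is
injective. -/
theorem smo_injective_of_integral {B O : Type*} [CommRing B] [IsDomain B]
    [Algebra.IsIntegral ℤ B] [CommRing O] [IsDomain O] [CharZero O] (f : B →+* O) :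
    Function.Injective f := by
  rw [injective_iff_map_eq_zero]
  have hprime : (RingHom.ker f).IsPrime := RingHom.ker_isPrime f
  have hbot : RingHom.ker f = ⊥ := by
    apply Ideal.eq_bot_of_comap_eq_bot (R := ℤ)
    rw [eq_bot_iff]
    intro n hn
    rw [Ideal.mem_comap, RingHom.mem_ker, eq_intCast, map_intCast] at hn
    rw [Ideal.mem_bot]
    exact_mod_cast hn
  intro x hx
  have : x ∈ RingHom.ker f := hx
  rw [hbot, Ideal.mem_bot] at this
  exact this

end Fermat.Agent.S35lib
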