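import Mathlib
import Fermat.Agent.S35lib.SmoVal
import Fermat.Agent.S31lib.TrCong
import Fermat.Agent.S31lib.PowTr
import Fermat.Agent.GalRep.Interface
import Fermat.Agent.FrobProfinite

/-!
# Item 82 (S35), piece P3c (SMO-LITE), core

Two adically continuous representations over complete discrete valuation rings `O₁`, `O₂` over
a common discrete valuation ring `O'`, whose Frobenius characteristic polynomials are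
`X² - a_ℓ X + ℓ` resp. `X² - a'_ℓ X + ℓ` (`a_ℓ, a'_ℓ ∈ O'`) outside a finite set `Sbad`:
if `a_ℓ = a'_ℓ` for almost all `ℓ`, then `a_ℓ = a'_ℓ` for all `ℓ ∉ Sbad`
(weak Chebotarev + continuity of traces + comparison of the adic topologies).
-/

set_option autoImplicit false

open Polynomial IsLocalRing

namespace Fermat.Agent.S35lib

open Fermat.Agent.GalRep Fermat.Agent.S31lib

theorem smo_core (hCheb : WeakCheb)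
    (O' : Type) [CommRing O'] [IsDomain O'] [IsDiscreteValuationRing O']
    (a a' : ℕ → O') (Sbad : Finset ℕ)
    (O₁ : Type) [CommRing O₁] [IsDomain O₁] [IsDiscreteValuationRing O₁] [Algebra O' O₁]
    (hinj₁ : Function.Injective (algebraMap O' O₁)) (ρ₁ : GaloisRepAdic O₁)
    (h₁ : ∀ ℓ : ℕ, ℓ.Prime → ℓ ∉ Sbad →
      ∀ A : ValuationSubring (AlgebraicClosure ℚ), A.LiesOverPrime ℓ →
        ∀ σ : AlgebraicClosure ℚ ≃ₐ[ℚ] AlgebraicClosure ℚ, A.IsFrobeniusAt σ ℓ →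
          LinearMap.charpoly (ρ₁.ρ σ) = X ^ 2 - C (algebraMap O' O₁ (a ℓ)) * X + C ((ℓ : O₁)))
    (O₂ : Type) [CommRing O₂] [IsDomain O₂] [IsDiscreteValuationRing O₂] [Algebra O' O₂]
    (hinj₂ : Function.Injective (algebraMap O' O₂)) (ρ₂ : GaloisRepAdic O₂)
    (h₂ : ∀ ℓ : ℕ, ℓ.Prime → ℓ ∉ Sbad →
      ∀ A : ValuationSubring (AlgebraicClosure ℚ), A.LiesOverPrime ℓ →
        ∀ σ : AlgebraicClosure ℚ ≃ₐ[ℚ] AlgebraicClosure ℚ, A.IsFrobeniusAt σ ℓ →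
          LinearMap.charpoly (ρ₂.ρ σ) = X ^ 2 - C (algebraMap O' O₂ (a' ℓ)) * X + C ((ℓ : O₂)))
    (S : Finset ℕ) (hS : ∀ ℓ : ℕ, ℓ.Prime → ℓ ∉ Sbad → ℓ ∉ S → a ℓ = a' ℓ) :
    ∀ ℓ₀ : ℕ, ℓ₀.Prime → ℓ₀ ∉ Sbad → a ℓ₀ = a' ℓ₀ := by
  intro ℓ₀ hℓ₀ hℓ₀bad
  obtain ⟨A₀, σ₀, hA₀, hσ₀⟩ := Fermat.Agent.FrobLib.exists_isFrobeniusAt ℓ₀ hℓ₀
  obtain ⟨e₁, he₁⟩ := smo_val (algebraMap O' O₁) hinj₁
  obtain ⟨e₂, he₂⟩ := smo_val (algebraMap O' O₂) hinj₂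
  apply trcong_eq_of_forall_mem
  intro m
  obtain ⟨L₁, hL₁fin, hL₁⟩ := ρ₁.isAdicContinuous (e₁ * m)
  obtain ⟨L₂, hL₂fin, hL₂⟩ := ρ₂.isAdicContinuous (e₂ * m)
  have hfin : FiniteDimensional ℚ ↥(L₁ ⊔ L₂) := IntermediateField.finiteDimensional_sup L₁ L₂
  obtain ⟨ℓ, A, τ, k, k', hℓ, hℓS, hA, hτ, -, hk'⟩ := hCheb (L₁ ⊔ L₂) hfin (S ∪ Sbad) σ₀
  have hℓbad : ℓ ∉ Sbad := fun h => hℓS (Finset.mem_union_right _ h)
  have hℓS' : ℓ ∉ S := fun h => hℓS (Finset.mem_union_left _ h)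
  -- first representation
  have c₁ := trcong_of_level ρ₁ (e₁ * m) L₁ hL₁ σ₀ (τ ^ k')
    (fun x hx => hk' x ((le_sup_left : L₁ ≤ L₁ ⊔ L₂) hx))
  have t₁ : ρ₁.trace σ₀ = algebraMap O' O₁ (a ℓ₀) :=
    pow_trace_of_charpoly ρ₁.finrank_eq _ _ _ (h₁ ℓ₀ hℓ₀ hℓ₀bad A₀ hA₀ σ₀ hσ₀)
  have t₁' : ρ₁.trace (τ ^ k') = algebraMap O' O₁ (powTr (a ℓ) (ℓ : O') k') := by
    rw [GaloisRepAdic.trace, map_pow,
      trace_pow_eq_powTr ρ₁.finrank_eq _ _ _ (h₁ ℓ hℓ hℓbad A hA τ hτ) k', map_powTr,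
      map_natCast]
  have m₁ : powTr (a ℓ) (ℓ : O') k' - a ℓ₀ ∈ maximalIdeal O' ^ m := by
    apply he₁
    rw [map_sub, ← t₁, ← t₁']
    exact c₁
  -- second representation
  have c₂ := trcong_of_level ρ₂ (e₂ * m) L₂ hL₂ σ₀ (τ ^ k')
    (fun x hx => hk' x ((le_sup_right : L₂ ≤ L₁ ⊔ L₂) hx))
  have t₂ : ρ₂.trace σ₀ = algebraMap O' O₂ (a' ℓ₀) :=
    pow_trace_of_charpoly ρ₂.finrank_eq _ _ _ (h₂ ℓ₀ hℓ₀ hℓ₀bad A₀ hA₀ σ₀ hσ₀)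
  have t₂' : ρ₂.trace (τ ^ k') = algebraMap O' O₂ (powTr (a' ℓ) (ℓ : O') k') := by
    rw [GaloisRepAdic.trace, map_pow,
      trace_pow_eq_powTr ρ₂.finrank_eq _ _ _ (h₂ ℓ hℓ hℓbad A hA τ hτ) k', map_powTr,
      map_natCast]
  have m₂ : powTr (a' ℓ) (ℓ : O') k' - a' ℓ₀ ∈ maximalIdeal O' ^ m := by
    apply he₂
    rw [map_sub, ← t₂, ← t₂']
    exact c₂
  rw [hS ℓ hℓ hℓbad hℓS'] at m₁
  have h3 := Ideal.sub_mem _ m₂ m₁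
  have e : powTr (a' ℓ) (ℓ : O') k' - a' ℓ₀ - (powTr (a' ℓ) (ℓ : O') k' - a ℓ₀)
      = a ℓ₀ - a' ℓ₀ := by ring
  rw [e] at h3
  exact h3

end Fermat.Agent.S35lib
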