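import Mathlib
import Fermat.Agent.S35lib.SmoCore
import Fermat.Agent.GalRep.EigenChar
import Fermat.Agent.GalRep.CompleteDVR
import Fermat.Agent.GalRep.Goals
import Fermat.Prelude.Def_CuspForm_Newforms

/-!
# Item 82 (S35), piece P3c: SMO-LITE

Two normalised eigenforms `g` (level `M`) and `g'` (level `M' ∣ M`) whose Hecke eigenvalues agree
at all primes `ℓ ∤ M` outside a finite set `S` have the same eigenvalues at ALL primes `ℓ ∤ M`.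

`smoLite_of` is the statement with `S30Statement` and `WeakCheb` as hypotheses (light imports);
`S35lib/SmoLiteFinal.lean` removes them.
-/

set_option autoImplicit false

open Polynomial IsLocalRing CongruenceSubgroup ModularFormClass

namespace Fermat.Agent.S35lib

open Fermat.Agent.GalRep

/-- A residue map of `ℤ̄` of characteristic `p`. -/
theorem smo_exists_residue (p : ℕ) (hp : p.Prime) :
    ∃ (𝔪 : Ideal (integralClosure ℤ ℂ)), 𝔪.IsMaximal ∧ (p : integralClosure ℤ ℂ) ∈ 𝔪 := by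
  have hne : Ideal.span {(p : integralClosure ℤ ℂ)} ≠ ⊤ := by
    rw [Ne, Ideal.span_singleton_eq_top]
    intro hu
    -- `p` is not a unit of `ℤ̄`: `ℤ̄ ∩ ℚ = ℤ`
    obtain ⟨v, hv⟩ := hu.exists_right_inv
    have hint : IsIntegral ℤ ((v : integralClosure ℤ ℂ) : ℂ) := v.2
    have hvC : ((v : integralClosure ℤ ℂ) : ℂ) = ((1 / p : ℚ) : ℂ) := by
      have h1 := congrArg (fun x : integralClosure ℤ ℂ => (x : ℂ)) hv
      simp only [MulMemClass.coe_mul, OneMemClass.coe_one] at h1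
      have hp0 : (p : ℂ) ≠ 0 := Nat.cast_ne_zero.mpr hp.ne_zero
      have h2 : ((p : integralClosure ℤ ℂ) : ℂ) = (p : ℂ) := by simp
      rw [h2] at h1
      push_cast
      field_simp
      linear_combination h1
    rw [hvC] at hint
    have hint' : IsIntegral ℤ (1 / p : ℚ) :=
      (isIntegral_algebraMap_iff (algebraMap ℚ ℂ).injective).mp hint
    obtain ⟨z, hz⟩ := IsIntegrallyClosed.isIntegral_iff.mp hint'
    have hz' : (z : ℚ) * p = 1 := by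
      have hp0 : (p : ℚ) ≠ 0 := Nat.cast_ne_zero.mpr hp.ne_zero
      have : (algebraMap ℤ ℚ) z = (z : ℚ) := rfl
      rw [this] at hz
      rw [hz]
      field_simp
    have hz'' : z * (p : ℤ) = 1 := by exact_mod_cast hz'
    have := Int.isUnit_iff.mp (IsUnit.of_mul_eq_one _ (by rw [mul_comm]; exact hz''))
    have h2 := hp.two_le
    omega
  obtain ⟨𝔪, h𝔪, hle⟩ := Ideal.exists_le_maximal _ hne
  exact ⟨𝔪, h𝔪, hle (Ideal.subset_span rfl)⟩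

theorem smoLite_of (hS30 : S30Statement) (hCheb : WeakCheb)
    {M M' : ℕ} [NeZero M] [NeZero M'] (hM' : M' ∣ M)
    {g : CuspForm (Gamma0 M) 2} {g' : CuspForm (Gamma0 M') 2}
    (hg : g.IsNormalizedEigenform) (hg' : g'.IsNormalizedEigenform) (S : Finset ℕ)
    (h : ∀ ℓ : ℕ, ℓ.Prime → ¬ ℓ ∣ M → ℓ ∉ S → qCoeff g' ℓ = qCoeff g ℓ) :
    ∀ ℓ : ℕ, ℓ.Prime → ¬ ℓ ∣ M → qCoeff g' ℓ = qCoeff g ℓ := by
  classical
  intro ℓ₀ hℓ₀ hℓ₀M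
  have hM0 : M ≠ 0 := NeZero.ne M
  -- the auxiliary prime `p ≠ ℓ₀`
  obtain ⟨p, hp, hpℓ₀⟩ : ∃ p : ℕ, p.Prime ∧ p ≠ ℓ₀ := by
    by_cases h2 : ℓ₀ = 2
    · exact ⟨3, Nat.prime_three, by omega⟩
    · exact ⟨2, Nat.prime_two, fun h' => h2 h'.symm⟩
  have : Fact p.Prime := ⟨hp⟩
  obtain ⟨S2, hS2⟩ : ∃ S2 : Finset ℕ, S2 = insert p M.primeFactors := ⟨_, rfl⟩
  have hpS2 : p ∈ S2 := by rw [hS2]; exact Finset.mem_insert_self _ _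
  have hMS2 : ∀ q : ℕ, q.Prime → q ∣ M → q ∈ S2 := by
    intro q hq hqM
    rw [hS2]
    exact Finset.mem_insert_of_mem (Nat.mem_primeFactors.2 ⟨hq, hqM, hM0⟩)
  have hM'S2 : ∀ q : ℕ, q.Prime → q ∣ M' → q ∈ S2 := fun q hq hqM' =>
    hMS2 q hq (dvd_trans hqM' hM')
  have hnotS2 : ∀ ℓ : ℕ, ℓ ≠ p → ¬ ℓ ∣ M → ℓ ∉ (↑S2 : Set ℕ) := by
    intro ℓ hℓp hℓM hmem
    rw [hS2] at hmem
    rcases Finset.mem_insert.1 hmem with h1 | h1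
    · exact hℓp h1
    · exact hℓM (Nat.mem_primeFactors.1 h1).2.1
  have hS2M : ∀ ℓ : ℕ, ℓ.Prime → ℓ ∉ S2 → ¬ ℓ ∣ M := fun ℓ hℓ hℓS2 hℓM => hℓS2 (hMS2 ℓ hℓ hℓM)
  have hS2M' : ∀ ℓ : ℕ, ℓ.Prime → ℓ ∉ S2 → ¬ ℓ ∣ M' := fun ℓ hℓ hℓS2 hℓM' =>
    hℓS2 (hM'S2 ℓ hℓ hℓM')
  -- the two characters
  obtain ⟨χg, hχg⟩ := exists_heckeChar_of_eigenform hg (↑S2 : Set ℕ)
  obtain ⟨χg', hχg'⟩ := exists_heckeChar_of_eigenform hg' (↑S2 : Set ℕ)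
  have hfin1 : Module.Finite ℤ (CuspForm.heckeAlgebra M 2 (↑S2 : Set ℕ)) :=
    Fermat.Agent.S22.result M 2 (↑S2 : Set ℕ)
  have hfin2 : Module.Finite ℤ (CuspForm.heckeAlgebra M' 2 (↑S2 : Set ℕ)) :=
    Fermat.Agent.S22.result M' 2 (↑S2 : Set ℕ)
  -- the ring `B` generated by the two ranges
  let A1 : Subalgebra ℤ (integralClosure ℤ ℂ) := χg.toIntAlgHom.range
  let A2 : Subalgebra ℤ (integralClosure ℤ ℂ) := χg'.toIntAlgHom.range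
  have hA1 : Module.Finite ℤ A1 :=
    Module.Finite.of_surjective χg.toIntAlgHom.rangeRestrict.toLinearMap
      χg.toIntAlgHom.rangeRestrict_surjective
  have hA2 : Module.Finite ℤ A2 :=
    Module.Finite.of_surjective χg'.toIntAlgHom.rangeRestrict.toLinearMap
      χg'.toIntAlgHom.rangeRestrict_surjective
  have hB : Module.Finite ℤ ↥(A1 ⊔ A2) := Subalgebra.finite_sup A1 A2
  have hBint : Algebra.IsIntegral ℤ ↥(A1 ⊔ A2) := Algebra.IsIntegral.of_finite ℤ _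
  have hmem1 : ∀ t, χg t ∈ A1 ⊔ A2 := fun t =>
    (le_sup_left : A1 ≤ A1 ⊔ A2) ⟨t, rfl⟩
  have hmem2 : ∀ t, χg' t ∈ A1 ⊔ A2 := fun t =>
    (le_sup_right : A2 ≤ A1 ⊔ A2) ⟨t, rfl⟩
  let j1 : CuspForm.heckeAlgebra M 2 (↑S2 : Set ℕ) →+* ↥(A1 ⊔ A2) :=
    χg.codRestrict (A1 ⊔ A2) hmem1
  let j2 : CuspForm.heckeAlgebra M' 2 (↑S2 : Set ℕ) →+* ↥(A1 ⊔ A2) :=
    χg'.codRestrict (A1 ⊔ A2) hmem2
  -- the complete discrete valuation ring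
  obtain ⟨𝔪, h𝔪, hp𝔪⟩ := smo_exists_residue p hp
  let k := integralClosure ℤ ℂ ⧸ 𝔪
  let _ : Field k := Ideal.Quotient.field 𝔪
  have hp0 : ((p : ℕ) : k) = 0 := by
    have : (Ideal.Quotient.mk 𝔪) (p : integralClosure ℤ ℂ) = 0 :=
      Ideal.Quotient.eq_zero_iff_mem.mpr hp𝔪
    rwa [map_natCast] at this
  have hchar : CharP k p := (CharP.charP_iff_prime_eq_zero hp).mpr hp0
  obtain ⟨O', _, _, _, _, _, _, χ', hpO', -⟩ :=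
    exists_completeDVR_of_residue (R := ↥(A1 ⊔ A2)) (A1 ⊔ A2).val.toRingHom hp
      (Ideal.Quotient.mk 𝔪 : integralClosure ℤ ℂ →+* k)
  have hχ'inj : Function.Injective χ' := smo_injective_of_integral χ'
  -- the two representations
  obtain ⟨O₁, _, _, _, _, _, _, _, _, _, hinj₁, ρ₁, hρ₁, -⟩ :=
    hS30 p M S2 hpS2 hMS2 O' hpO' (χ'.comp j1)
  obtain ⟨O₂, _, _, _, _, _, _, _, _, _, hinj₂, ρ₂, hρ₂, -⟩ :=
    hS30 p M' S2 hpS2 hM'S2 O' hpO' (χ'.comp j2)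
  -- the eigenvalue functions
  let a : ℕ → O' := fun ℓ =>
    if hℓ : ℓ.Prime ∧ ℓ ∉ S2 then
      (χ'.comp j1) (CuspForm.heckeAlgebra.T hℓ.1 (hS2M ℓ hℓ.1 hℓ.2) hℓ.2) else 0
  let a' : ℕ → O' := fun ℓ =>
    if hℓ : ℓ.Prime ∧ ℓ ∉ S2 then
      (χ'.comp j2) (CuspForm.heckeAlgebra.T hℓ.1 (hS2M' ℓ hℓ.1 hℓ.2) hℓ.2) else 0
  have ha : ∀ (ℓ : ℕ) (hℓ : ℓ.Prime) (hℓS2 : ℓ ∉ S2),
      a ℓ = (χ'.comp j1) (CuspForm.heckeAlgebra.T hℓ (hS2M ℓ hℓ hℓS2) hℓS2) := by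
    intro ℓ hℓ hℓS2
    simp only [a]
    rw [dif_pos ⟨hℓ, hℓS2⟩]
  have ha' : ∀ (ℓ : ℕ) (hℓ : ℓ.Prime) (hℓS2 : ℓ ∉ S2),
      a' ℓ = (χ'.comp j2) (CuspForm.heckeAlgebra.T hℓ (hS2M' ℓ hℓ hℓS2) hℓS2) := by
    intro ℓ hℓ hℓS2
    simp only [a']
    rw [dif_pos ⟨hℓ, hℓS2⟩]
  -- equality of `a` and `a'` from equality of `q`-coefficients
  have hkey : ∀ (ℓ : ℕ) (hℓ : ℓ.Prime) (hℓS2 : ℓ ∉ S2),
      (a ℓ = a' ℓ ↔ qCoeff g' ℓ = qCoeff g ℓ) := by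
    intro ℓ hℓ hℓS2
    rw [ha ℓ hℓ hℓS2, ha' ℓ hℓ hℓS2, RingHom.comp_apply, RingHom.comp_apply,
      hχ'inj.eq_iff, ← hχg ℓ hℓ (hS2M ℓ hℓ hℓS2) hℓS2, ← hχg' ℓ hℓ (hS2M' ℓ hℓ hℓS2) hℓS2]
    constructor
    · intro e
      have := congrArg (fun x : ↥(A1 ⊔ A2) => ((x : integralClosure ℤ ℂ) : ℂ)) e
      exact this.symm
    · intro e
      apply Subtype.ext
      apply Subtype.ext
      exact e.symm
  have hcore := smo_core hCheb O' a a' S2 O₁ hinj₁ ρ₁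
    (fun ℓ hℓ hℓS2 A hA σ hσ => by
      rw [ha ℓ hℓ hℓS2]
      exact hρ₁ ℓ hℓ (hS2M ℓ hℓ hℓS2) hℓS2 A hA σ hσ)
    O₂ hinj₂ ρ₂
    (fun ℓ hℓ hℓS2 A hA σ hσ => by
      rw [ha' ℓ hℓ hℓS2]
      exact hρ₂ ℓ hℓ (hS2M' ℓ hℓ hℓS2) hℓS2 A hA σ hσ)
    S
    (fun ℓ hℓ hℓS2 hℓS => (hkey ℓ hℓ hℓS2).mpr (h ℓ hℓ (hS2M ℓ hℓ hℓS2) hℓS))
  have hℓ₀S2 : ℓ₀ ∉ S2 := hnotS2 ℓ₀ (fun h' => hpℓ₀ h'.symm) hℓ₀M
  exact (hkey ℓ₀ hℓ₀ hℓ₀S2).mp (hcore ℓ₀ hℓ₀ hℓ₀S2)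

end Fermat.Agent.S35lib
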