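import Fermat.Agent.S35lib.SmoLite
import Fermat.Agent.GalRep.S37Input
import Fermat.Agent.Cheb.WeakQbar

/-!
# Item 82 (S35), piece P3c: SMO-LITE, unconditional

* `smoLite`: eigenvalues of two normalised eigenforms of levels `M' ∣ M` agreeing at almost all
  primes `ℓ ∤ M` agree at all primes `ℓ ∤ M`.
* `smoLite_occurs`: then the good eigensystem of `g` occurs at level `M'`.
* `smoLite_not_isNewform`: so `g` is not a newform if `M' ≠ M`.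
-/

set_option autoImplicit false

open CongruenceSubgroup ModularFormClass

namespace Fermat.Agent.S35lib

theorem smoLite {M M' : ℕ} [NeZero M] [NeZero M'] (hM' : M' ∣ M)
    {g : CuspForm (Gamma0 M) 2} {g' : CuspForm (Gamma0 M') 2}
    (hg : g.IsNormalizedEigenform) (hg' : g'.IsNormalizedEigenform) (S : Finset ℕ)
    (h : ∀ ℓ : ℕ, ℓ.Prime → ¬ ℓ ∣ M → ℓ ∉ S → qCoeff g' ℓ = qCoeff g ℓ) :
    ∀ ℓ : ℕ, ℓ.Prime → ¬ ℓ ∣ M → qCoeff g' ℓ = qCoeff g ℓ :=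
  smoLite_of Fermat.Agent.GalRep.s30Statement Fermat.Agent.GalRep.weakCheb hM' hg hg' S h

theorem smoLite_occurs {M M' : ℕ} [NeZero M] [NeZero M'] (hM' : M' ∣ M)
    {g : CuspForm (Gamma0 M) 2} {g' : CuspForm (Gamma0 M') 2}
    (hg : g.IsNormalizedEigenform) (hg' : g'.IsNormalizedEigenform) (S : Finset ℕ)
    (h : ∀ ℓ : ℕ, ℓ.Prime → ¬ ℓ ∣ M → ℓ ∉ S → qCoeff g' ℓ = qCoeff g ℓ) :
    CuspForm.GoodEigensystemOccursAt g M' :=
  ⟨g', hg', smoLite hM' hg hg' S h⟩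

theorem smoLite_not_isNewform {M M' : ℕ} [NeZero M] [NeZero M'] (hM' : M' ∣ M)
    {g : CuspForm (Gamma0 M) 2} {g' : CuspForm (Gamma0 M') 2}
    (hg' : g'.IsNormalizedEigenform) (S : Finset ℕ)
    (h : ∀ ℓ : ℕ, ℓ.Prime → ¬ ℓ ∣ M → ℓ ∉ S → qCoeff g' ℓ = qCoeff g ℓ)
    (hnew : g.IsNewform) (hne : M' ≠ M) : False :=
  hnew.2 M' hM' hne (smoLite_occurs hM' hnew.1 hg' S h)

end Fermat.Agent.S35lib
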